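import Fermat.Agent.Carayol.Inertial
import Fermat.Agent.JacTorsion.Descent
import Fermat.Agent.Mazur.Eisenstein.Cusps
import Fermat.Agent.RT.Mazur.FixedBasis

/-!
# Rationality over the field fixed by a group of automorphisms of the constants

A class fixed by a subgroup `H` of the Galois group (for example inertia) is the class of a fixed
divisor, whose functions can be chosen with fixed coefficients; a fixed divisor has everywhere local
equations with fixed coefficients.

These are `exists_fixed_repH`, `exists_fixed_funH` and `exists_fixed_ordH`.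
-/

set_option autoImplicit false

noncomputable section

namespace Fermat.Agent.Carayol

open ModularCurve AlgebraicCurve

attribute [local instance 20000] SubalgebraClass.toAlgebra
attribute [-instance] IsLocalRing.ResidueField.algebraOfIsIntegral IsScalarTower.of_algHom
  RingHom.Finite.instFinite

/-! ### Fixed classes have fixed divisors -/

section General

variable {K F : Type*} [Field K] [Field F] [Algebra K F] [FF.IsFunctionField K F] [IsAlgClosed K]

omit [FF.IsFunctionField K F] [IsAlgClosed K] in
/-- The coefficient at `P` of a multiple of one place. -/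
private theorem single_apply_eq_ite (P₀ P : Place K F) (a : ℤ) [Decidable (P = P₀)] :
    Finsupp.single P₀ a P = if P = P₀ then a else 0 := by
  rcases eq_or_ne P P₀ with rfl | h
  · simp
  · rw [Finsupp.single_eq_of_ne h, if_neg h]

/-- If `D + (j - 1) P₀` has no nonzero section, all nonzero sections of `D + j P₀` have the same
orders, as they are constant multiples of one of them. -/
private theorem ord_eq_of_minimal (P₀ : Place K F) {D : Divisor K F} {j : ℕ} {f : F} (hf0 : f ≠ 0)
    (hf : ∀ P, 0 ≤ (D + Finsupp.single P₀ (j : ℤ)) P + P.ord f)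
    (hmin : ∀ g : F, g ≠ 0 → ¬ ∀ P, 0 ≤ (D + Finsupp.single P₀ ((j : ℤ) - 1)) P + P.ord g)
    {u : F} (hu0 : u ≠ 0) (hu : ∀ P, 0 ≤ (D + Finsupp.single P₀ (j : ℤ)) P + P.ord u) :
    ∀ P : Place K F, P.ord u = P.ord f := by
  classical
  have hsingle := single_apply_eq_ite P₀
  have hexact : ∀ w : F, w ≠ 0 → (∀ P, 0 ≤ (D + Finsupp.single P₀ (j : ℤ)) P + P.ord w) →
      D P₀ + j + P₀.ord w = 0 := by
    intro w hw0 hw
    by_contra hne
    refine hmin w hw0 fun P => ?_
    have := hw P
    rw [Finsupp.add_apply, hsingle] at this ⊢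
    rcases eq_or_ne P P₀ with rfl | h
    · rw [if_pos rfl] at this ⊢; omega
    · rw [if_neg h] at this ⊢; omega
  -- both have the exact order at `P₀`, so they differ by the constant of their ratio there
  have e1 := hexact u hu0 hu
  have e2 := hexact f hf0 hf
  have hord : P₀.ord (u / f) = 0 := by rw [FF.ord_div P₀ hu0 hf0]; omega
  obtain ⟨c, hc⟩ := JacTorsion.residueConst_of_isFunctionField P₀ _
    (JacTorsion.mem_of_ord_nonneg P₀ hord.ge)
  have huc : u = algebraMap K F c * f := by
    by_contra hne
    have hne' : u - algebraMap K F c * f ≠ 0 := sub_ne_zero.mpr hne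
    refine hmin _ hne' fun P => ?_
    rw [Finsupp.add_apply, hsingle]
    rcases eq_or_ne P P₀ with rfl | h
    · rw [if_pos rfl]
      have hne'' : u / f - algebraMap K F c ≠ 0 := fun h0 => hne (by
        rw [sub_eq_zero] at h0; rw [← h0, div_mul_cancel₀ _ hf0])
      have h1 := ((JacTorsion.valuation_lt_one_iff P).mp hc).resolve_left hne''
      rw [show u - algebraMap K F c * f = (u / f - algebraMap K F c) * f by
        rw [sub_mul, div_mul_cancel₀ _ hf0], P.ord_mul hne'' hf0]
      omega
    · rw [if_neg h]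
      have h1 := hu P
      have h2 := hf P
      rw [Finsupp.add_apply, hsingle, if_neg h] at h1 h2
      rcases eq_or_ne c 0 with rfl | hc0
      · rw [map_zero, zero_mul, sub_zero]; omega
      have hcF : algebraMap K F c ≠ 0 := by simpa using hc0
      have h3 := FF.le_ord_add (v := P) (n := -D P) (f := u) (g := -(algebraMap K F c * f))
        (by rwa [← sub_eq_add_neg]) (by omega)
        (by rw [FF.ord_neg, P.ord_mul hcF hf0, FF.ord_algebraMap]; omega)
      rw [← sub_eq_add_neg] at h3
      omega
  intro P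
  have hc0 : c ≠ 0 := fun h0 => hu0 (by rw [huc, h0, map_zero, zero_mul])
  rw [huc, P.ord_mul (by simpa using hc0) hf0, FF.ord_algebraMap, zero_add]

/-- A degree zero divisor whose class is fixed by automorphisms fixing a place is equivalent to a
fixed divisor. -/
theorem exists_fixed_equiv (S : Set (SemilinearAut K F)) (P₀ : Place K F)
    (hS : ∀ g ∈ S, g • P₀ = P₀) {D : Divisor K F} (hD : Divisor.degree D = 0)
    (hx : ∀ g ∈ S, g • D - D ∈ Divisor.principal (K := K) (F := F)) :
    ∃ D' : Divisor K F, Divisor.degree D' = 0 ∧ D' - D ∈ Divisor.principal (K := K) (F := F) ∧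
      ∀ g ∈ S, g • D' = D' := by
  classical
  have hone : ∀ P : Place K F, P.deg = 1 := FF.deg_eq_one
  -- the least `j` with a section `f` of `D + j P₀`; then `D + div f` works
  have hex : ∃ j : ℕ, ∃ f : F, f ≠ 0 ∧
      ∀ P, 0 ≤ (D + Finsupp.single P₀ (j : ℤ)) P + P.ord f := by
    refine ⟨genusFF K F + 1, ?_⟩
    have h1 := FF.riemann_inequality (D + Finsupp.single P₀ ((genusFF K F + 1 : ℕ) : ℤ))
    rw [map_add, hD, Divisor.degree_single, hone, FF.ell_zero] at h1
    obtain ⟨f, hf0, hf⟩ := FF.exists_ne_zero_of_ell_pos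
      (D := D + Finsupp.single P₀ ((genusFF K F + 1 : ℕ) : ℤ)) (by push_cast at h1 ⊢; omega)
    exact ⟨f, hf0, fun P => by
      have := Finsupp.le_def.mp hf P
      simpa [FF.div_apply] using this⟩
  set j := Nat.find hex with hj
  obtain ⟨f, hf0, hf⟩ := Nat.find_spec hex
  rw [← hj] at hf
  have hmin : ∀ g : F, g ≠ 0 →
      ¬ ∀ P, 0 ≤ (D + Finsupp.single P₀ ((j : ℤ) - 1)) P + P.ord g := by
    intro g hg0 hg
    rcases Nat.eq_zero_or_pos j with h0 | hpos
    · have h1 : (0 : Divisor K F) ≤ D + Finsupp.single P₀ ((j : ℤ) - 1) + FF.div K g :=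
        Finsupp.le_def.mpr fun P => by
          rw [Finsupp.add_apply (D + Finsupp.single P₀ ((j : ℤ) - 1)), FF.div_apply]
          exact hg P
      have h2 := FF.degree_nonneg h1
      rw [map_add, map_add, hD, Divisor.degree_single, hone, FF.degree_div, h0] at h2
      norm_num at h2
    · refine Nat.find_min hex (m := j - 1) (by omega) ⟨g, hg0, fun P => ?_⟩
      rw [Nat.cast_sub hpos, Nat.cast_one]
      exact hg P
  have hsingle := single_apply_eq_ite P₀
  refine ⟨D + FF.div K f, ?_, ?_, fun g hg => ?_⟩
  · rw [map_add, hD, FF.degree_div, add_zero]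
  · rw [add_sub_cancel_left]
    exact ⟨f, hf0, fun P => FF.div_apply f P⟩
  -- if `g D - D = div h` then `h g(f)` is a section of `D + j P₀`, with the orders of `f`
  obtain ⟨h, hh0, hh⟩ := hx g hg
  have hgf : g • f ≠ 0 := (_root_.map_ne_zero (SemilinearAut.toRingAut g)).mpr hf0
  have hord : ∀ P : Place K F, P.ord (g • f) = (g⁻¹ • P).ord f := fun P => by
    have := SemilinearAut.ord_smul g (g⁻¹ • P) f
    rwa [smul_inv_smul] at this
  have hu : ∀ P : Place K F, P.ord (h * (g • f)) = D (g⁻¹ • P) - D P + (g⁻¹ • P).ord f :=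
    fun P => by
    rw [P.ord_mul hh0 hgf, hord, ← hh P, Finsupp.sub_apply, SemilinearAut.divisor_smul_apply]
  have key := ord_eq_of_minimal P₀ hf0 hf hmin (mul_ne_zero hh0 hgf) fun P => by
    rw [hu, Finsupp.add_apply, hsingle]
    have hfix : g⁻¹ • P₀ = P₀ := by
      conv_lhs => rw [← hS g hg]
      exact inv_smul_smul g P₀
    have := hf (g⁻¹ • P)
    rw [Finsupp.add_apply, hsingle] at this
    by_cases hP : P = P₀
    · subst hP; rw [hfix] at this ⊢; omega
    · have : g⁻¹ • P ≠ P₀ := fun e => hP (by rw [← hS g hg, ← e, smul_inv_smul])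
      simp only [if_neg hP, if_neg this] at *
      omega
  refine Finsupp.ext fun P => ?_
  rw [SemilinearAut.divisor_smul_apply, Finsupp.add_apply, Finsupp.add_apply,
    FF.div_apply, FF.div_apply]
  have := key P
  rw [hu] at this
  omega

end General

open Fermat.Agent.Arith

variable (H : Subgroup (QBar ≃ₐ[ℚ] QBar)) (N : ℕ)

/-! ### Series with fixed coefficients -/

/-- Series with coefficients fixed by `H`. -/
def CoeffFix (x : LaurentSeries QBar) : Prop :=
  ∀ σ ∈ H, coeffMap (σ : QBar →+* QBar) x = x

/-- The field of level `N` over the field fixed by `H`. -/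
def ratFieldH : IntermediateField (IntermediateField.fixedField H) (LaurentSeries QBar) :=
  IntermediateField.adjoin _ (divisorExpansionsC QBar N)

variable {H N}

/-- The coefficients of a series fixed by `H` lie in the fixed field of `H`. -/
theorem CoeffFix.coeff_mem {x : LaurentSeries QBar} (h : CoeffFix H x) (i : ℤ) :
    x.coeff i ∈ IntermediateField.fixedField H :=
  (IntermediateField.mem_fixedField_iff _ _).mpr fun σ hσ =>
    congrArg (fun z => HahnSeries.coeff z i) (h σ hσ)

theorem mem_bar_of_mem_ratFieldH {x : LaurentSeries QBar} (hx : x ∈ ratFieldH H N) :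
    x ∈ modularFunctionFieldBar N := by
  induction hx using IntermediateField.adjoin_induction with
  | mem z hz =>
    rw [modularFunctionFieldBar, ModFun.laurentBaseChange_eq_fullC]
    exact IntermediateField.subset_adjoin _ _ hz
  | algebraMap c =>
    rw [IsScalarTower.algebraMap_apply (IntermediateField.fixedField H) QBar (LaurentSeries QBar)]
    exact (modularFunctionFieldBar N).algebraMap_mem _
  | add a b _ _ ha hb => exact add_mem ha hb
  | inv a _ ha => exact inv_mem ha
  | mul a b _ _ ha hb => exact mul_mem ha hb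

/-- An element of the field over `ℚ̄` with fixed coefficients is rational. -/
theorem mem_ratFieldH {x : LaurentSeries QBar} (hx : x ∈ modularFunctionFieldBar N)
    (hf : CoeffFix H x) : x ∈ ratFieldH H N := by
  let ι : IntermediateField.fixedField H →+* QBar := (IntermediateField.fixedField H).val.toRingHom
  let y : LaurentSeries (IntermediateField.fixedField H) :=
    { coeff := fun i => ⟨x.coeff i, hf.coeff_mem i⟩
      isPWO_support' := x.isPWO_support.mono fun i hi h => hi (Subtype.ext h) }
  have hy : coeffMap ι y = x := HahnSeries.ext (funext fun i => rfl)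
  rw [modularFunctionFieldBar, ← JacTorsion.cExt_laurentBaseChange (ι := ι), ← hy] at hx
  have hmem := JacTorsion.mem_of_coeffMap_mem_cExt hx
  rw [ModFun.laurentBaseChange_eq_fullC] at hmem
  rw [← hy]
  clear hx hy
  clear_value y
  clear hf
  induction hmem using IntermediateField.adjoin_induction with
  | mem z hz =>
    obtain ⟨d, hd, hdN, rfl⟩ := hz
    rw [coeffMap_qExpand, coeffMap_jqModC]
    exact IntermediateField.subset_adjoin _ _ ⟨d, hd, hdN, rfl⟩
  | algebraMap c =>
    rw [algebraMap_laurentSeries_eq_single, coeffMap_single,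
      ← algebraMap_laurentSeries_eq_single]
    have := (ratFieldH H N).algebraMap_mem c
    rwa [IsScalarTower.algebraMap_apply (IntermediateField.fixedField H) QBar
      (LaurentSeries QBar)] at this
  | add a b _ _ ha hb => rw [map_add]; exact add_mem ha hb
  | inv a _ ha => rw [map_inv₀]; exact inv_mem ha
  | mul a b _ _ ha hb => rw [map_mul]; exact mul_mem ha hb

/-- A valuation of a subfield extends to a valuation subring. -/
private theorem exists_subring_extending {K F : Type*} [Field K] [Field F] (e : K →+* F)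
    (w : Valuation K (WithZero (Multiplicative ℤ))) :
    ∃ V : ValuationSubring F, (∀ y, w y ≤ 1 → e y ∈ V) ∧
      ∀ x, x ≠ 0 → e x ∈ V → e x⁻¹ ∈ V → w x = 1 := by
  let r : w.valuationSubring →+* F := e.comp w.valuationSubring.subtype
  have hr : Function.Injective r := e.injective.comp Subtype.val_injective
  let eR : w.valuationSubring ≃+* r.range :=
    RingEquiv.ofBijective r.rangeRestrict
      ⟨fun a b h => hr (congrArg Subtype.val h), r.rangeRestrict_surjective⟩
  let I : Ideal r.range := (IsLocalRing.maximalIdeal w.valuationSubring).map eR.toRingHom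
  have hI : I ≠ ⊤ := by
    intro h
    have h' : (IsLocalRing.maximalIdeal w.valuationSubring) = ⊤ := by
      have := congrArg (Ideal.comap eR.toRingHom) h
      rwa [show I = (IsLocalRing.maximalIdeal w.valuationSubring).map eR.toRingHom from rfl,
        Ideal.comap_map_of_bijective eR.toRingHom eR.bijective, Ideal.comap_top] at this
    exact Ideal.IsPrime.ne_top' h'
  obtain ⟨V, hRV, hIV⟩ := Ideal.image_subset_nonunits_valuationSubring (A := r.range) I hI
  refine ⟨V, fun y hy => hRV ⟨⟨y, hy⟩, rfl⟩, fun x hx0 h1 h2 => ?_⟩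
  have key : ∀ y : K, y ≠ 0 → e y⁻¹ ∈ V → ¬ w y < 1 := by
    intro y hy0 hy hlt
    have hy' : y ∈ w.valuationSubring := hlt.le
    have hmem : (⟨y, hy'⟩ : w.valuationSubring) ∈ IsLocalRing.maximalIdeal _ := by
      rw [IsLocalRing.mem_maximalIdeal, mem_nonunits_iff]
      intro hu
      obtain ⟨z, hz⟩ := hu.exists_right_inv
      have h3 : w y * w (z : K) = 1 := by
        rw [← map_mul, ← map_one w]
        exact congrArg w (congrArg Subtype.val hz)
      exact (mul_lt_one_of_nonneg_of_lt_one_left zero_le hlt z.2).ne h3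
    have h4 : e y ∈ V.nonunits := hIV ⟨_, Ideal.mem_map_of_mem _ hmem, rfl⟩
    have h5 : V.valuation (e y) < 1 := (V.mem_nonunits_iff).mp h4
    have h6 : V.valuation (e y⁻¹) ≤ 1 := (V.valuation_le_one_iff _).mpr hy
    rw [map_inv₀, map_inv₀, inv_le_one₀ (zero_lt_iff.mpr (by simpa using hy0))] at h6
    exact absurd h5 h6.not_gt
  refine le_antisymm (not_lt.mp fun hgt => ?_) (not_lt.mp (key x hx0 h2))
  refine key x⁻¹ (inv_ne_zero hx0) (by rwa [inv_inv]) ?_
  rw [map_inv₀]
  exact inv_lt_one_of_one_lt₀ hgt

/-- A valuation subring containing a field contains the elements integral over it. -/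
private theorem algMap_mem_of_integral {k Q F : Type*} [Field k] [Field Q] [Field F] [Algebra k Q]
    [Algebra.IsIntegral k Q] (i : Q →+* F) (φ : k →+* F) (V : ValuationSubring F)
    (h : ∀ c, i (algebraMap k Q c) = φ c) (hk : ∀ c, φ c ∈ V) (a : Q) : i a ∈ V := by
  have hint : IsIntegral V (i a) := by
    obtain ⟨P, hP, hPa⟩ := Algebra.IsIntegral.isIntegral (R := k) a
    refine ⟨P.map (φ.codRestrict V.toSubring hk), hP.map _, ?_⟩
    rw [Polynomial.eval₂_map,
      show (algebraMap V F).comp (φ.codRestrict V.toSubring hk) = i.comp (algebraMap k Q) from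
        RingHom.ext fun c => (h c).symm,
      ← Polynomial.hom_eval₂, hPa, map_zero]
  obtain ⟨y, hy⟩ := IsIntegrallyClosed.isIntegral_iff.mp hint
  exact hy ▸ y.2

/-! ### Functions and local equations with fixed coefficients -/

section Bar

variable [NeZero N]

local notation "FN" => modularFunctionFieldBar N

local notation "gal" σ => arithmeticGalois (L := QBar) (modularFunctionFieldFull N) σ

omit [NeZero N] in
/-- The expansion has coefficients fixed by `H` exactly when `H` fixes the function. -/
theorem coeffFix_iff {x : FN} :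
    CoeffFix H (x : LaurentSeries QBar) ↔ ∀ σ ∈ H, (gal σ) • x = x :=
  ⟨fun h σ hσ => Subtype.ext (h σ hσ), fun h σ hσ => congrArg Subtype.val (h σ hσ)⟩

/-- A class fixed by `H` contains a fixed divisor. -/
theorem exists_fixed_repH {x : JZero N} (hx : ∀ σ ∈ H, σ • x = x) :
    ∃ D : Divisor.degZero (K := QBar) (F := FN), Pic0.mk D = x ∧
      ∀ σ ∈ H, (gal σ) • (D : Divisor QBar FN) = D := by
  obtain ⟨D₀, rfl⟩ := Pic0.mk_surjective x
  obtain ⟨D, hD, hprin, hfix⟩ := exists_fixed_equiv
    ((fun σ => gal σ) '' (H : Set (QBar ≃ₐ[ℚ] QBar)))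
    (Mazur.Eisenstein.placeInf N) (by
      rintro _ ⟨σ, -, rfl⟩; exact Mazur.Eisenstein.galois_smul_placeInf N σ)
    (D := (D₀ : Divisor QBar FN)) (Divisor.mem_degZero.mp D₀.2) (by
      rintro _ ⟨σ, hσ, rfl⟩
      have h := hx σ hσ
      rw [galois_smul_pic0_def, SemilinearAut.pic0_smul_mk] at h
      have h' := (QuotientAddGroup.eq_iff_sub_mem).mp h
      simpa [AddSubgroup.mem_addSubgroupOf] using h')
  refine ⟨⟨D, Divisor.mem_degZero.mpr hD⟩, (QuotientAddGroup.eq_iff_sub_mem).mpr ?_,
    fun σ hσ => hfix _ ⟨σ, hσ, rfl⟩⟩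
  simpa [AddSubgroup.mem_addSubgroupOf] using hprin

/-- An element with trivial divisor is a constant. -/
theorem exists_eq_mul_of_ord {x y : FN} (hx : x ≠ 0) (hy : y ≠ 0)
    (h : ∀ P : Place QBar FN, P.ord x = P.ord y) : ∃ c : QBar, x = algebraMap QBar FN c * y := by
  obtain ⟨c, hc⟩ := FF.eq_algebraMap_of_ord_nonneg (K := QBar) (f := x / y) fun P => by
    rw [FF.ord_div P hx hy, h P, sub_self]
  exact ⟨c, by rw [← hc, div_mul_cancel₀ _ hy]⟩

omit [NeZero N] in
/-- The leading coefficient of `σ • x` is `σ` of that of `x`. -/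
theorem leadingCoeff_smul (σ : QBar ≃ₐ[ℚ] QBar) (x : FN) :
    (((gal σ) • x : FN) : LaurentSeries QBar).leadingCoeff
      = σ (x : LaurentSeries QBar).leadingCoeff := by
  rw [coe_arithmeticGalois_smul, HahnSeries.leadingCoeff_eq, Mazur.Eisenstein.order_coeffMap,
    HahnSeries.leadingCoeff_eq, coeffMap_coeff]
  rfl

omit [NeZero N] in
/-- Multiplication by a constant multiplies the leading coefficient by it. -/
theorem leadingCoeff_algebraMap_mul (c : QBar) (y : FN) :
    ((algebraMap QBar FN c * y : FN) : LaurentSeries QBar).leadingCoeff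
      = c * (y : LaurentSeries QBar).leadingCoeff := by
  show (algebraMap QBar (LaurentSeries QBar) c * (y : LaurentSeries QBar)).leadingCoeff = _
  rw [HahnSeries.leadingCoeff_mul, algebraMap_laurentSeries_eq_single,
    HahnSeries.leadingCoeff_of_single]

omit [NeZero N] in
/-- Proportional normalised functions are equal. -/
theorem eq_of_leadingCoeff {x y : FN} {c : QBar} (h : x = algebraMap QBar FN c * y) (hy : y ≠ 0)
    (hl : (x : LaurentSeries QBar).leadingCoeff = (y : LaurentSeries QBar).leadingCoeff) :
    x = y := by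
  have hy' : (y : LaurentSeries QBar) ≠ 0 := fun e => hy (Subtype.ext e)
  rw [h, leadingCoeff_algebraMap_mul] at hl
  rw [h, mul_eq_right₀ (HahnSeries.leadingCoeff_ne_zero.mpr hy') |>.mp hl, map_one, one_mul]

/-- A fixed divisor which is principal is the divisor of a function with fixed coefficients. -/
theorem exists_fixed_funH {E : Divisor QBar FN} (hE : E.IsPrincipal)
    (hfix : ∀ σ ∈ H, (gal σ) • E = E) :
    ∃ f : FN, f ≠ 0 ∧ CoeffFix H (f : LaurentSeries QBar) ∧
      (f : LaurentSeries QBar).leadingCoeff = 1 ∧ ∀ P, E P = P.ord f := by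
  obtain ⟨f, hf0, hf⟩ := hE
  set l := (f : LaurentSeries QBar).leadingCoeff with hl
  have hl0 : l ≠ 0 := HahnSeries.leadingCoeff_ne_zero.mpr fun e => hf0 (Subtype.ext e)
  have hcl : algebraMap QBar FN l⁻¹ ≠ 0 := by simpa using hl0
  set f' := algebraMap QBar FN l⁻¹ * f with hf'
  have hf'0 : f' ≠ 0 := mul_ne_zero hcl hf0
  have hord : ∀ P, E P = P.ord f' := fun P => by
    rw [hf', P.ord_mul hcl hf0, FF.ord_algebraMap, zero_add, hf]
  have hlead : (f' : LaurentSeries QBar).leadingCoeff = 1 := by
    rw [hf', leadingCoeff_algebraMap_mul, inv_mul_cancel₀ hl0]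
  refine ⟨f', hf'0, coeffFix_iff.mpr fun σ hσ => ?_, hlead, hord⟩
  have hne : (gal σ) • f' ≠ 0 := (_root_.map_ne_zero (SemilinearAut.toRingAut (gal σ))).mpr hf'0
  obtain ⟨c, hc⟩ := exists_eq_mul_of_ord hne hf'0 fun P => by
    conv_lhs => rw [← smul_inv_smul (gal σ) P]
    rw [SemilinearAut.ord_smul, ← hord, ← hord, ← SemilinearAut.divisor_smul_apply, hfix σ hσ]
  exact eq_of_leadingCoeff hc hf'0 (by rw [leadingCoeff_smul, hlead, map_one])

/-- A fixed divisor has a local equation with fixed coefficients at every place. -/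
theorem exists_fixed_ordH {D : Divisor QBar FN}
    (hfix : ∀ σ ∈ H, (gal σ) • D = D) (P : Place QBar FN) :
    ∃ g : FN, g ≠ 0 ∧ CoeffFix H (g : LaurentSeries QBar) ∧ P.ord g = - D P := by
  classical
  set P₀ := Mazur.Eisenstein.placeInf N with hP₀
  rcases eq_or_ne P P₀ with rfl | hP
  · have hj : Genus.jB N ≠ 0 := fun h => by
      have := Mazur.Eisenstein.ord_placeInf_jB N
      rw [h, Place.ord_zero] at this
      omega
    refine ⟨Genus.jB N ^ D P₀, zpow_ne_zero _ hj, coeffFix_iff.mpr fun σ _ => ?_, ?_⟩
    · show SemilinearAut.toRingAut (gal σ) _ = _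
      rw [map_zpow₀]
      congr 1
      exact Subtype.ext (coeffMap_jqModC _)
    · rw [Place.ord_zpow, hP₀, Mazur.Eisenstein.ord_placeInf_jB]; ring
  -- Add a large multiple of `∞` to `D`: the space of `B` has a basis of fixed functions, one of
  -- which is not in that of `B - P`.
  obtain ⟨c, hc⟩ := FF.exists_ell_eq (K := QBar) (F := FN)
  set t : ℕ := (c - Divisor.degree D).toNat + (genusFF QBar FN - Divisor.degree D).toNat + 1
    with ht
  set B : Divisor QBar FN := D + Finsupp.single P₀ (t : ℤ) with hB
  set B' : Divisor QBar FN := B - Finsupp.single P 1 with hB'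
  have hdeg : Divisor.degree B = Divisor.degree D + t := by
    rw [hB, map_add, Divisor.degree_single, FF.deg_eq_one]; simp
  have hdeg' : Divisor.degree B' = Divisor.degree D + t - 1 := by
    rw [hB', map_sub, hdeg, Divisor.degree_single, FF.deg_eq_one]; simp
  have h1 := hc B (by rw [hdeg]; omega)
  have h2 := hc B' (by rw [hdeg']; omega)
  set W := riemannRochSpace B
  have hW : (Module.finrank QBar W : ℤ) = FF.ell QBar B := rfl
  have hBfix : ∀ σ ∈ H, (gal σ) • B = B := fun σ hσ => by
    rw [hB, smul_add, hfix σ hσ, SemilinearAut.smul_single, hP₀,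
      Mazur.Eisenstein.galois_smul_placeInf N]
  have hstable : ∀ σ ∈ (H : Set (QBar ≃ₐ[ℚ] QBar)), ∀ x ∈ W,
      arithmeticRingAut (modularFunctionFieldFull N) σ x ∈ W := by
    intro σ hσ x hx
    rw [mem_riemannRochSpace_iff] at hx ⊢
    intro v
    rcases eq_or_ne x 0 with rfl | hx0
    · exact Or.inl (map_zero _)
    refine Or.inr ?_
    have h3 := (hx ((gal σ)⁻¹ • v)).resolve_left hx0
    rw [← hBfix σ hσ, SemilinearAut.divisor_smul_apply]
    conv_rhs => rw [← smul_inv_smul (gal σ) v]
    exact h3.trans (SemilinearAut.ord_smul _ _ x).ge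
  obtain ⟨b, hbW, hbli, hbfix⟩ := RT.Mazur.exists_fixed_basis
    (H : Set (QBar ≃ₐ[ℚ] QBar)) W hstable
  obtain ⟨i, hi⟩ : ∃ i, b i ∉ riemannRochSpace B' := by
    by_contra! hall
    have h4 : Module.finrank QBar W ≤ Module.finrank QBar (riemannRochSpace B') := by
      have h5 : LinearIndependent QBar fun i => (⟨b i, hall i⟩ : riemannRochSpace B') :=
        LinearIndependent.of_comp (riemannRochSpace B').subtype hbli
      simpa using h5.fintype_card_le_finrank
    have h6 : (Module.finrank QBar W : ℤ) ≤ FF.ell QBar B' := by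
      show _ ≤ ((Module.finrank QBar (riemannRochSpace B') : ℕ) : ℤ)
      exact_mod_cast h4
    rw [hW, h1, h2, hdeg, hdeg'] at h6
    omega
  have hbi0 : b i ≠ 0 := fun h => hi (by rw [h]; exact zero_mem _)
  refine ⟨b i, hbi0, coeffFix_iff.mpr fun σ hσ => hbfix i σ hσ, ?_⟩
  rw [mem_riemannRochSpace_iff] at hi
  push Not at hi
  obtain ⟨v, -, hv⟩ := hi
  have h7 := (mem_riemannRochSpace_iff.mp (hbW i) v).resolve_left hbi0
  rcases eq_or_ne v P with rfl | hvP
  · simp only [hB', hB, Finsupp.sub_apply, Finsupp.add_apply, Finsupp.single_eq_same,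
      Finsupp.single_eq_of_ne hP] at hv h7
    omega
  · simp only [hB', Finsupp.sub_apply, Finsupp.single_eq_of_ne hvP, sub_zero] at hv
    omega

/-- A rational function whose divisor is `m` times a fixed divisor has order divisible by `m` at
every valuation trivial on the constants. -/
theorem dvd_log_valuationH {m : ℕ} {D : Divisor QBar FN}
    (hfix : ∀ σ ∈ H, (gal σ) • D = D) {f : FN} (hf0 : f ≠ 0)
    (hord : ∀ P : Place QBar FN, P.ord f = (m : ℤ) * D P)
    (hf : (f : LaurentSeries QBar) ∈ ratFieldH H N)
    (w : Valuation (ratFieldH H N) (WithZero (Multiplicative ℤ)))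
    (hw : ∀ c : IntermediateField.fixedField H, c ≠ 0 →
      w (algebraMap (IntermediateField.fixedField H) (ratFieldH H N) c) = 1) :
    (m : ℤ) ∣ WithZero.log (w ⟨(f : LaurentSeries QBar), hf⟩) := by
  classical
  let e : ratFieldH H N →+* FN :=
    ((ratFieldH H N).val.toRingHom).codRestrict (modularFunctionFieldBar N).toSubfield
      fun x => mem_bar_of_mem_ratFieldH x.2
  -- Extend `w` to a valuation ring of the function field; it contains the constants.
  obtain ⟨V, hle, hunit⟩ := exists_subring_extending e w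
  have hconst : ∀ a : QBar, algebraMap QBar FN a ∈ V := by
    refine algMap_mem_of_integral (k := IntermediateField.fixedField H) (algebraMap QBar FN)
      (e.comp (algebraMap _ (ratFieldH H N))) V (fun c => Subtype.ext
        (IsScalarTower.algebraMap_apply (IntermediateField.fixedField H) QBar
          (LaurentSeries QBar) c).symm) fun c => hle _ ?_
    rcases eq_or_ne c 0 with rfl | hc
    · rw [map_zero, map_zero]; exact zero_le
    · exact (hw c hc).le
  set x : ratFieldH H N := ⟨(f : LaurentSeries QBar), hf⟩ with hx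
  have hex : e x = f := Subtype.ext rfl
  have hx0 : x ≠ 0 := fun h => hf0 (by rw [← hex, h, map_zero])
  by_cases htop : V = ⊤
  · rw [hunit x hx0 (htop ▸ ValuationSubring.mem_top _) (htop ▸ ValuationSubring.mem_top _),
      WithZero.log_one]
    exact dvd_zero _
  set P : Place QBar FN := FF.placeOfValuationSubring V hconst htop
  -- At its place, multiply by `g ^ m` with `g` fixed of opposite order: the result is a unit.
  obtain ⟨g, hg0, hgf, hgord⟩ := exists_fixed_ordH hfix P
  set y : ratFieldH H N := ⟨(g : LaurentSeries QBar), mem_ratFieldH g.2 hgf⟩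
  have hey : e y = g := Subtype.ext rfl
  have hy0 : y ≠ 0 := fun h => hg0 (by rw [← hey, h, map_zero])
  have hz0 : x * y ^ m ≠ 0 := mul_ne_zero hx0 (pow_ne_zero _ hy0)
  have hez : P.ord (e (x * y ^ m)) = 0 := by
    rw [map_mul, map_pow, hex, hey, P.ord_mul hf0 (pow_ne_zero _ hg0), FF.ord_pow,
      hord, hgord]
    ring
  have h1 : w (x * y ^ m) = 1 := hunit _ hz0
    (JacTorsion.mem_of_ord_nonneg P hez.ge)
    (JacTorsion.mem_of_ord_nonneg P (by rw [map_inv₀, P.ord_inv, hez, neg_zero]))
  have hwy : w y ≠ 0 := w.ne_zero_iff.mpr hy0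
  have hwx : w x ≠ 0 := w.ne_zero_iff.mpr hx0
  have h2 := congrArg WithZero.log h1
  rw [map_mul, map_pow, WithZero.log_mul hwx (pow_ne_zero _ hwy), WithZero.log_pow,
    WithZero.log_one, nsmul_eq_mul] at h2
  exact ⟨- WithZero.log (w y), by linear_combination h2⟩

end Bar

/-! ### The case of inertia -/

/-- Series with coefficients fixed by inertia. -/
abbrev CoeffFixed (A : ValuationSubring QBar) (x : LaurentSeries QBar) : Prop :=
  CoeffFix (A.inertiaSubgroupIn ℚ) x

/-- The field of level `N` over the field fixed by inertia. -/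
abbrev ratField (A : ValuationSubring QBar) (N : ℕ) :
    IntermediateField (inertiaField A) (LaurentSeries QBar) :=
  ratFieldH (A.inertiaSubgroupIn ℚ) N

end Fermat.Agent.Carayol

end
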