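import Fermat.Agent.Mazur.Eisenstein.CuspFibre

/-!
# The degrees of the two degeneracy maps at a prime dividing the level

For a prime `l` dividing `N` both maps from level `N l` to level `N` have degree `l`.
-/

set_option autoImplicit false

noncomputable section

open AlgebraicCurve ModularCurve
open scoped IntermediateField

namespace Fermat.Agent.Carayol

open Fermat.Agent.Genus (Fbar jB)
open Fermat.Agent.Mazur.Eisenstein (degree_poles_map inclLevel exists_atkinLehner jAt)

local notation "Qb" => AlgebraicClosure ℚ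

/-- For a prime `l ∣ N` both degeneracy maps from level `N l` to level `N` have degree `l`. -/
theorem finrankAlong_of_dvd {N l : ℕ} [NeZero N] [NeZero l] [Fact l.Prime] (h : l ∣ N) :
    finrankAlong Qb (heckeAlphaBar Qb N l) = l ∧ finrankAlong Qb (heckeBetaBar Qb N l) = l := by
  have : NeZero (N * l) := ⟨Nat.mul_ne_zero (NeZero.ne N) (NeZero.ne l)⟩
  have hj : ∀ (M : ℕ) [NeZero M], Module.finrank Qb⟮jB M⟯ (Fbar M) = dedekindPsi M := fun M _ =>
    (ModFun.finrank_baseChange M Qb).2
  have hψ : dedekindPsi (N * l) = l * dedekindPsi N := by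
    rw [mul_comm N l, Gamma0.dedekindPsi_mul_of_dvd Fact.out h]
  have hpos : 0 < dedekindPsi N := by rw [← ModFun.natCard_coset]; exact Nat.card_pos
  have hα := degree_poles_map (heckeAlphaBar Qb N l) (ModFun.transcendental_jBase N Qb)
  rw [show heckeAlphaBar Qb N l (ModFun.jBase N Qb) = jB (N * l) from Subtype.ext rfl, hj, hj,
    hψ] at hα
  refine ⟨(Nat.eq_of_mul_eq_mul_right hpos hα).symm, ?_⟩
  have hι := degree_poles_map (inclLevel l (N * l) (dvd_mul_left l N))
    (ModFun.transcendental_jBase l Qb)
  rw [show inclLevel l (N * l) (dvd_mul_left l N) (ModFun.jBase l Qb) = jB (N * l) from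
    Subtype.ext rfl, hj, hj] at hι
  obtain ⟨e, he1, -⟩ := exists_atkinLehner l
  have hl2 := ModFun.finrank_adjoin_algEquiv e (jB l) (ModFun.finrank_baseChange l Qb).1
  rw [he1, hj] at hl2
  have htl : Transcendental Qb (jAt l l dvd_rfl) := by
    rw [← he1]
    exact fun h => ModFun.transcendental_jBase l Qb
      ((isAlgebraic_algHom_iff e.toAlgHom e.injective).mp h)
  have hιl := degree_poles_map (inclLevel l (N * l) (dvd_mul_left l N)) htl
  rw [hl2.2] at hιl
  have hβ := degree_poles_map (heckeBetaBar Qb N l) (ModFun.transcendental_jBase N Qb)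
  rw [show heckeBetaBar Qb N l (ModFun.jBase N Qb) =
    inclLevel l (N * l) (dvd_mul_left l N) (jAt l l dvd_rfl) from Subtype.ext rfl, hj, hιl,
    ← hι, hψ] at hβ
  exact (Nat.eq_of_mul_eq_mul_right hpos hβ).symm

end Fermat.Agent.Carayol

end
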