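import Fermat.Agent.Carayol.Rational
import Fermat.Agent.FF.Along

/-!
# A fixed function with divisor `m D` and principal push forward has norm a constant times an
`m`-th power, both with fixed coefficients
-/

set_option autoImplicit false

noncomputable section

namespace Fermat.Agent.Carayol

open ModularCurve AlgebraicCurve
open Fermat.Agent.Arith

attribute [local instance 20000] SubalgebraClass.toAlgebra
attribute [local instance 2000] HahnSeries.powerSeriesAlgebra
attribute [-instance] IsLocalRing.ResidueField.algebraOfIsIntegral IsScalarTower.of_algHom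
  RingHom.Finite.instFinite

variable {A : ValuationSubring QBar} {N N' : ℕ} [NeZero N] [NeZero N']
  (φ : modularFunctionFieldBar N →ₐ[QBar] modularFunctionFieldBar N')

theorem leadingCoeff_pow_eq_one {x : LaurentSeries QBar} (h : x.leadingCoeff = 1) :
    ∀ i : ℕ, (x ^ i).leadingCoeff = 1
  | 0 => by rw [pow_zero, HahnSeries.leadingCoeff_one]
  | i + 1 => by
    rw [pow_succ, HahnSeries.leadingCoeff_mul, leadingCoeff_pow_eq_one h i, h, one_mul]

omit [NeZero N] [NeZero N'] in
/-- The norm along an equivariant map commutes with Galois. -/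
theorem norm_galois
    (hgal : ∀ (σ : QBar ≃ₐ[ℚ] QBar) (x : modularFunctionFieldBar N),
      φ (arithmeticGalois (L := QBar) (modularFunctionFieldFull N) σ • x) =
        arithmeticGalois (L := QBar) (modularFunctionFieldFull N') σ • φ x)
    (σ : QBar ≃ₐ[ℚ] QBar) (f : modularFunctionFieldBar N') :
    letI := algebraAlong φ
    Algebra.norm (modularFunctionFieldBar N)
    (arithmeticGalois (L := QBar) (modularFunctionFieldFull N') σ • f) =
      arithmeticGalois (L := QBar) (modularFunctionFieldFull N) σ •
        Algebra.norm (modularFunctionFieldBar N) f := by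
  let := algebraAlong φ
  let e₁ : modularFunctionFieldBar N ≃+* modularFunctionFieldBar N :=
    SemilinearAut.toRingAut (arithmeticGalois (L := QBar) (modularFunctionFieldFull N) σ)
  let e₂ : modularFunctionFieldBar N' ≃+* modularFunctionFieldBar N' :=
    SemilinearAut.toRingAut (arithmeticGalois (L := QBar) (modularFunctionFieldFull N') σ)
  have h := Algebra.norm_eq_of_equiv_equiv e₁ e₂ (RingHom.ext fun x => hgal σ x) f
  show Algebra.norm _ (e₂ f) = e₁ (Algebra.norm _ f)
  rw [h, e₁.apply_symm_apply]

/-- If the push-forward of `D` is principal, the norm of a fixed function with divisor `m D` is a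
fixed constant times the `m`-th power of a fixed function. -/
theorem exists_norm_eq {m : ℕ} (hm : m ≠ 0)
    (hgal : ∀ (σ : QBar ≃ₐ[ℚ] QBar) (x : modularFunctionFieldBar N),
      φ (arithmeticGalois (L := QBar) (modularFunctionFieldFull N) σ • x) =
        arithmeticGalois (L := QBar) (modularFunctionFieldFull N') σ • φ x)
    {D : Divisor QBar (modularFunctionFieldBar N')} {f : modularFunctionFieldBar N'} (hf0 : f ≠ 0)
    (hf : CoeffFixed A (f : LaurentSeries QBar))
    (hord : ∀ P : Place QBar (modularFunctionFieldBar N'), P.ord f = (m : ℤ) * D P)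
    (hD : (Divisor.pushforwardAlong φ (FF.isIntegralAlong φ) D).IsPrincipal) :
    ∃ (c : inertiaField A) (g : modularFunctionFieldBar N), c ≠ 0 ∧ g ≠ 0 ∧
      CoeffFixed A (g : LaurentSeries QBar) ∧
      (letI := algebraAlong φ; Algebra.norm (modularFunctionFieldBar N) f) =
        algebraMap QBar _ (c : QBar) * g ^ m := by
  let := algebraAlong φ
  have := isScalarTower_along φ
  have : Module.Finite (modularFunctionFieldBar N) (modularFunctionFieldBar N') :=
    FF.finiteAlong φ
  have := isIntegral_along φ (FF.isIntegralAlong φ)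
  set g₁ := Algebra.norm (modularFunctionFieldBar N) f with hg₁
  have hg₁0 : g₁ ≠ 0 := Algebra.norm_ne_zero_iff.mpr hf0
  have hg₁f : ∀ σ ∈ A.inertiaSubgroupIn ℚ,
      arithmeticGalois (L := QBar) (modularFunctionFieldFull N) σ • g₁ = g₁ := fun σ hσ => by
    rw [hg₁, ← norm_galois φ hgal, coeffFix_iff.mp hf σ hσ]
  obtain ⟨g₀, hg₀, hg₀D⟩ := hD
  have hsum : ∀ v : Place QBar (modularFunctionFieldBar N), v.ord g₁ = (m : ℤ) * v.ord g₀ :=
    fun v => by
    rw [← hg₀D, hg₁, ← FF.pushforwardNormFormula (K := QBar) f hf0 ((m : ℤ) • D)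
      (fun w => by rw [Finsupp.smul_apply, smul_eq_mul, hord])]
    show Divisor.pushforward (modularFunctionFieldBar N) ((m : ℤ) • D) v =
        (m : ℤ) * Divisor.pushforward (modularFunctionFieldBar N) D v
    rw [map_zsmul, Finsupp.smul_apply, smul_eq_mul]
  -- The norm has the divisor of `g₀ ^ m`. Normalise `g₀` to leading coefficient `1`: then the
  -- constant is fixed by inertia, and so is `g`, being determined by its divisor and that.
  set l := (g₀ : LaurentSeries QBar).leadingCoeff
  have hl : l ≠ 0 := HahnSeries.leadingCoeff_ne_zero.mpr fun e => hg₀ (Subtype.ext e)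
  have hcl : algebraMap QBar (modularFunctionFieldBar N) l⁻¹ ≠ 0 := by simpa using hl
  set g := algebraMap QBar (modularFunctionFieldBar N) l⁻¹ * g₀ with hg
  have hg0 : g ≠ 0 := mul_ne_zero hcl hg₀
  have hlead : (g : LaurentSeries QBar).leadingCoeff = 1 := by
    rw [hg, leadingCoeff_algebraMap_mul, inv_mul_cancel₀ hl]
  obtain ⟨c, hc⟩ := exists_eq_mul_of_ord hg₁0 (pow_ne_zero m hg0) fun v => by
    rw [FF.ord_pow, hg, v.ord_mul hcl hg₀, FF.ord_algebraMap, zero_add, hsum]
  have hleadm : ((g ^ m : (modularFunctionFieldBar N)) : LaurentSeries QBar).leadingCoeff = 1 := by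
    show ((g : LaurentSeries QBar) ^ m).leadingCoeff = 1
    exact leadingCoeff_pow_eq_one hlead m
  have hcK : c ∈ inertiaField A := by
    refine (mem_inertiaField A).mpr fun σ hσ => ?_
    have h := congrArg (fun x : (modularFunctionFieldBar N) =>
      (x : LaurentSeries QBar).leadingCoeff) hc
    simp only [leadingCoeff_algebraMap_mul, hleadm, mul_one] at h
    rw [← h, ← leadingCoeff_smul, hg₁f σ hσ]
  have hc0 : c ≠ 0 := fun e => hg₁0 (by rw [hc, e, map_zero, zero_mul])
  refine ⟨⟨c, hcK⟩, g, fun e => hc0 (congrArg Subtype.val e), hg0,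
    coeffFix_iff.mpr fun σ hσ => ?_, hc⟩
  set s := arithmeticGalois (L := QBar) (modularFunctionFieldFull N) σ
  have hgσ : s • g ≠ 0 := (_root_.map_ne_zero (SemilinearAut.toRingAut s)).mpr hg0
  obtain ⟨c', hc'⟩ := exists_eq_mul_of_ord hgσ hg0 fun v => by
    have h1 : SemilinearAut.toRingAut s (g ^ m) = (s • g) ^ m := map_pow _ _ _
    have h2 : (s • g) ^ m = g ^ m := by
      refine mul_left_cancel₀ (a := algebraMap QBar (modularFunctionFieldBar N) c)
        (by simpa using hc0) ?_
      rw [← h1, ← hc]
      calc algebraMap QBar (modularFunctionFieldBar N) c * SemilinearAut.toRingAut s (g ^ m)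
          = SemilinearAut.toRingAut s (algebraMap QBar (modularFunctionFieldBar N) c * g ^ m) := by
            rw [map_mul]
            congr 1
            refine Subtype.ext ?_
            show algebraMap QBar (LaurentSeries QBar) c =
              ((s • algebraMap QBar (modularFunctionFieldBar N) c : (modularFunctionFieldBar N))
                : LaurentSeries QBar)
            rw [coe_arithmeticGalois_smul]
            show _ = coeffMap _ (algebraMap QBar (LaurentSeries QBar) c)
            rw [coeffMap_algebraMap]
            exact congrArg _ ((mem_inertiaField A).mp hcK σ hσ).symm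
        _ = s • g₁ := by rw [← hc]; rfl
        _ = g₁ := hg₁f σ hσ
    have h3 := congrArg v.ord h2
    rw [FF.ord_pow, FF.ord_pow] at h3
    exact mul_left_cancel₀ (by exact_mod_cast hm) h3
  exact eq_of_leadingCoeff hc' hg0 (by rw [leadingCoeff_smul, hlead, map_one])

end Fermat.Agent.Carayol

end
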