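import Fermat.Agent.Carayol.Base
import Fermat.Agent.OrdinaryAtP.Fixed
import Fermat.Agent.Mazur.Eisenstein.CycInertia

/-!
# The base fixed by inertia

For a place `A` of `ℚ̄` over `q` the fixed field of inertia carries a strictly henselian valuation
ring with uniformiser `q`, and its automorphism group moves the `q`-th roots of unity transitively
while fixing the roots of unity of order prime to `q`.
-/

set_option autoImplicit false

noncomputable section

namespace Fermat.Agent.Carayol

open Polynomial
open Fermat.Agent.Arith Fermat.Agent.OrdinaryAtP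

variable (A : ValuationSubring QBar)

/-- The fixed field of the inertia group. -/
abbrev inertiaField : IntermediateField ℚ QBar :=
  IntermediateField.fixedField (A.inertiaSubgroupIn ℚ)

/-- An element lies in the inertia field exactly when inertia fixes it. -/
theorem mem_inertiaField {x : QBar} :
    x ∈ inertiaField A ↔ ∀ τ ∈ A.inertiaSubgroupIn ℚ, τ x = x :=
  IntermediateField.mem_fixedField_iff _ _

/-- The valuation ring of the fixed field. -/
def inertiaRing : Subring (inertiaField A) :=
  (fixRing A).comap (inertiaField A).val.toRingHom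

theorem mem_inertiaRing {x : inertiaField A} : x ∈ inertiaRing A ↔ (x : QBar) ∈ A :=
  ⟨fun h => h.1, fun h => ⟨h, (mem_inertiaField A).mp x.2⟩⟩

/-- It is the ring of elements of `A` fixed by inertia. -/
def inertiaRingEquiv : inertiaRing A ≃+* fixRing A where
  toFun x := ⟨((x : inertiaField A) : QBar), x.2⟩
  invFun w := ⟨⟨(w : QBar), (mem_inertiaField A).mpr w.2.2⟩, w.2⟩
  left_inv _ := rfl
  right_inv _ := rfl
  map_mul' _ _ := rfl
  map_add' _ _ := rfl

variable {A} {q : ℕ} (hA : A.LiesOverPrime q) (hq : q.Prime)

include hA hq

theorem isLocalRing_fixRing : IsLocalRing (fixRing A) := by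
  refine IsLocalRing.of_nonunits_add fun a b ha hb hab => ?_
  have h : ∀ w : fixRing A, w ∈ nonunits (fixRing A) → resW A w = 0 := fun w hw =>
    by_contra fun h => hw (isUnit_of_resW_ne_zero hA hq h)
  exact (hab.map (resW A)).ne_zero (by rw [map_add, h a ha, h b hb, add_zero])

/-- The base fixed by inertia. -/
def inertialBase : UnramBase (inertiaField A) q :=
  let e := inertiaRingEquiv A
  have := isLocalRing_fixRing hA hq
  have := e.symm.isLocalRing
  let ψ : inertiaRing A →+* IsLocalRing.ResidueField A := (resW A).comp e.toRingHom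
  have hψsurj : Function.Surjective ψ := (resW_surjective hA hq).comp e.surjective
  have hmax : ∀ w : inertiaRing A, ψ w = 0 ↔ w ∈ IsLocalRing.maximalIdeal (inertiaRing A) :=
    fun w => by
      rw [IsLocalRing.mem_maximalIdeal, mem_nonunits_iff]
      refine ⟨fun h hu => (hu.map ψ).ne_zero h, fun h => by_contra fun hne => h ?_⟩
      exact (isUnit_map_iff e _).mp (isUnit_of_resW_ne_zero hA hq hne)
  -- The maximal ideal is generated by `q`.
  have hspan : IsLocalRing.maximalIdeal (inertiaRing A) = Ideal.span {(q : inertiaRing A)} := by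
    ext w
    rw [← hmax, Ideal.mem_span_singleton]
    refine ⟨fun h => ?_, ?_⟩
    · obtain ⟨v, hv⟩ := natCast_dvd_of_resW_eq_zero hA hq h
      exact ⟨e.symm v, e.injective (by rw [map_mul, map_natCast, e.apply_symm_apply]; exact hv)⟩
    · rintro ⟨v, rfl⟩
      rw [map_mul, map_natCast, ← map_natCast (resW A), resW_natCast_self hA, zero_mul]
  { W := inertiaRing A
    isLocal := inferInstance
    dvr := by
      have := isPrincipalIdealRing_fixRing hA hq
      have : IsPrincipalIdealRing (inertiaRing A) :=
        IsPrincipalIdealRing.of_surjective e.symm.toRingHom e.symm.surjective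
      exact { not_a_field' := fun h => by
                rw [hspan, Ideal.span_singleton_eq_bot] at h
                exact natCast_fix_ne_zero (A := A) hq (by rw [← map_natCast e, h, map_zero]) }
    frac := by
      have : FaithfulSMul (inertiaRing A) (inertiaField A) :=
        (faithfulSMul_iff_algebraMap_injective _ _).mpr Subtype.val_injective
      refine IsFractionRing.of_field _ _ fun z => ?_
      obtain ⟨w, hw, hmem⟩ := exists_mul_mem_fixRing hA hq ((mem_inertiaField A).mp z.2)
      refine ⟨e.symm ⟨_, hmem⟩, e.symm w, ?_⟩
      have hw' : (w : QBar) ≠ 0 := fun h => hw (Subtype.ext h)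
      refine (eq_div_iff (fun h => hw' (congrArg (Subtype.val : inertiaField A → QBar) h))).mpr ?_
      exact Subtype.ext (mul_comm (z : QBar) (w : QBar))
    max_eq := hspan
    residue := by
      have := residueField_isAlgClosed A
      -- The residue field is that of `A`, hence algebraically closed.
      let φ : IsLocalRing.ResidueField (inertiaRing A) →+* IsLocalRing.ResidueField A :=
        Ideal.Quotient.lift _ ψ fun w hw => (hmax w).mpr hw
      have hφ : Function.Bijective φ := ⟨φ.injective, fun z => by
        obtain ⟨w, rfl⟩ := hψsurj z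
        exact ⟨IsLocalRing.residue _ w, rfl⟩⟩
      exact IsAlgClosed.of_ringEquiv _ _ (RingEquiv.ofBijective φ hφ).symm
    hens :=
      { toIsLocalRing := inferInstance
        is_henselian := fun f hf a₀ h₁ h₂ => by
          -- Hensel's lemma holds in the fixed ring.
          set Q := f.map e.toRingHom
          have hev : ∀ g : (inertiaRing A)[X],
              ((g.map e.toRingHom).map (resW A)).eval (ψ a₀) = ψ (g.eval a₀) := fun g => by
            rw [Polynomial.map_map, eval_map, eval₂_at_apply]
          obtain ⟨η, hη, hηa⟩ := exists_root_fixRing Q (hf.map _) (z := ψ a₀)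
            (by rw [hev]; exact (hmax _).mpr h₁)
            (by
              rw [derivative_map, derivative_map, hev]
              exact fun h => (hmax _).mp h h₂)
          refine ⟨e.symm η, e.injective ?_, (hmax _).mp ?_⟩
          · rw [map_zero, ← hη, eval_map]
            refine (hom_eval₂ f (RingHom.id _) e.toRingHom (e.symm η)).trans ?_
            simp
          · rw [map_sub, show ψ (e.symm η) = resW A η from congrArg (resW A) (e.apply_symm_apply η),
              hηa, sub_self] }
    charZero := inferInstance }

/-- Automorphisms over the base fixing the roots of unity of order `n` and moving the `q`-th roots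
of unity as prescribed. -/
theorem exists_aut_inertiaField {n : ℕ} (hn : ¬ q ∣ n) {ζ : QBar}
    (hζ : IsPrimitiveRoot ζ (q * n)) (d : (ZMod q)ˣ) :
    ∃ σ : QBar ≃ₐ[inertiaField A] QBar,
      σ (ζ ^ q) = ζ ^ q ∧ σ (ζ ^ n) = (ζ ^ n) ^ (d : ZMod q).val := by
  have hn0 : n ≠ 0 := fun h => hn (h ▸ dvd_zero q)
  have hpos : 0 < q * n := Nat.mul_pos hq.pos (Nat.pos_of_ne_zero hn0)
  have h1 : IsPrimitiveRoot (ζ ^ n) q := hζ.pow hpos (mul_comm q n)
  have h2 : IsPrimitiveRoot ((ζ ^ n) ^ (d : ZMod q).val) q :=
    h1.pow_of_coprime _ (ZMod.val_coe_unit_coprime d)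
  obtain ⟨σ, hσ, hσζ⟩ := Mazur.Eisenstein.exists_inertia_apply hA hq (m := 0)
    (ζ := ζ ^ n) (η := (ζ ^ n) ^ (d : ZMod q).val) (by rwa [zero_add, pow_one])
    (by rwa [zero_add, pow_one])
  refine ⟨{ σ.toRingEquiv with commutes' := fun x => (mem_inertiaField A).mp x.2 σ hσ }, ?_, hσζ⟩
  exact inertia_root hA hq hσ (m := n) (by rw [← pow_mul, hζ.pow_eq_one]) hn

end Fermat.Agent.Carayol
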