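import Fermat.Agent.Carayol.Kernel
import Mathlib.LinearAlgebra.Matrix.GeneralLinearGroup.Defs

/-!
# The field of a full level structure on a Tate normal form

`TateLevel K Ω` records the properties of the field of modular functions of level `q n` over `K`
used in the integral study at `q`; the datum is constructed analytically in `Carayol/Omega/Level`.
-/

set_option autoImplicit false

namespace Fermat.Agent.Carayol

open WeierstrassCurve Matrix

variable {Ω : Type*} [Field Ω] {b c : Ω}

/-- The affine coordinates of a point, as a set. -/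
def coordSet : (tateCurve b c).toAffine.Point → Set Ω
  | .zero => ∅
  | .some x y _ => {x, y}

/-- The field of level `q n` with its Tate normal form, torsion and action of `GL₂(𝔽_q)`. -/
structure TateLevel (K Ω : Type*) [Field K] [Field Ω] [Algebra K Ω] [DecidableEq Ω] where
  /-- The invariant. -/
  j : Ω
  j_transcendental : Transcendental K j
  finite : FiniteDimensional (IntermediateField.adjoin K ({j} : Set Ω)) Ω
  normal : Normal (IntermediateField.adjoin K ({j} : Set Ω)) Ω
  b : Ω
  c : Ω
  /-- The torsion. -/
  frame : TorsFrame b c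
  orderR : addOrderOf (tatePt (c := c) frame.hb) ∈ ({7, 9} : Finset ℕ)
  Δ_ne_zero : (tateCurve b c).Δ ≠ 0
  j_eq : (tateCurve b c).c₄ ^ 3 = j * (tateCurve b c).Δ
  generate : IntermediateField.adjoin K
    (({j} : Set Ω) ∪ ⋃ P ∈ {P : (tateCurve b c).toAffine.Point |
      frame.n • P = 0 ∨ P ∈ Set.range frame.qTors}, coordSet P) = ⊤
  /-- The action of `GL₂(𝔽_q)`. -/
  act : GL (Fin 2) (ZMod frame.q) →* (Ω ≃ₐ[K] Ω)
  act_j : ∀ g, act g j = j
  act_fix : ∀ (g) (P : (tateCurve b c).toAffine.Point), frame.n • P = 0 →
    ∀ a ∈ coordSet P, act g a = a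
  act_qTors : ∀ (g : GL (Fin 2) (ZMod frame.q)) (v : Fin 2 → ZMod frame.q) (x y : Ω)
    (h : (tateCurve b c).toAffine.Nonsingular x y), frame.qTors v = .some x y h →
    ∃ h', frame.qTors ((g : Matrix (Fin 2) (Fin 2) (ZMod frame.q)) *ᵥ v)
      = .some (act g x) (act g y) h'

end Fermat.Agent.Carayol
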