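import Fermat.Agent.Carayol.MaxIdeal
import Mathlib.Algebra.Ring.Equiv

/-!
# Automorphisms congruent to one on the kernel fix the closed point

`map_mem_O`: an automorphism over the base, fixing the `n`-torsion and moving each `q`-torsion
point by a multiple of the kernel point, maps each generator to a congruent one, hence preserves the
local ring.
-/

set_option autoImplicit false

namespace Fermat.Agent.Carayol

open WeierstrassCurve

variable {Ω : Type*} [Field Ω] [DecidableEq Ω] {b c : Ω}

/-- `Q` is the conjugate of `P` under `σ`. -/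
def IsConj (σ : Ω ≃+* Ω) : (tateCurve b c).toAffine.Point → (tateCurve b c).toAffine.Point → Prop
  | .zero, Q => Q = 0
  | .some x y _, Q => ∃ h, Q = .some (σ x) (σ y) h

lemma IsConj.add {σ : Ω ≃+* Ω} (hb : σ b = b) (hc : σ c = c)
    {P P' Q Q' : (tateCurve b c).toAffine.Point} (h : IsConj σ P Q) (h' : IsConj σ P' Q') :
    IsConj σ (P + P') (Q + Q') := by
  rcases P with _ | ⟨x, y, hn⟩
  · have : Q = 0 := h
    subst this; rwa [← Affine.Point.zero_def, zero_add, zero_add]
  rcases P' with _ | ⟨x', y', hn'⟩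
  · have : Q' = 0 := h'
    subst this; rwa [← Affine.Point.zero_def, add_zero, add_zero]
  obtain ⟨k, rfl⟩ := h
  obtain ⟨k', rfl⟩ := h'
  have hW : (tateCurve b c).map (σ : Ω →+* Ω) = tateCurve b c := by
    rw [tateCurve_map]; simp [hb, hc]
  have hneg : (tateCurve b c).toAffine.negY (σ x') (σ y')
      = σ ((tateCurve b c).toAffine.negY x' y') := by
    simp [Affine.negY, tateCurve, hb, hc]
  by_cases hxy : x = x' ∧ y = (tateCurve b c).toAffine.negY x' y'
  · rw [Affine.Point.add_of_Y_eq hxy.1 hxy.2,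
      Affine.Point.add_of_Y_eq (by rw [hxy.1]) (by rw [hneg, ← hxy.2])]
    rfl
  have hxy' : ¬ (σ x = σ x' ∧ σ y = (tateCurve b c).toAffine.negY (σ x') (σ y')) := by
    rw [hneg, σ.injective.eq_iff, σ.injective.eq_iff]; exact hxy
  rw [Affine.Point.add_some hxy, Affine.Point.add_some hxy']
  set L := (tateCurve b c).toAffine.slope x x' y y' with hL
  have hsl : (tateCurve b c).toAffine.slope (σ x) (σ x') (σ y) (σ y') = σ L := by
    have := Affine.map_slope (W := (tateCurve b c).toAffine) (σ : Ω →+* Ω) x x' y y'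
    rw [show (tateCurve b c).toAffine.map (σ : Ω →+* Ω) = tateCurve b c from hW] at this
    exact this
  have hX : (tateCurve b c).toAffine.addX (σ x) (σ x') (σ L)
      = σ ((tateCurve b c).toAffine.addX x x' L) := by
    simp [Affine.addX, tateCurve, hb, hc]
  have hY : (tateCurve b c).toAffine.addY (σ x) (σ x') (σ y) (σ L)
      = σ ((tateCurve b c).toAffine.addY x x' y L) := by
    simp [Affine.addY, Affine.negAddY, Affine.negY, Affine.addX, tateCurve, hb, hc]
  exact exists_some_eq rfl (by rw [hsl, hX]) (by rw [hsl, hY])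

variable {T : TorsFrame b c} {F : GoodFibre b c} {W0 : Subring Ω} {j : Ω}

namespace KerData

variable (D : KerData T F W0 j)

/-- An automorphism congruent to the identity on the kernel stabilises the local ring. -/
theorem map_mem_O [Fact T.q.Prime] (σ : Ω ≃+* Ω) (hW : ∀ w ∈ W0, σ w = w) (hb : σ b = b)
    (hc : σ c = c) (u : (Fin 2 → ZMod T.q) → (Fin 2 → ZMod T.q))
    (hn : ∀ a : (tateCurve b c).toAffine.Point, T.n • a = 0 → IsConj σ a a)
    (hq : ∀ v, IsConj σ (T.qTors v) (T.qTors (u v)))
    (hu : ∀ v, ∃ k : ℕ, u v = v + k • D.v0) (hu0 : u D.v0 ≠ 0)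
    {z : Ω} (hz : z ∈ F.O) : σ z ∈ F.O := by
  -- `σ a ≡ a` on the ring `D.A`: it is enough on its generators
  have close : ∀ a ∈ D.A, σ a ∈ F.O ∧ InMax F.O (σ a - a) := by
    have gens : ∀ x ∈ T.gens D.v0, σ x ∈ F.O ∧ InMax F.O (σ x - x) := by
      obtain ⟨k0, hk0⟩ := hu D.v0
      obtain ⟨xP, yP, hP, eP, h0, h0', hs, ht⟩ := D.hinf
      -- the kernel point goes to a nonzero multiple of itself, also at infinity in the fibre
      obtain ⟨hP', eP'⟩ : ∃ h, T.qTors (u D.v0) = Affine.Point.some (σ xP) (σ yP) h := by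
        have h := hq D.v0
        rw [eP] at h
        exact h
      have hinf : F.Inf (T.qTors (u D.v0)) := by
        rw [hk0, map_add, map_nsmul, ← succ_nsmul']
        refine D.hinf.nsmul T.hq.ne_zero (T.nsmul_qTors _) _ ?_
        rw [succ_nsmul', ← map_nsmul, ← map_add, ← hk0]
        exact (map_ne_zero_iff _ T.qTors_injective).2 hu0
      have hsig : InMax F.O (σ xP / σ yP) ∧ InMax F.O (1 / σ yP) := by
        obtain ⟨x2, y2, h2, e2, -, -, hs', ht'⟩ := hinf
        obtain ⟨rfl, rfl⟩ := Affine.Point.some.inj (eP'.symm.trans e2)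
        exact ⟨hs', ht'⟩
      rintro x ((rfl | rfl | rfl | rfl | rfl) | hx)
      · exact ⟨by rw [hb]; exact F.b_mem, by rw [hb, sub_self]; exact inMax_zero⟩
      · exact ⟨by rw [hc]; exact F.c_mem, by rw [hc, sub_self]; exact inMax_zero⟩
      · have hΔ : σ (tateCurve b c).Δ⁻¹ = (tateCurve b c).Δ⁻¹ := by
          rw [map_inv₀]
          congr 1
          have := (WeierstrassCurve.map_Δ (tateCurve b c) (σ : Ω →+* Ω)).symm
          rw [tateCurve_map] at this
          simpa [hb, hc] using this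
        rw [hΔ, sub_self]
        exact ⟨D.A_le D.Δinv_mem_A, inMax_zero⟩
      · rw [eP, sPar_some, map_div₀]
        exact ⟨hsig.1.mem, hsig.1.sub hs⟩
      · rw [eP, tPar_some, map_div₀, map_one]
        exact ⟨hsig.2.mem, hsig.2.sub ht⟩
      · -- a mixed point is translated by a multiple of the kernel point: congruent coordinates
        simp only [Set.mem_iUnion] at hx
        obtain ⟨P, ⟨a, v, ha, ha0, rfl⟩, hx⟩ := hx
        have hm : a + T.qTors v ∈ T.mixed := ⟨a, v, ha, ha0, rfl⟩
        have hc' := (hn a ha).add hb hc (hq v)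
        obtain ⟨x1, y1, h1, e1, -, -⟩ := D.ov.fin_mixed hm
        rw [e1] at hx hc'
        obtain ⟨h1', e1'⟩ := hc'
        obtain ⟨k, hk⟩ := hu v
        obtain ⟨x2, y2, h2, e2, β, hβ, γ, hγ, ex, ey⟩ :=
          D.exists_translate (hA := h1) (e1 ▸ hm) k
        rw [← e1, add_assoc, ← map_nsmul, ← map_add, ← hk, e1'] at e2
        obtain ⟨rfl, rfl⟩ := Affine.Point.some.inj e2
        obtain ⟨hxB, hyB⟩ := D.coord_mem_B (e1 ▸ hm)
        have hsm : InMax F.O D.s := (D.inMax_B.1 D.inMax_s).2
        rcases hx with rfl | rfl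
        · rw [ex]
          constructor
          · exact add_mem (sub_mem (D.B_le hxB) (mul_mem (mul_mem (natCast_mem _ k) hsm.mem)
              (add_mem (add_mem (mul_mem (ofNat_mem _ 2) (D.B_le hyB))
                (mul_mem (sub_mem (one_mem _) F.c_mem) (D.B_le hxB))) (neg_mem F.b_mem))))
              (mul_mem (pow_mem hsm.mem 2) (D.B_le hβ))
          · have hr : (-(k : Ω)) * (2 * y1 + (1 - c) * x + -b) + D.s * β ∈ F.O :=
              add_mem (mul_mem (neg_mem (natCast_mem _ k))
                (add_mem (add_mem (mul_mem (ofNat_mem _ 2) (D.B_le hyB))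
                  (mul_mem (sub_mem (one_mem _) F.c_mem) (D.B_le hxB))) (neg_mem F.b_mem)))
                (mul_mem hsm.mem (D.B_le hβ))
            rw [show x - k * D.s * (2 * y1 + (1 - c) * x + -b) + D.s ^ 2 * β - x
              = D.s * ((-(k : Ω)) * (2 * y1 + (1 - c) * x + -b) + D.s * β) by ring]
            exact hsm.mul_right hr
        · rw [ey]
          exact ⟨add_mem (D.B_le hyB) (mul_mem hsm.mem (D.B_le hγ)),
            by rw [add_sub_cancel_left]; exact hsm.mul_right (D.B_le hγ)⟩
    intro a ha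
    refine Subring.closure_induction (p := fun a _ => σ a ∈ F.O ∧ InMax F.O (σ a - a))
      ?_ ?_ ?_ ?_ ?_ ?_ ha
    · rintro x (hx | hx)
      · exact ⟨by rw [hW x hx]; exact D.ov.le hx, by rw [hW x hx, sub_self]; exact inMax_zero⟩
      · exact gens x hx
    · simp [inMax_zero, zero_mem]
    · simp [inMax_zero, one_mem]
    · rintro x y - - ⟨h1, h2⟩ ⟨h3, h4⟩
      rw [map_add, show σ x + σ y - (x + y) = (σ x - x) + (σ y - y) by ring]
      exact ⟨add_mem h1 h3, h2.add h4⟩
    · rintro x - ⟨h1, h2⟩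
      rw [map_neg, show -σ x - -x = -(σ x - x) by ring]
      exact ⟨neg_mem h1, h2.neg⟩
    · rintro x y - hy ⟨h1, h2⟩ ⟨h3, h4⟩
      rw [map_mul, show σ x * σ y - x * y = σ x * (σ y - y) + (σ x - x) * y by ring]
      exact ⟨mul_mem h1 h3, (h4.mul_left h1).add (h2.mul_right (D.A_le hy))⟩
  -- an element of the local ring is `a / d` with `d`, hence `σ d`, a unit
  obtain ⟨a, ha, d, hd, hdm, e⟩ := D.mem_O_iff.1 hz
  obtain ⟨hda, hdd⟩ := close d hd
  have hσd : ¬ InMax F.O (σ d) := fun h => hdm (by simpa using h.sub hdd)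
  obtain ⟨hd0, hdi, -⟩ := inv_mem_of_not_inMax hda hσd
  rw [show σ z = σ a * (σ d)⁻¹ by rw [← e, map_mul, mul_assoc, mul_inv_cancel₀ hd0, mul_one]]
  exact mul_mem (close a ha).1 hdi

end KerData

end Fermat.Agent.Carayol
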