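import Mathlib.AlgebraicGeometry.EllipticCurve.Affine.Point
import Mathlib.Tactic

/-!
# Small multiples of the marked point on a Tate normal form
-/

set_option autoImplicit false

namespace Fermat.Agent.Carayol

open WeierstrassCurve

/-- The Tate normal form `y² + (1 - c) x y - b y = x³ - b x²`. -/
def tateCurve {A : Type*} [CommRing A] (b c : A) : WeierstrassCurve A :=
  ⟨1 - c, -b, -b, 0, 0⟩

/-- Tate normal form commutes with ring maps. -/
lemma tateCurve_map {A B : Type*} [CommRing A] [CommRing B] (f : A →+* B) (b c : A) :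
    (tateCurve b c).map f = tateCurve (f b) (f c) := by
  simp [tateCurve, WeierstrassCurve.map]

variable {F : Type*} [Field F] {b c : F}

/-- `(0, 0)` is a nonsingular point of the Tate normal form. -/
lemma tate_nonsingular_zero (hb : b ≠ 0) : (tateCurve b c).toAffine.Nonsingular 0 0 := by
  rw [Affine.nonsingular_iff, Affine.equation_iff]
  exact ⟨by simp [tateCurve], Or.inr (by simpa [tateCurve] using hb.symm)⟩

/-- The marked point `(0, 0)`. -/
def tatePt (hb : b ≠ 0) : (tateCurve b c).toAffine.Point :=
  .some 0 0 (tate_nonsingular_zero hb)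

/-- An affine point may be rewritten along equalities of coordinates. -/
lemma exists_some_eq {W : Affine F} {x y x' y' : F} {P : W.Point} {h : W.Nonsingular x y}
    (e : P = .some x y h) (hx : x = x') (hy : y = y') :
    ∃ h' : W.Nonsingular x' y', P = .some x' y' h' := by
  subst hx hy; exact ⟨h, e⟩

variable [DecidableEq F]

/-- Twice the marked point of the Tate normal form is `(b, b c)`. -/
lemma two_nsmul_tatePt (hb : b ≠ 0) :
    ∃ h, (2 : ℕ) • tatePt (c := c) hb = Affine.Point.some b (b * c) h := by
  have hy : (0 : F) ≠ (tateCurve b c).toAffine.negY 0 0 := by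
    simpa [tateCurve, Affine.negY] using hb.symm
  have hsl : (tateCurve b c).toAffine.slope 0 0 0 0 = 0 := by
    rw [Affine.slope_of_Y_ne rfl hy]; simp [tateCurve]
  have hX : (tateCurve b c).toAffine.addX 0 0 0 = b := by simp [tateCurve, Affine.addX]
  have hY : (tateCurve b c).toAffine.addY 0 0 0 0 = b * c := by
    simp [tateCurve, Affine.addY, Affine.negAddY, Affine.negY, Affine.addX]
    ring
  refine exists_some_eq ((two_nsmul _).trans (Affine.Point.add_self_of_Y_ne hy)) ?_ ?_
  · rw [hsl, hX]
  · rw [hsl, hY]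

/-- The triple of the Tate point is `(c, b - c)`. -/
lemma three_nsmul_tatePt (hb : b ≠ 0) :
    ∃ h, (3 : ℕ) • tatePt (c := c) hb = Affine.Point.some c (b - c) h := by
  obtain ⟨h2, e2⟩ := two_nsmul_tatePt (c := c) hb
  have hsl : (tateCurve b c).toAffine.slope b 0 (b * c) 0 = c := by
    rw [Affine.slope_of_X_ne hb]; field_simp; ring
  have hX : (tateCurve b c).toAffine.addX b 0 c = c := by
    simp [tateCurve, Affine.addX]; ring
  have hY : (tateCurve b c).toAffine.addY b 0 (b * c) c = b - c := by
    simp [tateCurve, Affine.addY, Affine.negAddY, Affine.negY, Affine.addX]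
    ring
  refine exists_some_eq (x := (tateCurve b c).toAffine.addX b 0 _)
    (((succ_nsmul _ 2).trans (by rw [e2]; rfl)).trans (Affine.Point.add_of_X_ne hb)) ?_ ?_
  · rw [hsl, hX]
  · rw [hsl, hY]

/-- The abscissa of four times the marked point of the Tate normal form. -/
lemma four_nsmul_tatePt (hb : b ≠ 0) (hc : c ≠ 0) :
    ∃ y h, (4 : ℕ) • tatePt (c := c) hb = Affine.Point.some (b / c * (b / c - 1)) y h := by
  obtain ⟨h3, e3⟩ := three_nsmul_tatePt (c := c) hb
  have hsl : (tateCurve b c).toAffine.slope c 0 (b - c) 0 = b / c - 1 := by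
    rw [Affine.slope_of_X_ne hc]; field_simp; ring
  have hX : (tateCurve b c).toAffine.addX c 0 (b / c - 1) = b / c * (b / c - 1) := by
    simp [tateCurve, Affine.addX]; field_simp; ring
  refine ⟨_, exists_some_eq (x := (tateCurve b c).toAffine.addX c 0 _)
    (((succ_nsmul _ 3).trans (by rw [e3]; rfl)).trans (Affine.Point.add_of_X_ne hc)) ?_ rfl⟩
  rw [hsl, hX]

end Fermat.Agent.Carayol
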