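import Fermat.Agent.Carayol.Rigid
import Fermat.Agent.Carayol.NormRoot
import Fermat.Agent.Carayol.Statement
import Fermat.Agent.Carayol.Omega.CuspInst
import Fermat.Agent.Carayol.Omega.Norm
import Fermat.Agent.Carayol.Omega.Descent
import Fermat.Agent.Carayol.Degree

/-!
# The geometric bound at a prime whose square divides the level

A new torsion class fixed by inertia is that of a fixed divisor `D`, with `m D = div f`. On the
field of level `q n` both partial norms of `f` are constants times `m`-th powers, so by the integral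
study a fixed power of `f` is one, and taking norms a fixed multiple of `D` is principal.

The main theorem is `fixedNewTorsionBound`.
-/

set_option autoImplicit false

noncomputable section

open Function Matrix AlgebraicCurve ModularCurve

namespace Fermat.Agent.Carayol

open Fermat.Agent.Arith (QBar)

-- Subfields take their algebra structure by restriction first: this halves the elaboration time.
attribute [local instance 20000] SubalgebraClass.toAlgebra

theorem uPlus_add {q : ℕ} (a b : ZMod q) : uPlus (a + b) = uPlus a * uPlus b := by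
  apply Units.ext
  simp [uPlus, add_comm]

theorem uMinus_add {q : ℕ} (a b : ZMod q) : uMinus (a + b) = uMinus a * uMinus b := by
  apply Units.ext
  simp [uMinus]

/-! ### Partial norms on the level `q n` -/

namespace TateLevel

variable {K : Type*} [Field K] {Ω : Type} [Field Ω] [Algebra K Ω] [DecidableEq Ω]
  (T : TateLevel K Ω)

/-- If both partial norms of a function are constants times `m`-th powers, so is its torus
combination. -/
theorem lam_torus {m : ℕ} (f : Ωˣ)
    (hp : ∃ (κ : Kˣ) (γ : Ωˣ), ∏ a, T.transl f (uPlus a) =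
      Units.map (algebraMap K Ω).toMonoidHom κ * γ ^ m)
    (hm : ∃ (κ : Kˣ) (γ : Ωˣ), ∏ a, T.transl f (uMinus a) =
      Units.map (algebraMap K Ω).toMonoidHom κ * γ ^ m) :
    ∃ (κ : Kˣ) (γ : Ωˣ), T.lam (torusComb T.frame.q) (T.transl f) =
      Units.map (algebraMap K Ω).toMonoidHom κ * γ ^ m := by
  classical
  -- Constants times `m`-th powers form a subgroup stable under translation.
  let S : Subgroup Ωˣ :=
    (Units.map (algebraMap K Ω).toMonoidHom).range ⊔ (powMonoidHom m : Ωˣ →* Ωˣ).range
  have hS : ∀ z, z ∈ S ↔ ∃ (κ : Kˣ) (γ : Ωˣ),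
      z = Units.map (algebraMap K Ω).toMonoidHom κ * γ ^ m := fun z => by
    rw [Subgroup.mem_sup]
    constructor
    · rintro ⟨_, ⟨κ, rfl⟩, _, ⟨γ, rfl⟩, rfl⟩
      exact ⟨κ, γ, rfl⟩
    · rintro ⟨κ, γ, rfl⟩
      exact ⟨_, ⟨κ, rfl⟩, _, ⟨γ, rfl⟩, rfl⟩
  have htr : ∀ g z, z ∈ S → T.transl z g ∈ S := fun g z hz => by
    obtain ⟨κ, γ, rfl⟩ := (hS z).1 hz
    refine (hS _).2 ⟨κ, T.transl γ g, ?_⟩
    simp only [transl, map_mul, map_pow]
    congr 1
    exact Units.ext ((T.act g).commutes _)
  have key : ∀ (u : ZMod T.frame.q → GL (Fin 2) (ZMod T.frame.q)),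
      ∏ a, T.transl f (u a) ∈ S → ∀ g,
        ∑ a, Additive.ofMul (T.transl f (g * u a)) ∈ Subgroup.toAddSubgroup S := fun u hu g => by
    rw [← ofMul_prod]
    show ∏ a, T.transl f (g * u a) ∈ S
    rw [Finset.prod_congr rfl fun a _ => T.transl_mul_apply f g (u a),
      show ∏ a, T.transl (T.transl f (u a)) g = T.transl (∏ a, T.transl f (u a)) g from
        (map_prod (Units.map (T.act g).toRingEquiv.toRingHom.toMonoidHom) _ _).symm]
    exact htr g _ hu
  -- So it contains every translated partial norm, hence the torus combination.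
  have hP := key uPlus ((hS _).2 hp)
  have hM := key uMinus ((hS _).2 hm)
  have h1 : ∀ (u : ZMod T.frame.q → GL (Fin 2) (ZMod T.frame.q)), (∀ g,
      ∑ a, Additive.ofMul (T.transl f (g * u a)) ∈ Subgroup.toAddSubgroup S) →
      ∑ a, Additive.ofMul (T.transl f (u a)) ∈ Subgroup.toAddSubgroup S := fun u h => by
    simpa using h 1
  have hall : combOp (fun g => Additive.ofMul (T.transl f g)) ∈ Subgroup.toAddSubgroup S :=
    sub_mem (add_mem (zsmul_mem (add_mem (h1 _ hP) (h1 _ hM)) _)
      (zsmul_mem (add_mem (hP _) (hM _)) _))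
      (zsmul_mem (sum_mem fun x _ => add_mem (hM _) (hP _)) _)
  refine (hS _).1 ?_
  rw [lam, sum_torusComb]
  exact hall

/-- The integral study for the diagonal torus. -/
theorem exists_root_of_partial_norms {T : TateLevel K Ω} {U : UnramBase K T.frame.q} {S : SerBase U}
    (C : CuspEmb T S) {m : ℕ} (hm : IsUnit (m : U.W)) (f : Ωˣ)
    (hd : ∀ a d, T.act (diagElt a d) (f : Ω) = f) (hpl : Places K m f)
    (hp : ∃ (κ : Kˣ) (γ : Ωˣ), ∏ a, T.transl f (uPlus a) =
      Units.map (algebraMap K Ω).toMonoidHom κ * γ ^ m)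
    (hm' : ∃ (κ : Kˣ) (γ : Ωˣ), ∏ a, T.transl f (uMinus a) =
      Units.map (algebraMap K Ω).toMonoidHom κ * γ ^ m) :
    ∃ (κ : Kˣ) (h : Ωˣ), (f : Ω) ^ glueExp (torusComb T.frame.q) =
      algebraMap K Ω κ * (h : Ω) ^ m := by
  obtain ⟨κ, γ, hlam⟩ := T.lam_torus f hp hm'
  have hfixed : T.FixedBy (torusComb T.frame.q) f := by
    rintro _ ⟨⟨a, d⟩, rfl⟩
    exact Units.ext (hd a d)
  obtain ⟨κ', h, e⟩ := exists_const_mul_pow C (torusComb T.frame.q) hm hfixed hpl hlam
  exact ⟨κ', h, congrArg Units.val e⟩

end TateLevel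

/-! ### Series fixed by inertia -/

namespace Omega

/-- The algebra structure used on the field of level `q n` is the standard one. -/
theorem serAlg_eq (A : ValuationSubring QBar) : serAlg A =
    (inferInstance : Algebra (inertiaField A) (LaurentSeries QBar)) := by
  refine Algebra.algebra_ext _ _ fun c => ?_
  refine (algebraMap_laurent_comp (K := QBar) (k := inertiaField A) c).trans ?_
  rw [IsScalarTower.algebraMap_apply (inertiaField A) QBar (LaurentSeries QBar),
    algebraMap_laurentSeries_eq_single, HahnSeries.C_apply]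

/-- `ratField` is generated alike for the algebra structure `serAlg`. -/
theorem mem_adjoin_serAlg_iff {A : ValuationSubring QBar} {N : ℕ} {x : LaurentSeries QBar} :
    x ∈ ratField A N ↔ x ∈ @IntermediateField.adjoin (inertiaField A) _ (LaurentSeries QBar) _
      (serAlg A) (divisorExpansionsC QBar N) := by
  rw [serAlg_eq]
  exact Iff.rfl

attribute [local instance 2000] serAlg

/-- The field of level `N` over the field fixed by inertia, for the algebra structure of `serAlg`.
-/
def ratSer (A : ValuationSubring QBar) (N : ℕ) :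
    IntermediateField (inertiaField A) (LaurentSeries QBar) :=
  IntermediateField.adjoin _ (divisorExpansionsC QBar N)

section RatSer

variable {A : ValuationSubring QBar} {N : ℕ}

/-- For `serAlg` constants are constant series. -/
theorem algebraMap_serAlg_eq (c : inertiaField A) :
    algebraMap (inertiaField A) (LaurentSeries QBar) c =
      algebraMap QBar (LaurentSeries QBar) (c : QBar) := by
  rw [algebraMap_laurent_comp, algebraMap_laurentSeries_eq_single, HahnSeries.C_apply]
  rfl

/-- The two algebra structures give the same field. -/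
theorem mem_ratField_iff {x : LaurentSeries QBar} : x ∈ ratField A N ↔ x ∈ ratSer A N :=
  mem_adjoin_serAlg_iff

/-- A series in `ratSer` is a function on the curve over `ℚ̄`. -/
theorem mem_bar_of_mem_ratSer [NeZero N] {x : LaurentSeries QBar} (hx : x ∈ ratSer A N) :
    x ∈ modularFunctionFieldBar N :=
  mem_bar_of_mem_ratFieldH (mem_ratField_iff.2 hx)

/-- A function with fixed coefficients lies in `ratSer`. -/
theorem mem_ratSer [NeZero N] {x : LaurentSeries QBar} (hx : x ∈ modularFunctionFieldBar N)
    (hf : CoeffFixed A x) : x ∈ ratSer A N :=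
  mem_ratField_iff.1 (mem_ratFieldH hx hf)

/-- The identity map from `ratField A N` to `ratSer A N`. -/
def toRatSer : ratField A N →+* ratSer A N where
  toFun x := ⟨x, mem_ratField_iff.1 x.2⟩
  map_one' := rfl
  map_mul' _ _ := rfl
  map_zero' := rfl
  map_add' _ _ := rfl

end RatSer

/-- A function on the curve is generated by the expansions of level dividing `N`. -/
theorem mem_adjoin_of_bar {N : ℕ} (x : modularFunctionFieldBar N) :
    (x : LaurentSeries QBar) ∈ IntermediateField.adjoin QBar (divisorExpansionsC QBar N) := by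
  show (x : LaurentSeries QBar) ∈ modularFunctionFieldFullC QBar N
  rw [← ModFun.laurentBaseChange_eq_fullC]
  exact x.2

/-- An element of an intermediate field which is zero in the ambient field is zero. -/
theorem eq_zero_of_coe_eq {F E : Type*} [Field F] [Field E] [Algebra F E]
    {K : IntermediateField F E} {x : K} (h : (x : E) = 0) : x = 0 :=
  Subtype.ext (h.trans (IntermediateField.coe_zero K).symm)

/-! ### Powers of fixed functions -/

namespace Setup

attribute [local irreducible] Setup.toSer Setup.pull Setup.toFrac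

section Level

variable {q n M : ℕ} [NeZero (q * n)] [NeZero q] [NeZero n] [NeZero M]
  (E : Setup (q * n) QBar) {A : ValuationSubring QBar}
  (hA : A.LiesOverPrime q) (hq : q.Prime) (hcop : q.Coprime n)
  {P : ZMod (q * n) × ZMod (q * n)} (hP : GoodPt P) (hMn : M ∣ n)

/-- `x ↦ x (τ/q)` on functions with fixed coefficients. -/
def ratEmb : ratSer A (q * M * q) →ₐ[inertiaField A] E.field (inertiaField A) where
  toFun x := ⟨qExpand QBar n (x : LaurentSeries QBar),
    E.qExpand_mem_field (fun _ _ hd => E.qExpand_jd_mem _ hP hq hMn hd) x.2⟩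
  map_one' := Subtype.ext (map_one _)
  map_mul' x y := Subtype.ext (map_mul _ _ _)
  map_zero' := Subtype.ext (map_zero _)
  map_add' x y := Subtype.ext (map_add _ _ _)
  commutes' c := Subtype.ext (by
    show qExpand QBar n (algebraMap (inertiaField A) (LaurentSeries QBar) c) =
      algebraMap (inertiaField A) (LaurentSeries QBar) c
    rw [algebraMap_laurent_comp, HahnSeries.C_apply, qExpand_single, mul_zero])

omit [NeZero M] [NeZero q] in
/-- `ratEmb` substitutes `τ / q`, i.e. expands by `n`. -/
theorem coe_ratEmb (x : ratSer A (q * M * q)) :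
    (E.ratEmb (A := A) hq hP hMn x : LaurentSeries QBar) =
      qExpand QBar n (x : LaurentSeries QBar) :=
  rfl

omit [NeZero M] [NeZero q] in
include hP hMn hq in
/-- Functions of level `q M q` land in the field of level `q n`. -/
theorem qExpand_mem_bar (x : modularFunctionFieldBar (q * M * q)) :
    qExpand QBar n (x : LaurentSeries QBar) ∈ E.field QBar := by
  exact E.qExpand_mem_field (fun _ _ hd => E.qExpand_jd_mem QBar hP hq hMn hd)
    (mem_adjoin_of_bar x)

include hP hMn in
/-- A partial norm of a fixed function is a constant times an `m`-th power. -/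
theorem exists_prod_eq (φ : modularFunctionFieldBar (q * M) →ₐ[QBar]
      modularFunctionFieldBar (q * M * q))
    (hdeg : finrankAlong QBar φ = q)
    (hφgal : ∀ (σ : QBar ≃ₐ[ℚ] QBar) (x : modularFunctionFieldBar (q * M)),
      φ (arithmeticGalois (L := QBar) (modularFunctionFieldFull (q * M)) σ • x) =
        arithmeticGalois (L := QBar) (modularFunctionFieldFull (q * M * q)) σ • φ x)
    (u : ZMod q → GL (Fin 2) (ZMod q))
    (hadd : ∀ a b, u (a + b) = u a * u b)
    (hdet : ∀ a, (u a : Matrix (Fin 2) (Fin 2) (ZMod q)).det = 1)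
    (hfix : ∀ a (e : E.field QBar ≃ₐ[QBar] E.field QBar),
      E.Moves QBar e (liftMat hcop (u a : Matrix (Fin 2) (Fin 2) (ZMod q))) →
      ∀ (x : modularFunctionFieldBar (q * M)) (y : E.field QBar),
        (y : LaurentSeries QBar) = qExpand QBar n (φ x : LaurentSeries QBar) → e y = y)
    (y₀ : ratSer A (q * M * q))
    (act : GL (Fin 2) (ZMod q) →*
      (E.field (inertiaField A) ≃ₐ[inertiaField A] E.field (inertiaField A)))
    (hact : ∀ g, E.Moves (inertiaField A) (act g)
      (liftMat hcop (g : Matrix (Fin 2) (Fin 2) (ZMod q))))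
    (hinj : ∀ a, act (u a) (E.ratEmb (A := A) hq hP hMn y₀) =
      E.ratEmb (A := A) hq hP hMn y₀ → a = 0)
    {m : ℕ} (hm : m ≠ 0) {D : Divisor QBar (modularFunctionFieldBar (q * M * q))}
    {f : modularFunctionFieldBar (q * M * q)} (hf0 : f ≠ 0)
    (hf : CoeffFixed A (f : LaurentSeries QBar))
    (hord : ∀ P, P.ord f = (m : ℤ) * D P)
    (hD : (Divisor.pushforwardAlong φ (FF.isIntegralAlong φ) D).IsPrincipal)
    (fu : (E.field (inertiaField A))ˣ)
    (hfu : (fu : E.field (inertiaField A)) = E.ratEmb (A := A) hq hP hMn ⟨f,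
      mem_ratSer f.2 hf⟩) :
    ∃ (κ : (inertiaField A)ˣ) (γ : (E.field (inertiaField A))ˣ),
      ∏ a, Units.map (act (u a)).toRingEquiv.toRingHom.toMonoidHom fu =
        Units.map (algebraMap (inertiaField A) (E.field (inertiaField A))).toMonoidHom κ *
          γ ^ m := by
  classical
  choose γ hγ using fun a => exists_redMat_liftMat hcop (hdet a)
  have hmem := E.qExpand_mem_bar hq hP hMn
  -- the action through substitutions over `ℚ̄`
  have hval : ∀ a (x : ratSer A (q * M * q)),
      ((act (u a) (E.ratEmb (A := A) hq hP hMn x) : E.field (inertiaField A))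
      : LaurentSeries QBar) =
        E.substHom QBar (γ a) ⟨_, hmem ⟨x, mem_bar_of_mem_ratSer x.2⟩⟩ := fun a x =>
    E.coe_moves_eq (inertiaField A) QBar (γ a)
      (hγ a ▸ hact (u a)) rfl
  have hfix' : ∀ a (x : modularFunctionFieldBar (q * M)),
      E.substHom QBar (γ a) ⟨_, hmem (φ x)⟩ = qExpand QBar n (φ x : LaurentSeries QBar) := by
    intro a x
    obtain ⟨e, he, he'⟩ := E.exists_moves_subst QBar (γ a)
    rw [← he', hfix a e (hγ a ▸ he) x ⟨_, hmem (φ x)⟩ rfl]
  have hu0 : u 0 = 1 := by simpa using hadd 0 0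
  -- the `q` substitutions differ at `y₀`, so they are the conjugates over level `q M`
  have hinj' : Injective fun a =>
      E.substHom QBar (γ a) ⟨_, hmem ⟨y₀, mem_bar_of_mem_ratSer y₀.2⟩⟩ := by
    intro a b h
    have h' : act (u a) (E.ratEmb (A := A) hq hP hMn y₀) =
        act (u b) (E.ratEmb (A := A) hq hP hMn y₀) :=
      Subtype.ext ((hval a y₀).trans (h.trans (hval b y₀).symm))
    have h2 := congrArg (act (u (-b))) h'
    rw [← AlgEquiv.mul_apply, ← AlgEquiv.mul_apply, ← map_mul, ← map_mul, ← hadd, ← hadd,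
      neg_add_cancel, hu0, map_one, AlgEquiv.one_apply] at h2
    exact (neg_add_eq_zero.1 (hinj _ h2)).symm
  -- the norm of `f` along `φ` is a constant times an `m`-th power
  obtain ⟨c, g, hc, hg0, hgf, hnorm⟩ := exists_norm_eq (A := A) φ hm hφgal hf0 hf hord hD
  have hgR : (φ g : LaurentSeries QBar) ∈ ratSer A (q * M * q) :=
    mem_ratSer (φ g).2 (coeffFix_iff.mpr fun σ hσ => by
      rw [← hφgal, coeffFix_iff.mp hgf σ hσ])
  set γ' : E.field (inertiaField A) := E.ratEmb (A := A) hq hP hMn ⟨_, hgR⟩
  have hγ0 : γ' ≠ 0 := (_root_.map_ne_zero _).2 fun e =>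
    hg0 (φ.toRingHom.injective ((eq_zero_of_coe_eq (x := φ g) ((congrArg Subtype.val e).trans
      (IntermediateField.coe_zero _))).trans (map_zero φ.toRingHom).symm))
  refine ⟨Units.mk0 c hc, Units.mk0 γ' hγ0, Units.ext (Subtype.ext ?_)⟩
  rw [Units.coe_prod, Units.val_mul, Units.val_pow_eq_pow_val, Units.coe_map]
  simp only [RingHom.toMonoidHom_eq_coe, MonoidHom.coe_coe, AlgEquiv.toRingEquiv_toRingHom,
      RingEquiv.toRingHom_eq_coe, RingHom.coe_coe, Units.coe_map, Units.val_mk0,
      hfu, IntermediateField.coe_prod,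
    IntermediateField.coe_mul, IntermediateField.coe_pow, hval]
  refine (E.qExpand_norm_eq_prod φ hdeg hmem γ hfix'
    ⟨y₀, mem_bar_of_mem_ratSer y₀.2⟩ hinj' f).trans ?_
  rw [hnorm, map_mul, map_pow, φ.commutes, IntermediateField.coe_mul, IntermediateField.coe_pow,
    map_mul, map_pow]
  congr 1
  show qExpand QBar n (algebraMap QBar (LaurentSeries QBar) (c : QBar)) =
    algebraMap (inertiaField A) (LaurentSeries QBar) c
  rw [algebraMap_laurentSeries_eq_single, qExpand_single, mul_zero, algebraMap_laurent_comp,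
    HahnSeries.C_apply]
  rfl

/-- A root over level `q n` of a power of a function of level `q M q` descends to level `q M q` at
the cost of a factorial exponent. -/
private theorem exists_pow_descend {f : modularFunctionFieldBar (q * M * q)}
    (fR : ratSer A (q * M * q)) (hfR : (fR : LaurentSeries QBar) = f) {N m : ℕ}
    {c : inertiaField A} (hc : c ≠ 0)
    {h : E.field (inertiaField A)} (hh : h ≠ 0)
    (hmain : E.ratEmb (A := A) hq hP hMn fR ^ N =
      algebraMap (inertiaField A) (E.field (inertiaField A)) c * h ^ m) :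
    ∃ (c : inertiaField A) (g : modularFunctionFieldBar (q * M * q)), c ≠ 0 ∧ g ≠ 0 ∧
      f ^ (N * Nat.factorial ((q * n) ^ 4)) = algebraMap QBar _ (c : QBar) * g ^ m := by
  set ι := E.ratEmb (A := A) hq hP hMn
  have hjR : E.fj (inertiaField A) ∈ ι.fieldRange := by
    refine AlgHom.mem_fieldRange.2 ⟨⟨_, IntermediateField.subset_adjoin _ _
      (mem_divisorExpansionsC QBar (q * M * q) (dvd_mul_left q _))⟩, Subtype.ext ?_⟩
    show qExpand QBar n _ = _
    rw [coe_fj, qExpand_qExpand]
    exact ModularCurve.qExpand_congr (mul_comm n q) _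
  have hx : ι fR ^ N ∈ ι.fieldRange :=
    pow_mem (AlgHom.mem_fieldRange.2 ⟨fR, rfl⟩) _
  obtain ⟨c', h', hc', hh', hh'S, e⟩ := E.exists_pow_eq_of_subfield (inertiaField A) hjR hx
    hc (m := m) hh hmain
  obtain ⟨g, rfl⟩ := AlgHom.mem_fieldRange.1 hh'S
  refine ⟨c', ⟨(g : LaurentSeries QBar), mem_bar_of_mem_ratSer g.2⟩, hc', fun e0 => hh' ?_,
    Subtype.ext ?_⟩
  · rw [show g = 0 from eq_zero_of_coe_eq ((congrArg Subtype.val e0).trans
      (IntermediateField.coe_zero _)), map_zero]
  · rw [← pow_mul] at e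
    change ι fR ^ _ = algebraMap _ _ c' * ι g ^ m at e
    rw [← map_pow, ← ι.commutes, ← map_pow, ← map_mul] at e
    have e' := congrArg (fun z : ratSer A (q * M * q) => (z : LaurentSeries QBar))
      (ι.toRingHom.injective e)
    simp only [IntermediateField.coe_pow, IntermediateField.coe_mul] at e' ⊢
    rw [← hfR]
    refine e'.trans ?_
    congr 1
    exact algebraMap_serAlg_eq c'

variable [DecidableEq ℂ] [DecidableEq (E.field (inertiaField A))]
  (L : ℕ) (hL : L = 7 ∨ L = 9) (hLn : L ∣ n)
  (hgal : ∀ d : (ZMod q)ˣ, ∃ σ : QBar ≃ₐ[inertiaField A] QBar, σ (E.ζ ^ q) = E.ζ ^ q ∧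
      σ (E.ζ ^ n) = (E.ζ ^ n) ^ (d : ZMod q).val)

include E hA hq hcop hP hMn hL hLn hgal in
/-- For `m` prime to `q`, a fixed power of a fixed function with new divisor divisible by `m` is a
fixed constant times an `m`-th power. -/
theorem exists_pow_eq_const_mul [Fact q.Prime] {m : ℕ} (hm : m.Coprime q)
    {D : Divisor QBar (modularFunctionFieldBar (q * M * q))}
    (hDfix : ∀ σ ∈ A.inertiaSubgroupIn ℚ,
      arithmeticGalois (L := QBar) (modularFunctionFieldFull (q * M * q)) σ • D = D)
    {f : modularFunctionFieldBar (q * M * q)} (hf0 : f ≠ 0)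
    (hf : CoeffFixed A (f : LaurentSeries QBar))
    (hord : ∀ P, P.ord f = (m : ℤ) * D P)
    (hα : (Divisor.pushforwardAlong (heckeAlphaBar QBar (q * M) q)
      (FF.isIntegralAlong _) D).IsPrincipal)
    (hβ : (Divisor.pushforwardAlong (heckeBetaBar QBar (q * M) q)
      (FF.isIntegralAlong _) D).IsPrincipal) :
    ∃ (c : inertiaField A) (g : modularFunctionFieldBar (q * M * q)), c ≠ 0 ∧ g ≠ 0 ∧
      f ^ (glueExp (torusComb q) * Nat.factorial ((q * n) ^ 4)) =
        algebraMap QBar _ (c : QBar) * g ^ m := by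
  classical
  have hm0 : m ≠ 0 := fun e => hq.one_lt.ne' (by simpa [e] using hm)
  set T := E.tateLevel (inertiaField A) hcop hq L hL hLn hgal
  set U := inertialBase hA hq
  set ι := E.ratEmb (A := A) hq hP hMn
  set fR : ratSer A (q * M * q) := ⟨f, mem_ratSer f.2 hf⟩
  have hfu0 : ι fR ≠ 0 := (_root_.map_ne_zero _).2 fun e =>
    hf0 (eq_zero_of_coe_eq ((congrArg Subtype.val e).trans (IntermediateField.coe_zero _)))
  set fu : (E.field (inertiaField A))ˣ := Units.mk0 (ι fR) hfu0
  obtain ⟨hdα, hdβ⟩ := finrankAlong_of_dvd (N := q * M) (l := q) (dvd_mul_right q M)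
  have hgens : ∀ (d : ℕ) [NeZero d], d ∣ q * M * q → qExpand QBar d (jqModC QBar) ∈
      ratSer A (q * M * q) :=
    fun d _ hd => IntermediateField.subset_adjoin _ _ (mem_divisorExpansionsC QBar (q * M * q) hd)
  have hqq : q * q ∣ q * M * q := ⟨M, by ring⟩
  have : NeZero (q * q) := ⟨Nat.mul_ne_zero hq.ne_zero hq.ne_zero⟩
  have hgq : ∀ (d : ℕ) [NeZero d] [NeZero (q * d)],
    qExpand QBar (n * q) (qExpand QBar d (jqModC QBar))
      = qExpand QBar n (qExpand QBar (q * d) (jqModC QBar)) := fun d _ _ => by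
    rw [qExpand_qExpand, qExpand_qExpand]
    exact ModularCurve.qExpand_congr (mul_assoc n q d) _
  have hact := E.act_moves (inertiaField A) hq L hL hLn hcop hgal
  -- both partial norms: the function field of level `q M` along `α` is fixed by the upper
  -- unipotents, along `β` by the lower ones
  have hpP := E.exists_prod_eq hq hcop hP hMn (heckeAlphaBar QBar (q * M) q) hdα
    (fun σ x => Subtype.ext (by
      rw [coe_arithmeticGalois_smul, coe_heckeAlphaBar, coe_heckeAlphaBar,
        coe_arithmeticGalois_smul]))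
    uPlus uPlus_add (fun a => by simp [uPlus, Matrix.det_fin_two])
    (fun a e he x y hy => E.apply_qExpand_eq
      (fun d _ hd => E.qExpand_jd_mem QBar hP hq hMn (hd.trans (dvd_mul_right _ q)))
      (fun d _ hd y hy => E.fixed_uPlus hP hcop hq hMn hd a he hy) (mem_adjoin_of_bar x)
      (by rw [hy, coe_heckeAlphaBar]))
    ⟨_, hgens (q * q) hqq⟩ T.act hact
    (fun a ha => E.eq_zero_of_uPlus_fix hcop
      (hact (uPlus a)) rfl ha)
    hm0 hf0 hf hord hα fu rfl
  have hpM := E.exists_prod_eq hq hcop hP hMn (heckeBetaBar QBar (q * M) q) hdβ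
    (fun σ x => Subtype.ext (by
      rw [coe_arithmeticGalois_smul, coe_heckeBetaBar, coe_heckeBetaBar,
        coe_arithmeticGalois_smul, coeffMap_qExpand]))
    uMinus uMinus_add (fun a => by simp [uMinus, Matrix.det_fin_two])
    (fun a e he x y hy => E.apply_qExpand_eq (m := n * q) (N := q * M)
      (fun d _ hd => by
        have : NeZero (q * d) := ⟨Nat.mul_ne_zero hq.ne_zero (NeZero.ne d)⟩
        have := E.qExpand_jd_mem QBar hP hq hMn (M := M) (d := q * d)
          (by rw [mul_comm (q * M) q]; exact mul_dvd_mul_left q hd)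
        rwa [← hgq d] at this)
      (fun d _ hd z hz => by
        have : NeZero (q * d) := ⟨Nat.mul_ne_zero hq.ne_zero (NeZero.ne d)⟩
        refine E.fixed_uMinus hP hcop hq hMn (d := q * d)
          (by rw [mul_comm (q * M) q]; exact mul_dvd_mul_left q hd) (dvd_mul_right q d) a he ?_
        rw [hz, hgq d]) (mem_adjoin_of_bar x)
      (by rw [hy, coe_heckeBetaBar, qExpand_qExpand]))
    ⟨_, hgens 1 (one_dvd _)⟩ T.act hact
    (fun a ha => E.eq_zero_of_uMinus_fix hcop
      (hact (uMinus a))
      ((coe_ratEmb E hq hP hMn _).trans (congrArg (qExpand QBar n) (qExpand_one_apply _))) ha)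
    hm0 hf0 hf hord hβ fu rfl
  -- `f` is fixed by the torus
  have hdiag : ∀ a d, T.act (diagElt a d) (fu : E.field (inertiaField A)) = fu := fun a d =>
    E.apply_qExpand_eq (fun e _ he => E.qExpand_jd_mem _ hP hq hMn he)
      (fun e _ he y hy => E.fixed_diag hP hcop hq hMn he (g := (diagElt a d : GL (Fin 2) (ZMod q)))
        (by simp [diagElt]) (by simp [diagElt]) (hact _) hy) fR.2 rfl
  -- its divisor is divisible by `m`, at all places of the field over inertia
  have hpl : Places (inertiaField A) m fu := fun v hv =>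
    dvd_log_valuationH hDfix hf0 hord (mem_ratFieldH f.2 hf)
      (v.comap (ι.toRingHom.comp toRatSer)) fun c hc => by
      rw [Valuation.comap_apply, RingHom.comp_apply]
      have e : toRatSer (algebraMap (inertiaField A) (ratField A (q * M * q)) c) =
          algebraMap (inertiaField A) (ratSer A (q * M * q)) c :=
        Subtype.ext (algebraMap_serAlg_eq c).symm
      rw [e, AlgHom.toRingHom_eq_coe, RingHom.coe_coe, ι.commutes]
      exact hv c hc
  have hmU : IsUnit (m : U.W) :=
    TateLevel.isUnit_natCast (L := T) (U := U) hm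
  -- the integral study gives the root in the field of level `q n`
  obtain ⟨κ', h, hmain⟩ := TateLevel.exists_root_of_partial_norms
    (E.cuspEmb hA hq hcop L hL hLn hgal) hmU fu hdiag hpl hpP hpM
  -- it descends to level `q M q` at the cost of the factorial exponent
  exact E.exists_pow_descend hq hP hMn fR rfl κ'.ne_zero h.ne_zero hmain

end Level

end Setup

end Omega

/-! ### The bound -/

open Omega in
/-- At every level `N` some embedding of `ℚ̄` into `ℂ` comes with a root over `exp (2πi/N)`. -/
theorem exists_setup (N : ℕ) [NeZero N] : Nonempty (Setup N QBar) := by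
  obtain ⟨ξ, hξ⟩ := HasEnoughRootsOfUnity.exists_primitiveRoot QBar N
  obtain ⟨i, -, hi⟩ := (hξ.map_of_injective ModFun.iotaC.injective).eq_pow_of_pow_eq_one
    (show ModFun.zetaN N ^ N = 1 from (ModFun.isPrimitiveRoot_zetaN N).pow_eq_one)
  exact ⟨⟨ModFun.iotaC, ξ ^ i, by rw [map_pow, hi]⟩⟩

/-- **The geometric theorem.** -/
theorem fixedNewTorsionBound (q M : ℕ) [NeZero q] [NeZero M] (hq : q.Prime) (hqM : ¬ q ∣ M) :
    FixedNewTorsionBound q M := by
  classical
  have : Fact q.Prime := ⟨hq⟩
  -- Add an auxiliary level `7` or `9` prime to `q`, carrying a point of good order.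
  obtain ⟨L, hL, hqL⟩ : ∃ L, (L = 7 ∨ L = 9) ∧ ¬ q ∣ L := by
    by_cases h : q = 7
    · exact ⟨9, Or.inr rfl, by subst h; decide⟩
    · exact ⟨7, Or.inl rfl, fun h' =>
        h ((Nat.prime_dvd_prime_iff_eq hq (by norm_num)).1 h')⟩
  set n := M * L with hn
  have : NeZero n := ⟨Nat.mul_ne_zero (NeZero.ne M) (by omega)⟩
  have : NeZero (q * n) := ⟨Nat.mul_ne_zero hq.ne_zero (NeZero.ne n)⟩
  have hqn : ¬ q ∣ n := fun h => (hq.dvd_mul.1 h).elim hqM hqL
  have hcop : q.Coprime n := hq.coprime_iff_not_dvd.2 hqn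
  have hMn : M ∣ n := dvd_mul_right M L
  have hLn : L ∣ n := dvd_mul_left L M
  obtain ⟨E⟩ := exists_setup (q * n)
  have hord := Omega.nsmul_markLabel_eq_zero_iff hcop (NeZero.ne n) hLn
  have hP : Omega.GoodPt (Omega.markLabel hcop L) :=
    ⟨fun h => by have := Nat.le_of_dvd (by norm_num) ((hord 2).mp h); omega,
      fun h => by have := Nat.le_of_dvd (by norm_num) ((hord 3).mp h); omega⟩
  refine ⟨glueExp (torusComb q) * Nat.factorial ((q * n) ^ 4),
    Nat.mul_pos (glueExp_pos _) (Nat.factorial_pos _), fun lam k hlam hne A hA x hx hfix hnew => ?_⟩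
  set c := glueExp (torusComb q) * Nat.factorial ((q * n) ^ 4)
  set m := lam ^ k
  have hm : m.Coprime q := Nat.Coprime.pow_left k ((Nat.coprime_primes hlam hq).2 hne)
  have hm0 : m ≠ 0 := (pow_pos hlam.pos k).ne'
  -- The class comes from a fixed divisor `D`, and `m • D` is the divisor of a fixed function `f`.
  obtain ⟨D, rfl, hDfix⟩ := exists_fixed_repH hfix
  obtain ⟨hα, hβ⟩ := hnew D rfl
  have hmD : (m • (D : Divisor QBar (modularFunctionFieldBar (q * M * q)))).IsPrincipal := by
    have h : Pic0.mk (m • D) = 0 := by rw [← hx]; rfl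
    exact (FF.pic0_mk_eq_zero_iff (m • D)).1 h
  obtain ⟨f, hf0, hf, -, hordf⟩ := exists_fixed_funH (H := A.inertiaSubgroupIn ℚ) hmD fun σ hσ => by
    rw [smul_comm, hDfix σ hσ]
  have hord' : ∀ P, P.ord f = (m : ℤ) * (D : Divisor QBar _) P := fun P => by
    rw [← hordf, Finsupp.smul_apply, nsmul_eq_mul]
  -- A power `f ^ c` is a constant times an `m`-th power, so `c • D` is principal.
  obtain ⟨κ, g, hκ, hg, e⟩ := E.exists_pow_eq_const_mul hA hq hcop hP hMn L hL hLn
    (fun d => exists_aut_inertiaField hA hq hqn E.isPrimitiveRoot d) hm hDfix hf0 hf hord' hα hβ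
  refine (FF.pic0_mk_eq_zero_iff (c • D)).2 ⟨g, hg, fun P => ?_⟩
  have h1 := congrArg P.ord e
  have hκ' : algebraMap QBar (modularFunctionFieldBar (q * M * q)) (κ : QBar) ≠ 0 := by
    simpa using hκ
  rw [FF.ord_pow, P.ord_mul hκ' (pow_ne_zero _ hg), FF.ord_algebraMap,
    FF.ord_pow, hord', zero_add] at h1
  refine mul_left_cancel₀ (a := (m : ℤ)) (by exact_mod_cast hm0) ?_
  show (m : ℤ) * (((c • D : _) : Divisor QBar _) P) = _
  rw [AddSubgroupClass.coe_nsmul, Finsupp.smul_apply, nsmul_eq_mul, ← h1]
  ring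

end Fermat.Agent.Carayol

end
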