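import Mathlib.LinearAlgebra.Matrix.GeneralLinearGroup.Defs
import Mathlib.Tactic

/-!
# A universal identity between partial norms

For a function `Φ` on `GL₂(𝔽_q)` invariant on the right under the diagonal torus and on the left
under the elements congruent to one modulo a line, a fixed combination of partial sums over the
two unipotent subgroups equals a nonzero multiple of `Φ 1`.
-/

set_option autoImplicit false

namespace Fermat.Agent.Carayol

open Matrix

variable {q : ℕ}

/-- Upper unipotent. -/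
def uPlus (a : ZMod q) : GL (Fin 2) (ZMod q) :=
  ⟨!![1, a; 0, 1], !![1, -a; 0, 1],
    by simp [Matrix.one_fin_two], by simp [Matrix.one_fin_two]⟩

/-- Lower unipotent. -/
def uMinus (a : ZMod q) : GL (Fin 2) (ZMod q) :=
  ⟨!![1, 0; a, 1], !![1, 0; -a, 1],
    by simp [Matrix.one_fin_two], by simp [Matrix.one_fin_two]⟩

/-- The Weyl element. -/
def weylElt : GL (Fin 2) (ZMod q) :=
  ⟨!![0, 1; -1, 0], !![0, -1; 1, 0],
    by simp [Matrix.one_fin_two], by simp [Matrix.one_fin_two]⟩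

/-- A diagonal element. -/
def diagElt (a d : (ZMod q)ˣ) : GL (Fin 2) (ZMod q) :=
  ⟨!![(a : ZMod q), 0; 0, (d : ZMod q)], !![(↑a⁻¹ : ZMod q), 0; 0, (↑d⁻¹ : ZMod q)],
    by simp [Matrix.one_fin_two], by simp [Matrix.one_fin_two]⟩

/-- The exponent `C` of the identity. -/
def combExp (q : ℕ) : ℕ := 2 * q * (q ^ 2 - 1)

variable [NeZero q] {M : Type*} [AddCommGroup M]

/-- The combination of partial sums. -/
def combOp (Φ : GL (Fin 2) (ZMod q) → M) : M :=
  (((q : ℤ) - 1) * (2 * q + 1)) • (∑ a, Φ (uPlus a) + ∑ a, Φ (uMinus a))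
    + ((q : ℤ) - 1) • (∑ a, Φ (weylElt * uPlus a) + ∑ a, Φ (weylElt * uMinus a))
    - ((q : ℤ) + 1) • (∑ x ∈ (Finset.univ : Finset (ZMod q)).erase 0,
        (∑ a, Φ (uPlus x * uMinus a) + ∑ a, Φ (uMinus x * uPlus a)))

variable [Fact q.Prime]

omit [Fact (Nat.Prime q)] in
lemma sum_ite_eq_const (a0 : ZMod q) (X Y : M) :
    ∑ a, (if a = a0 then X else Y) = X + ((q : ℤ) - 1) • Y := by
  rw [← Finset.add_sum_erase _ _ (Finset.mem_univ a0), if_pos rfl,
    Finset.sum_congr rfl (g := fun _ => Y) (fun a ha => if_neg (Finset.ne_of_mem_erase ha)),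
    Finset.sum_const, Finset.card_erase_of_mem (Finset.mem_univ a0), Finset.card_univ, ZMod.card,
    ← natCast_zsmul, Nat.cast_sub (NeZero.one_le (n := q))]
  simp

/-- The function of the pattern of zeros. -/
def patFun (A B C : M) (l : Fin 2 → ZMod q) : M :=
  if l 0 = 0 then A else if l 1 = 0 then B else C

lemma sum_patFun_uPlus (A B C : M) (l : Fin 2 → ZMod q) :
    ∑ a, patFun A B C ![l 0, a * l 0 + l 1] =
      if l 0 = 0 then (q : ℤ) • A else B + ((q : ℤ) - 1) • C := by
  by_cases h : l 0 = 0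
  · simp [patFun, h, ZMod.card]
  · rw [if_neg h, ← sum_ite_eq_const (-(l 1) / l 0) B C]
    refine Finset.sum_congr rfl fun a _ => ?_
    have : a * l 0 + l 1 = 0 ↔ a = -(l 1) / l 0 := by
      rw [eq_div_iff h]; constructor <;> intro e <;> linear_combination e
    simp only [patFun, Matrix.cons_val_zero, Matrix.cons_val_one, if_neg h]
    exact if_congr this rfl rfl

lemma sum_patFun_uMinus (A B C : M) (l : Fin 2 → ZMod q) :
    ∑ a, patFun A B C ![l 0 + a * l 1, l 1] =
      if l 1 = 0 then (if l 0 = 0 then (q : ℤ) • A else (q : ℤ) • B)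
        else A + ((q : ℤ) - 1) • C := by
  by_cases h : l 1 = 0
  · by_cases h0 : l 0 = 0 <;> simp [patFun, h, h0, ZMod.card]
  · rw [if_neg h, ← sum_ite_eq_const (-(l 0) / l 1) A C]
    refine Finset.sum_congr rfl fun a _ => ?_
    have : l 0 + a * l 1 = 0 ↔ a = -(l 0) / l 1 := by
      rw [eq_div_iff h]; constructor <;> intro e <;> linear_combination e
    simp only [patFun, Matrix.cons_val_zero, Matrix.cons_val_one, if_neg h]
    exact if_congr this rfl rfl

/-- An invariant function factors through the vanishing pattern of the two coordinates of the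
image of a linear form. -/
private theorem exists_eq_patFun (Φ : GL (Fin 2) (ZMod q) → M)
    (hT : ∀ g a d, Φ (g * diagElt a d) = Φ g) {v : Fin 2 → ZMod q} (hv : v ≠ 0)
    (hS : ∀ s g : GL (Fin 2) (ZMod q),
      (∀ w : Fin 2 → ZMod q, ∃ k : ZMod q,
        (s : Matrix (Fin 2) (Fin 2) (ZMod q)).mulVec w - w = k • v) → Φ (s * g) = Φ g) :
    ∃ (l : Fin 2 → ZMod q) (A B C : M), l ≠ 0 ∧
      ∀ g, Φ g = patFun A B C (l ᵥ* (g : Matrix (Fin 2) (Fin 2) (ZMod q))) := by
  classical
  set l : Fin 2 → ZMod q := ![-(v 1), v 0] with hl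
  have hl0 : l ≠ 0 := by
    intro h
    apply hv
    funext i
    have h0 := congrFun h 0
    have h1 := congrFun h 1
    simp [hl] at h0 h1
    fin_cases i <;> simp [h0, h1]
  have hker : ∀ w : Fin 2 → ZMod q, l ⬝ᵥ w = 0 → ∃ k : ZMod q, w = k • v := by
    intro w hw
    simp [hl, dotProduct, Fin.sum_univ_two] at hw
    by_cases h0 : v 0 = 0
    · have h1 : v 1 ≠ 0 := fun h1 => hv (by funext i; fin_cases i <;> simp [h0, h1])
      rw [h0] at hw; simp [h1] at hw
      refine ⟨w 1 / v 1, ?_⟩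
      funext i; fin_cases i <;> simp [h0, h1, hw]
    · refine ⟨w 0 / v 0, ?_⟩
      funext i; fin_cases i
      · simp [h0]
      · simp; field_simp; linear_combination hw
  set r : GL (Fin 2) (ZMod q) → (Fin 2 → ZMod q) :=
    fun g => l ᵥ* (g : Matrix (Fin 2) (Fin 2) (ZMod q)) with hr
  have hfac : ∀ g g', r g = r g' → Φ g = Φ g' := by
    intro g g' h
    rw [show g' = g' * g⁻¹ * g by group]
    refine (hS _ _ fun w => hker _ ?_).symm
    rw [dotProduct_sub, dotProduct_mulVec]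
    have : l ᵥ* ((g' * g⁻¹ : GL (Fin 2) (ZMod q)) : Matrix (Fin 2) (Fin 2) (ZMod q)) = l := by
      simp only [hr] at h
      rw [Units.val_mul, ← vecMul_vecMul, ← h, vecMul_vecMul, ← Units.val_mul, mul_inv_cancel,
        Units.val_one, vecMul_one]
    rw [this, sub_self]
  -- the value only depends on the pattern
  have hpat : ∀ g g', (r g 0 = 0 ↔ r g' 0 = 0) → (r g 1 = 0 ↔ r g' 1 = 0) → Φ g = Φ g' := by
    intro g g' h0 h1
    have mk : ∀ x y : ZMod q, (x = 0 ↔ y = 0) → ∃ u : (ZMod q)ˣ, x * u = y := by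
      intro x y h
      by_cases hx : x = 0
      · exact ⟨1, by simp [hx, h.1 hx]⟩
      · exact ⟨Units.mk0 (y / x) (div_ne_zero (fun hy => hx (h.2 hy)) hx), by
          simp; field_simp⟩
    obtain ⟨a, ha⟩ := mk _ _ h0
    obtain ⟨d, hd⟩ := mk _ _ h1
    rw [← hT g a d]
    refine hfac _ _ ?_
    simp only [hr] at ha hd ⊢
    rw [Units.val_mul, ← vecMul_vecMul]
    generalize l ᵥ* (g : Matrix (Fin 2) (Fin 2) (ZMod q)) = z at ha hd ⊢
    generalize l ᵥ* (g' : Matrix (Fin 2) (Fin 2) (ZMod q)) = z' at ha hd ⊢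
    have hz : ∀ u v : ZMod q, z ᵥ* !![u, 0; 0, v] = ![z 0 * u, z 1 * v] := fun u v => by
      funext i; fin_cases i <;> simp [vecMul, dotProduct, Fin.sum_univ_two]
    rw [show ((diagElt a d : GL (Fin 2) (ZMod q)) : Matrix (Fin 2) (Fin 2) (ZMod q))
      = !![(a : ZMod q), 0; 0, (d : ZMod q)] from rfl, hz]
    funext i
    fin_cases i
    · exact ha
    · exact hd
  obtain ⟨A, B, C, hΦ⟩ : ∃ A B C : M, ∀ g, Φ g = patFun A B C (r g) := by
    refine ⟨if h : ∃ g, r g 0 = 0 then Φ h.choose else 0,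
      if h : ∃ g, r g 0 ≠ 0 ∧ r g 1 = 0 then Φ h.choose else 0,
      if h : ∃ g, r g 0 ≠ 0 ∧ r g 1 ≠ 0 then Φ h.choose else 0, fun g => ?_⟩
    have hne : ∀ g : GL (Fin 2) (ZMod q), r g 0 = 0 → r g 1 ≠ 0 := by
      intro g h0 h1
      refine hl0 (vecMul_injective_of_isUnit g.isUnit (?_ : r g = 0 ᵥ* _))
      rw [zero_vecMul]; funext i; fin_cases i <;> simp [h0, h1]
    rw [patFun]
    split_ifs with a0 e1 a1 e2 e3
    · exact hpat _ _ (iff_of_true a0 e1.choose_spec)
        (iff_of_false (hne _ a0) (hne _ e1.choose_spec))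
    · exact (e1 ⟨g, a0⟩).elim
    · exact hpat _ _ (iff_of_false a0 e2.choose_spec.1) (iff_of_true a1 e2.choose_spec.2)
    · exact (e2 ⟨g, a0, a1⟩).elim
    · exact hpat _ _ (iff_of_false a0 e3.choose_spec.1) (iff_of_false a1 e3.choose_spec.2)
    · exact (e3 ⟨g, a0, a1⟩).elim
  exact ⟨l, A, B, C, hl0, hΦ⟩

/-- The identity. -/
theorem combOp_eq (Φ : GL (Fin 2) (ZMod q) → M)
    (hT : ∀ g a d, Φ (g * diagElt a d) = Φ g) {v : Fin 2 → ZMod q} (hv : v ≠ 0)
    (hS : ∀ s g : GL (Fin 2) (ZMod q),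
      (∀ w : Fin 2 → ZMod q, ∃ k : ZMod q,
        (s : Matrix (Fin 2) (Fin 2) (ZMod q)).mulVec w - w = k • v) → Φ (s * g) = Φ g) :
    combOp Φ = (combExp q : ℤ) • Φ 1 := by
  classical
  obtain ⟨l, A, B, C, hl0, hΦ'⟩ := exists_eq_patFun Φ hT hv hS
  set r : GL (Fin 2) (ZMod q) → (Fin 2 → ZMod q) :=
    fun g => l ᵥ* (g : Matrix (Fin 2) (Fin 2) (ZMod q)) with hr
  have hΦ : ∀ g, Φ g = patFun A B C (r g) := hΦ'
  clear hT hS
  -- the six families of arguments in the coordinates `r g = l g`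
  have e1 : ∀ a, r (uPlus a) = ![l 0, a * l 0 + l 1] := fun a => by
    funext i; fin_cases i <;> simp [hr, uPlus, vecMul, dotProduct, Fin.sum_univ_two]
    ring
  have e2 : ∀ a, r (uMinus a) = ![l 0 + a * l 1, l 1] := fun a => by
    funext i; fin_cases i <;> simp [hr, uMinus, vecMul, dotProduct, Fin.sum_univ_two]
    ring
  have e3 : ∀ a, r (weylElt * uPlus a) = ![-l 1, a * (-l 1) + l 0] := fun a => by
    funext i; fin_cases i <;>
      simp [hr, uPlus, weylElt, vecMul, dotProduct, Fin.sum_univ_two]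
    ring
  have e4 : ∀ a, r (weylElt * uMinus a) = ![-l 1 + a * l 0, l 0] := fun a => by
    funext i; fin_cases i <;>
      simp [hr, uMinus, weylElt, vecMul, dotProduct, Fin.sum_univ_two]
    ring
  have e5 : ∀ x a, r (uPlus x * uMinus a) = ![l 0 + a * (x * l 0 + l 1), x * l 0 + l 1] :=
    fun x a => by
      funext i; fin_cases i <;>
        simp [hr, uPlus, uMinus, vecMul, dotProduct, Fin.sum_univ_two] <;> ring
  have e6 : ∀ x a, r (uMinus x * uPlus a) = ![l 0 + x * l 1, a * (l 0 + x * l 1) + l 1] :=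
    fun x a => by
      funext i; fin_cases i <;>
        simp [hr, uPlus, uMinus, vecMul, dotProduct, Fin.sum_univ_two] <;> ring
  have e0 : r 1 = l := by simp only [hr, Units.val_one, vecMul_one]
  have p1 := sum_patFun_uPlus A B C ![-l 1, l 0]
  have p2 := sum_patFun_uMinus A B C ![-l 1, l 0]
  have q1 := fun x => sum_patFun_uMinus A B C ![l 0, x * l 0 + l 1]
  have q2 := fun x => sum_patFun_uPlus A B C ![l 0 + x * l 1, l 1]
  simp only [Matrix.cons_val_zero, Matrix.cons_val_one] at p1 p2 q1 q2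
  simp only [combOp, hΦ, e0, e1, e2, e3, e4, e5, e6, sum_patFun_uPlus, sum_patFun_uMinus, p1, p2,
    q1, q2]
  have hq1 : 1 ≤ q := NeZero.one_le
  have hC : ((combExp q : ℕ) : ℤ) = 2 * q * ((q : ℤ) ^ 2 - 1) := by
    rw [combExp, Nat.cast_mul, Nat.cast_sub (Nat.one_le_pow _ _ hq1)]; push_cast; ring
  rw [hC, patFun]
  have hcard : (((Finset.univ : Finset (ZMod q)).erase 0).card : ℤ) = (q : ℤ) - 1 := by
    rw [Finset.card_erase_of_mem (Finset.mem_univ _), Finset.card_univ, ZMod.card,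
      Nat.cast_sub hq1]; simp
  -- three cases according to the vanishing of the coordinates of `l`
  by_cases h0 : l 0 = 0
  · have h1 : l 1 ≠ 0 := fun h1 => hl0 (by funext i; fin_cases i <;> simp [h0, h1])
    have hs : ∀ x ∈ (Finset.univ : Finset (ZMod q)).erase 0, x * l 1 ≠ 0 := fun x hx =>
      mul_ne_zero (Finset.ne_of_mem_erase hx) h1
    rw [Finset.sum_congr rfl (g := fun _ => (A + ((q : ℤ) - 1) • C) + (B + ((q : ℤ) - 1) • C))]
    · simp only [h0, h1, neg_eq_zero, if_true, if_false, Finset.sum_const, ← natCast_zsmul, hcard]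
      module
    · intro x hx
      simp [h0, h1, hs x hx]
  by_cases h1 : l 1 = 0
  · have hs : ∀ x ∈ (Finset.univ : Finset (ZMod q)).erase 0, x * l 0 ≠ 0 := fun x hx =>
      mul_ne_zero (Finset.ne_of_mem_erase hx) h0
    rw [Finset.sum_congr rfl (g := fun _ => (A + ((q : ℤ) - 1) • C) + (B + ((q : ℤ) - 1) • C))]
    · simp only [h0, h1, neg_zero, if_true, if_false, Finset.sum_const, ← natCast_zsmul, hcard]
      module
    · intro x hx
      simp [h0, h1, hs x hx]
  -- neither vanishes: each inner sum has one exceptional term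
  simp only [h0, h1, neg_eq_zero, if_false]
  have hd : ∀ (x0 : ZMod q) (X Y : M), x0 ≠ 0 →
      ∑ x ∈ (Finset.univ : Finset (ZMod q)).erase 0, (if x = x0 then X else Y)
        = X + ((q : ℤ) - 2) • Y := by
    intro x0 X Y hx0
    have := sum_ite_eq_const x0 X Y
    rw [← Finset.add_sum_erase _ _ (Finset.mem_univ (0 : ZMod q)), if_neg hx0.symm] at this
    rw [show X + ((q : ℤ) - 2) • Y = (X + ((q : ℤ) - 1) • Y) - Y by module, ← this]
    abel
  have ha : ∀ x : ZMod q, x * l 0 + l 1 = 0 ↔ x = -(l 1) / l 0 := fun x => by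
    rw [eq_div_iff h0]; constructor <;> intro e <;> linear_combination e
  have hb : ∀ x : ZMod q, l 0 + x * l 1 = 0 ↔ x = -(l 0) / l 1 := fun x => by
    rw [eq_div_iff h1]; constructor <;> intro e <;> linear_combination e
  simp only [ha, hb, Finset.sum_add_distrib]
  rw [hd _ _ _ (div_ne_zero (neg_ne_zero.2 h1) h0), hd _ _ _ (div_ne_zero (neg_ne_zero.2 h0) h1)]
  module

end Fermat.Agent.Carayol
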