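import Mathlib.NumberTheory.Padics.PadicIntegers
import Mathlib.LinearAlgebra.FreeModule.PID
import Mathlib.Data.Matrix.Mul
import Mathlib.LinearAlgebra.Dimension.Finrank
import Mathlib.Tactic

/-!
# Fixed vectors after extension of scalars
-/

set_option autoImplicit false

noncomputable section

namespace Fermat.Agent.Carayol

variable {p : ℕ} [Fact p.Prime] {O : Type} [CommRing O] [IsDomain O] [CharZero O] (ι : ℤ_[p] →+* O)
  {d : ℕ}

/-- A matrix over `ℤ_[p]` killing the vectors fixed by a family kills them after extension of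
scalars to a domain of characteristic zero. -/
theorem mulVec_eq_zero_of_fixed (G : Set (Matrix (Fin d) (Fin d) ℤ_[p]))
    (X : Matrix (Fin d) (Fin d) ℤ_[p])
    (hX : ∀ w : Fin d → ℤ_[p], (∀ g ∈ G, g.mulVec w = w) → X.mulVec w = 0)
    {v : Fin d → O} (hv : ∀ g ∈ G, (g.map ι).mulVec v = v) : (X.map ι).mulVec v = 0 := by
  classical
  let : Algebra ℤ_[p] O := ι.toAlgebra
  have hinj : Function.Injective (algebraMap ℤ_[p] O) := by
    refine (injective_iff_map_eq_zero _).2 fun a ha => by_contra fun h0 => ?_
    rw [PadicInt.unitCoeff_spec h0, map_mul, map_pow, map_natCast] at ha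
    rcases mul_eq_zero.1 ha with h | h
    · exact ((PadicInt.unitCoeff h0).isUnit.map (algebraMap ℤ_[p] O)).ne_zero h
    · exact pow_ne_zero _ (Nat.cast_ne_zero.2 (Fact.out : p.Prime).ne_zero) h
  have : Module.IsTorsionFree ℤ_[p] O := Module.isTorsionFree_iff_algebraMap_injective.2 hinj
  let S : Submodule ℤ_[p] O := Submodule.span ℤ_[p] (Set.range v)
  have : Module.Finite ℤ_[p] S := Module.Finite.span_of_finite ℤ_[p] (Set.finite_range v)
  have : Module.Free ℤ_[p] S := Module.free_of_finite_type_torsion_free'
  let b := Module.finBasis ℤ_[p] S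
  let u : Fin d → S := fun i => ⟨v i, Submodule.subset_span ⟨i, rfl⟩⟩
  let w : Fin (Module.finrank ℤ_[p] S) → Fin d → ℤ_[p] := fun k i => b.repr (u i) k
  have hw : ∀ k, ∀ g ∈ G, g.mulVec (w k) = w k := by
    intro k g hg
    funext i
    have e : ∑ j, g i j • u j = u i := by
      refine Subtype.ext ?_
      rw [Submodule.coe_sum]
      refine Eq.trans (Finset.sum_congr rfl fun j _ => ?_) (congrFun (hv g hg) i)
      rw [Submodule.coe_smul, Algebra.smul_def]
      rfl
    have h := congrArg (fun x => b.repr x k) e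
    simp only [map_sum, map_smul, Finsupp.coe_finsetSum, Finset.sum_apply, Finsupp.smul_apply,
      smul_eq_mul] at h
    exact h
  funext i
  have e : ∑ j, X i j • u j = 0 := by
    refine b.repr.injective (Finsupp.ext fun k => ?_)
    simp only [map_sum, map_smul, Finsupp.coe_finsetSum, Finset.sum_apply, Finsupp.smul_apply,
      smul_eq_mul, map_zero, Finsupp.coe_zero, Pi.zero_apply]
    exact congrFun (hX (w k) (hw k)) i
  have h := congrArg Subtype.val e
  rw [Submodule.coe_sum] at h
  show ∑ j, ι (X i j) * v j = 0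
  refine Eq.trans (Finset.sum_congr rfl fun j _ => ?_) h
  rw [Submodule.coe_smul, Algebra.smul_def]
  rfl


end Fermat.Agent.Carayol

end
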