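import Fermat.Agent.Carayol.GoodOps
import Fermat.Agent.Carayol.Degeneracy
import Fermat.Agent.Carayol.FixedVectors
import Fermat.Agent.GaloisReps.Models
import Fermat.Agent.NewformLocal.Assembly
import Fermat.Prelude.Def_GaloisRep_LocalConditions
import Fermat.Agent.Carayol.Statement

/-!
# A newform representation is not unipotent at a prime whose square exactly divides the level

The `p`-adic representation is considered at primes `q ≠ p` only, with `p ≠ 2`.

Some Hecke operator `t` kills level `M / q` and not the newform. On the model `t` maps torsion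
classes to new classes, so the bound of `FixedNewTorsionBound` shows that `t` kills the vectors
fixed by inertia at `q`; a unipotent inertia group would fix a vector on which `t` is not zero.
(The module consumes the geometric bound; no hypothesis on the residual representation is used.)
-/

set_option autoImplicit false

noncomputable section

open CongruenceSubgroup AlgebraicCurve ModularCurve Polynomial

namespace Fermat.Agent.Carayol

open GaloisReps (AbsGal FullHecke matIn toFull JTors TorsionIso galTors modelOfCongruence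
  eichlerShimuraCongruence latticeMat)

/-- Some operator avoiding a finite set kills lower level and not the newform. -/
theorem exists_good_killsOld {N R : ℕ} [NeZero N] [NeZero R] {g : CuspForm (Gamma0 N) 2}
    (hg : g.IsNewform) (hR : R ∣ N) (hne : R ≠ N) (S : Finset ℕ)
    (hmod : ∀ l : ℕ, l.Prime → ¬ l ∣ N → l ∈ S → ∃ (p : ℕ) (_ : Fact p.Prime),
      ¬ l ∣ N * p ∧ Nonempty (GaloisReps.HeckeGaloisModel N p)) :
    ∃ t : CuspForm.heckeAlgebra N 2 (↑S : Set ℕ),
      (∀ f : CuspForm (Gamma0 R) 2, t.1 (Newforms.levelIncl hR f) = 0) ∧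
        ConductorLevel.eigenChar hg.1 ∅ (toFull _ t) ≠ 0 := by
  obtain ⟨u, hu, hχ⟩ := NewformLocal.exists_killsOld_ne_zero hg hR hne
  obtain ⟨z, hz, t, ht⟩ := exists_zsmul_good S (fun l hl hlN hlS => by
    obtain ⟨p, hp, hlNp, ⟨D⟩⟩ := hmod l hl hlN hlS
    exact exists_zsmul_mem_good D hl hlNp S) u
  refine ⟨t, fun f => ?_, ?_⟩
  · have e := congrArg (fun a : FullHecke N => a.1 (Newforms.levelIncl hR f)) ht
    simp only [GaloisReps.toFull, Subalgebra.coe_inclusion, SetLike.val_smul,
      LinearMap.smul_apply] at e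
    rw [e, hu, smul_zero]
  · rw [ht, map_zsmul, NewformLocal.eigenChar_toFull, zsmul_eq_mul]
    exact mul_ne_zero (Int.cast_ne_zero.2 hz) hχ

/-- An inertia group acting unipotently on a plane fixes a vector. -/
theorem exists_fixed_of_unipotent {O : Type} [CommRing O] [IsDomain O] [IsLocalRing O]
    (ρ : GaloisRepAdic O) {q : ℕ} {A : ValuationSubring (AlgebraicClosure ℚ)}
    (hA : A.LiesOverPrime q) (h : ρ.IsUnipotentOnInertiaAt q) :
    ∃ v : ρ.V, v ≠ 0 ∧ ∀ σ ∈ A.inertiaSubgroupIn ℚ, ρ.ρ σ v = v :=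
  NewformLocal.exists_common_fixed ρ.finrank_eq ρ.ρ _ fun σ hσ => by
    have e := LinearMap.aeval_self_charpoly (ρ.ρ σ)
    rw [h A hA σ hσ, map_pow, map_sub, aeval_X, map_one] at e
    exact e

variable {q M p : ℕ} [NeZero q] [NeZero M] [Fact p.Prime]

omit [Fact p.Prime] in
/-- The push forwards commute with Galois. -/
lemma pushTors_galTors (n : ℕ) (σ : AbsGal) (x : JTors (q * M * q) p n) :
    pushTors (heckeAlphaBar (AlgebraicClosure ℚ) (q * M) q) n (galTors n σ x) =
        galTors n σ (pushTors (heckeAlphaBar (AlgebraicClosure ℚ) (q * M) q) n x) ∧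
      pushTors (heckeBetaBar (AlgebraicClosure ℚ) (q * M) q) n (galTors n σ x) =
        galTors n σ (pushTors (heckeBetaBar (AlgebraicClosure ℚ) (q * M) q) n x) := by
  constructor
  · refine Subtype.ext (pushDown_smul _ (fun τ f => Subtype.ext ?_) σ (x : JZero (q * M * q)))
    rw [coe_arithmeticGalois_smul, coe_heckeAlphaBar, coe_heckeAlphaBar, coe_arithmeticGalois_smul]
  · refine Subtype.ext (pushDown_smul _ (fun τ f => Subtype.ext ?_) σ (x : JZero (q * M * q)))
    rw [coe_arithmeticGalois_smul, coe_heckeBetaBar, coe_heckeBetaBar, coe_arithmeticGalois_smul,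
      coeffMap_qExpand]

/-- An operator killing level `q M` makes every torsion class new. -/
theorem isNewClass_actTors (S : Finset ℕ)
    (hpS : p ∈ S) (hMS : ∀ l : ℕ, l.Prime → l ∣ q * M * q → l ∈ S)
    (t : CuspForm.heckeAlgebra (q * M * q) 2 (↑S : Set ℕ))
    (ht : ∀ f : CuspForm (Gamma0 (q * M)) 2,
      t.1 (Newforms.levelIncl (dvd_mul_right (q * M) q) f) = 0)
    (n : ℕ) (x : JTors (q * M * q) p n) :
    IsNewClass q M
      (actTors (GaloisReps.torsionIso (q * M * q) p (GaloisReps.conjProperty _)) n (toFull _ t) x :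
        JZero (q * M * q)) := by
  obtain ⟨t', ht', hint⟩ := exists_intertwine
    (GaloisReps.torsionIso (q * M * q) p (GaloisReps.conjProperty _))
    (GaloisReps.torsionGalois _ p (eichlerShimuraCongruence _ p))
    (GaloisReps.torsionIso (q * M) p (GaloisReps.conjProperty _))
    (GaloisReps.torsionGalois _ p (eichlerShimuraCongruence _ p)) (dvd_mul_right (q * M) q) S hpS
    hMS t
  have ht0 : t' = 0 := Subtype.ext (LinearMap.ext fun f =>
    Newforms.levelRaise_injective (M := q * M) (d := 1) (by rw [one_mul]; exact dvd_mul_right _ _)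
      (((ht' f).symm.trans (ht f)).trans (map_zero _).symm))
  have key : ∀ π : JTors (q * M * q) p n →+ JTors (q * M) p n,
      (∀ σ y, π (galTors n σ y) = galTors n σ (π y)) →
        π (actTors (GaloisReps.torsionIso (q * M * q) p (GaloisReps.conjProperty _)) n
          (toFull _ t) x) = 0 := by
    intro π hπ
    refine (hint n π hπ x).trans ?_
    rw [ht0]
    refine ((GaloisReps.torsionIso (q * M) p (GaloisReps.conjProperty _)).psi n).injective ?_
    rw [psi_actTors, map_zero, map_zero, Matrix.zero_mulVec, map_zero]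
  intro D hD
  have hprinc : ∀ φ : modularFunctionFieldBar (q * M) →ₐ[AlgebraicClosure ℚ]
      modularFunctionFieldBar (q * M * q),
      (∀ (σ : AbsGal) (y : JTors (q * M * q) p n),
        pushTors φ n (galTors n σ y) = galTors n σ (pushTors φ n y)) →
      (Divisor.pushforwardAlong φ (FF.isIntegralAlong φ)
        (D : Divisor (AlgebraicClosure ℚ) _)).IsPrincipal := fun φ hφ => by
    refine (pushDown_mk_eq_zero_iff φ D).1 ?_
    rw [hD]
    exact congrArg Subtype.val (key (pushTors φ n) hφ)
  exact ⟨hprinc _ fun σ y => (pushTors_galTors n σ y).1,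
    hprinc _ fun σ y => (pushTors_galTors n σ y).2⟩

/-- The operator kills what is fixed by inertia, up to the constant. -/
theorem matIn_mulVec_eq_zero {c : ℕ}
    (hc : ∀ (n : ℕ) (A : ValuationSubring (AlgebraicClosure ℚ)), A.LiesOverPrime q →
      ∀ x : JZero (q * M * q), p ^ n • x = 0 → (∀ σ ∈ A.inertiaSubgroupIn ℚ, σ • x = x) →
        IsNewClass q M x → c • x = 0)
    (S : Finset ℕ) (hpS : p ∈ S) (hMS : ∀ l : ℕ, l.Prime → l ∣ q * M * q → l ∈ S)
    (t : CuspForm.heckeAlgebra (q * M * q) 2 (↑S : Set ℕ))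
    (ht : ∀ f : CuspForm (Gamma0 (q * M)) 2,
      t.1 (Newforms.levelIncl (dvd_mul_right (q * M) q) f) = 0)
    {A : ValuationSubring (AlgebraicClosure ℚ)} (hA : A.LiesOverPrime q)
    (w : Fin (modelOfCongruence (eichlerShimuraCongruence (q * M * q) p)).d → ℤ_[p])
    (hw : ∀ σ ∈ A.inertiaSubgroupIn ℚ,
      ((modelOfCongruence (eichlerShimuraCongruence (q * M * q) p)).gal σ).mulVec w = w) :
    ((c : ℤ_[p]) • matIn (modelOfCongruence (eichlerShimuraCongruence (q * M * q) p)).hecke ℤ_[p]
      (toFull (↑S : Set ℕ) t)).mulVec w = 0 := by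
  -- Modulo `p ^ n`, `w` is a torsion point whose image under `t` is new and fixed by inertia.
  funext i
  refine PadicInt.ext_of_toZModPow.mp fun n => ?_
  set E := GaloisReps.torsionIso (q * M * q) p (GaloisReps.conjProperty _)
  set G := GaloisReps.torsionGalois (q * M * q) p (eichlerShimuraCongruence _ p)
  obtain ⟨x, hx⟩ := (E.psi n).surjective fun j => PadicInt.toZModPow n (w j)
  set y := actTors E n (toFull (↑S : Set ℕ) t) x with hy
  have hfix : ∀ σ ∈ A.inertiaSubgroupIn ℚ, galTors n σ y = y := by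
    intro σ hσ
    have h1 : (E.galLvl n σ).mulVec (E.psi n x) = E.psi n x := by
      rw [hx, ← E.map_gal]
      funext j
      exact ((PadicInt.toZModPow n).map_mulVec _ _ _).symm.trans
        (congrArg (PadicInt.toZModPow n) (congrFun (hw σ hσ) j))
    refine (E.psi n).injective ?_
    rw [← E.galLvl_mulVec, hy, psi_actTors, Matrix.mulVec_mulVec]
    have h2 := congrArg (fun X => X.map (PadicInt.toZModPow n))
      (E.gal_commute G σ (toFull (↑S : Set ℕ) t)).eq
    simp only [Matrix.map_mul, GaloisReps.matIn_apply, GaloisReps.map_intCast_toZModPow,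
      E.map_gal] at h2
    rw [GaloisReps.matIn_apply, h2, ← Matrix.mulVec_mulVec, h1]
  -- Hence `c` kills that image.
  have hy0 : c • (y : JZero (q * M * q)) = 0 := by
    refine hc n A hA _ ?_ (fun σ hσ => congrArg Subtype.val (hfix σ hσ))
      (isNewClass_actTors S hpS hMS t ht n x)
    rw [← natCast_zsmul]
    exact Pic0.mem_torsion.1 y.2
  have hy1 : c • E.psi n y = 0 := by
    rw [← map_nsmul, show c • y = 0 from Subtype.ext hy0, map_zero]
  rw [hy, psi_actTors, hx] at hy1
  refine Eq.trans ?_ ((congrFun hy1 i).trans (map_zero (PadicInt.toZModPow n)).symm)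
  rw [Matrix.smul_mulVec, Pi.smul_apply, smul_eq_mul, map_mul, map_natCast]
  rw [Pi.smul_apply]
  rw [nsmul_eq_mul, RingHom.map_mulVec]
  congr 1
  exact congrFun (congrArg (fun X => X.mulVec fun j => PadicInt.toZModPow n (w j))
    (GaloisReps.map_intCast_toZModPow n (latticeMat (q * M * q) (toFull (↑S : Set ℕ) t)))) i

/-- The representation on the model is not unipotent at `q`. -/
theorem not_isUnipotentOnInertiaAt (hp2 : p ≠ 2) {N : ℕ} [NeZero N]
    (hN : q * M * q = N) (hq : q.Prime) (hB : FixedNewTorsionBound q M) (hpq : p ≠ q)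
    {g : CuspForm (Gamma0 N) 2} (hg : g.IsNewform)
    {O : Type} [CommRing O] [IsDomain O] [IsDiscreteValuationRing O] [CharZero O]
    (ι : ℤ_[p] →+* O) (θ : FullHecke N →+* O) (hp : (p : O) ∈ IsLocalRing.maximalIdeal O)
    (hθ : ∀ b, θ b = 0 → ConductorLevel.eigenChar hg.1 ∅ b = 0) :
    ¬ ((modelOfCongruence (eichlerShimuraCongruence N p)).rep ι θ hp).IsUnipotentOnInertiaAt q := by
  subst hN
  classical
  intro hU
  obtain ⟨c, hc, hbound⟩ := hB
  set D := modelOfCongruence (eichlerShimuraCongruence (q * M * q) p) with hD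
  -- Choose a good operator `t` killing the oldforms but not `g`.
  obtain ⟨t, ht, htg⟩ := exists_good_killsOld hg (dvd_mul_right (q * M) q)
    (fun h => hq.one_lt.ne' (mul_eq_left₀ (NeZero.ne (q * M)) |>.1 h.symm))
    (insert p (q * M * q).primeFactors) (fun l hl hlN hlS => by
      have : Fact (Nat.Prime 2) := ⟨Nat.prime_two⟩
      refine ⟨2, ⟨Nat.prime_two⟩, fun h => ?_, ⟨modelOfCongruence (eichlerShimuraCongruence _ 2)⟩⟩
      have hlp : l = p := (Finset.mem_insert.1 hlS).resolve_right fun h' =>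
        hlN (Nat.dvd_of_mem_primeFactors h')
      exact hp2 (hlp.symm.trans ((Nat.prime_dvd_prime_iff_eq hl Nat.prime_two).1
        ((hl.dvd_mul.1 h).resolve_left hlN))))
  obtain ⟨A, hA⟩ := Arith.exists_liesOverPrime hq
  -- A unipotent action fixes some nonzero `v`, which `c t` therefore kills.
  obtain ⟨v, hv0, hv⟩ := exists_fixed_of_unipotent _ hA hU
  have h := mulVec_eq_zero_of_fixed ι
    (D.gal '' (A.inertiaSubgroupIn ℚ : Set AbsGal))
    ((c : ℤ_[p]) • matIn D.hecke ℤ_[p] (toFull _ t))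
    (fun w hw => matIn_mulVec_eq_zero
      (fun n A hA x h1 h2 h3 => hbound p n Fact.out hpq A hA x h1 h2 h3) _
      (Finset.mem_insert_self _ _)
      (fun l hl hlN => Finset.mem_insert_of_mem
        (Nat.mem_primeFactors.2 ⟨hl, hlN, NeZero.ne _⟩))
      t ht hA w fun σ hσ => hw _ ⟨σ, hσ, rfl⟩)
    (v := v.1) (by
      rintro _ ⟨σ, hσ, rfl⟩
      exact (D.coe_eigenAction ι θ σ v).symm.trans (congrArg Subtype.val (hv σ hσ)))
  have e : ((c : ℤ_[p]) • matIn D.hecke ℤ_[p] (toFull (↑(insert p (q * M * q).primeFactors) : Set ℕ)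
    t)).map ι =
      (c : O) • matIn D.hecke O (toFull _ t) := by
    rw [← D.matIn_map ι]
    ext i j
    simp
  rw [e, Matrix.smul_mulVec, (GaloisReps.mem_eigenspace D.hecke θ _).1 v.2] at h
  -- So `θ t = 0`, and `t g = 0`, which is absurd.
  refine htg (hθ _ ?_)
  have hv1 : v.1 ≠ 0 := fun h' => hv0 (Subtype.ext h')
  exact (smul_eq_zero.1 ((smul_eq_zero.1 h).resolve_left (Nat.cast_ne_zero.2 hc.ne'))).resolve_right
    hv1

/-- The statement of S36 from the geometric bound. -/
theorem exists_rep_not_unipotent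
    (hB : ∀ (q M : ℕ) [NeZero q] [NeZero M], q.Prime → ¬ q ∣ M → FixedNewTorsionBound q M)
    {M : ℕ} [NeZero M] {g : CuspForm (Gamma0 M) 2} (hg : g.IsNewform)
    (lam : ℕ) [Fact lam.Prime] (S : Finset ℕ)
    (O' : Type) [CommRing O'] [IsDomain O'] [IsDiscreteValuationRing O']
    [IsAdicComplete (IsLocalRing.maximalIdeal O') O'] [Finite (IsLocalRing.ResidueField O')]
    [CharZero O'] (hlamO' : (lam : O') ∈ IsLocalRing.maximalIdeal O') (hlam2 : lam ≠ 2)
    (chig : CuspForm.heckeAlgebra M 2 (↑S : Set ℕ) →+* ℂ)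
    (hchig : ∀ (ℓ : ℕ) (hℓ : ℓ.Prime) (hℓM : ¬ ℓ ∣ M) (hℓS : ℓ ∉ (↑S : Set ℕ)),
      chig (CuspForm.heckeAlgebra.T hℓ hℓM hℓS) = ModularFormClass.qCoeff g ℓ)
    (iota : chig.range →+* O')
    (hlamS : lam ∈ S) (hMS : ∀ q : ℕ, q.Prime → q ∣ M → q ∈ S) :
    ∃ (O'' : Type) (_ : CommRing O'') (_ : IsDomain O'') (_ : IsDiscreteValuationRing O'')
      (_ : IsAdicComplete (IsLocalRing.maximalIdeal O'') O'')
      (_ : Finite (IsLocalRing.ResidueField O''))
      (_ : CharZero O'') (_ : Algebra O' O'') (_ : Module.Finite O' O'')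
      (_ : IsLocalHom (algebraMap O' O'')),
      Function.Injective (algebraMap O' O'') ∧
      ∃ ρ : GaloisRepAdic O'',
        (∀ (ℓ : ℕ) (hℓ : ℓ.Prime) (hℓM : ¬ ℓ ∣ M) (hℓS : ℓ ∉ (↑S : Set ℕ)),
          ∀ A : ValuationSubring (AlgebraicClosure ℚ), A.LiesOverPrime ℓ →
            ∀ σ : AlgebraicClosure ℚ ≃ₐ[ℚ] AlgebraicClosure ℚ, A.IsFrobeniusAt σ ℓ →
              LinearMap.charpoly (ρ.ρ σ) =
                X ^ 2 - C (algebraMap O' O''
                  ((iota.comp chig.rangeRestrict) (CuspForm.heckeAlgebra.T hℓ hℓM hℓS))) * X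
                  + C ((ℓ : O''))) ∧
        (∀ q : ℕ, q.Prime → q ≠ lam → M.factorization q = 2 →
          ¬ ρ.IsUnipotentOnInertiaAt q) := by
  classical
  -- Coefficients `O''` containing the values of an extension of `iota` to the full Hecke algebra,
  -- and the representation of the congruence model there.
  obtain ⟨O'', i1, i2, i3, i4, i5, i6, i7, i8, i9, hinj, hpO, ⟨ι⟩, θ', hθT, hθker⟩ :=
    NewformLocal.exists_coeff_char hg.1 lam S O' hlamO' chig hchig iota hMS
  refine ⟨O'', i1, i2, i3, i4, i5, i6, i7, i8, i9, hinj,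
    (modelOfCongruence (eichlerShimuraCongruence M lam)).rep ι θ' hpO, ?_, ?_⟩
  · intro ℓ hℓ hℓM hℓS A hA σ hσ
    have hNp : ¬ ℓ ∣ M * lam := fun h => (hℓ.dvd_mul.mp h).elim hℓM fun h' =>
      hℓS (by rw [(Nat.prime_dvd_prime_iff_eq hℓ Fact.out).mp h']; exact hlamS)
    rw [← hθT ℓ hℓ hℓM hℓS]
    exact (modelOfCongruence (eichlerShimuraCongruence M lam)).charpoly_eigenAction_frobenius ι θ'
      hpO hℓ hNp hA hσ
  -- At `q` dividing `M` exactly twice write `M = q M' q`; use the bound on fixed new torsion.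
  · intro q hq hqlam hfac
    obtain ⟨M', hM', hqM'⟩ : ∃ M', q * M' * q = M ∧ ¬ q ∣ M' := by
      refine ⟨M / q ^ 2, ?_, ?_⟩
      · have h := Nat.ordProj_mul_ordCompl_eq_self M q
        rw [hfac] at h
        linear_combination h
      · have h := Nat.not_dvd_ordCompl hq (NeZero.ne M)
        rwa [hfac] at h
    have : NeZero q := ⟨hq.ne_zero⟩
    have : NeZero M' := ⟨fun h => NeZero.ne M (by rw [← hM', h, mul_zero, zero_mul])⟩
    refine not_isUnipotentOnInertiaAt hlam2 hM' hq
      (hB q M' hq hqM') (fun h => hqlam h.symm) hg ι θ' hpO hθker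

end Fermat.Agent.Carayol

end
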