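import Fermat.Agent.Carayol.Divide

/-!
# Coherent roots near the special fibre

From a function whose divisor is divisible by `m` and whose combination of partial norms is an
`m`-th power up to constants we get a function `u` and, at every prime above `q`, an element whose
`m`-th power is congruent to `u`, compatible under specialisation.
-/

set_option autoImplicit false

noncomputable section

namespace Fermat.Agent.Carayol

open WeierstrassCurve Matrix WithZero

variable {K Ω : Type*} [Field K] [Field Ω] [Algebra K Ω] [DecidableEq Ω]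

variable (K) in
/-- The order of `f` at every place over `K` is divisible by `m`. -/
def Places (m : ℕ) (f : Ωˣ) : Prop :=
  ∀ v : Valuation Ω ℤᵐ⁰, (∀ c : K, c ≠ 0 → v (algebraMap K Ω c) = 1) →
    (m : ℤ) ∣ log (v f)

/-- The exponent lost when gluing. -/
def glueExp {q : ℕ} [NeZero q] (D : CombId q) : ℕ := D.exp * D.exp * Nat.card D.fix

/-- The exponent lost when gluing is positive. -/
lemma glueExp_pos {q : ℕ} [NeZero q] (D : CombId q) : 0 < glueExp D :=
  Nat.mul_pos (Nat.mul_pos D.exp_pos D.exp_pos) Nat.card_pos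

namespace TateLevel

variable {L : TateLevel K Ω} {U : UnramBase K L.frame.q}

lemma horizontal_of_places {m : ℕ} {f : Ωˣ} (h : Places K m f) : L.Horizontal U m f := by
  intro x hx hq π hπ hπq
  have := hx.isPrime
  have := ufd_localRing x hq
  have key := h (primeVal Ω hπ) fun c hc => ?_
  · rw [primeOrd, dvd_neg]; exact key
  obtain ⟨k, w, rfl⟩ := exists_qpow_mul_unit (L := L) (U := U) hc
  have hq1 : primeVal Ω hπ (L.frame.q : Ω) = 1 := by
    rw [← map_natCast (algebraMap (localRing x) Ω), primeVal_algebraMap hπ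
      (fun e => hπq ((congrArg (π ∣ ·) e).mpr (dvd_zero π))), multiplicity_eq_zero.2 hπq]
    simp
  have hw : algebraMap K Ω ((w : U.W) : K) = algebraMap (localRing x) Ω
      (algebraMap (L.modelRing U) (localRing x) (L.baseHom U w)) := rfl
  have hu : IsUnit (algebraMap (L.modelRing U) (localRing x) (L.baseHom U w)) :=
    (w.isUnit.map (L.baseHom U)).map _
  rw [map_mul, map_zpow₀, map_natCast, map_mul, map_zpow₀, hq1, one_zpow, one_mul, hw,
    primeVal_unit hπ hu]

lemma lam_const {Ω : Type} [Field Ω] [Algebra K Ω] [DecidableEq Ω] {L : TateLevel K Ω}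
    (D : CombId L.frame.q) (z : Ωˣ) : L.lam D (fun _ => z) = z ^ D.exp := by
  rw [lam, D.hid _ (fun _ => Additive.ofMul z) (fun _ _ _ => rfl) ![1, 0]
    (fun h => by simpa using congrFun h 0) (fun _ _ _ => rfl), natCast_zsmul, toMul_nsmul,
    toMul_ofMul]

lemma localRing_le_of_le {P P' : Ideal (L.modelRing U)} [P.IsPrime] [P'.IsPrime] (h : P ≤ P') :
    localRing P' ≤ localRing P := fun y hy => by
  obtain ⟨r, d, hd, e⟩ := (mem_localRing P').1 hy
  exact (mem_localRing P).2 ⟨r, d, fun hdP => hd (h hdP), e⟩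

lemma unitsAt_le_of_le {P P' : Ideal (L.modelRing U)} [P.IsPrime] [P'.IsPrime] (h : P ≤ P') :
    unitsAt P' ≤ unitsAt P := fun _ hz =>
  ⟨localRing_le_of_le h hz.1, localRing_le_of_le h hz.2⟩

lemma mem_localRing_of_pow {P : Ideal (L.modelRing U)} [P.IsPrime] {m : ℕ} (hm : m ≠ 0) {z : Ω}
    (h : z ^ m ∈ localRing P) : z ∈ localRing P := by
  obtain ⟨y, hy⟩ := IsIntegrallyClosed.algebraMap_eq_of_integral
    (R := localRing P) (K := Ω) (x := z)
    (IsIntegral.of_pow (Nat.pos_of_ne_zero hm) (isIntegral_algebraMap (R := localRing P)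
      (x := ⟨z ^ m, h⟩)))
  exact hy ▸ y.2

lemma mem_unitsAt_of_pow {P : Ideal (L.modelRing U)} [P.IsPrime] {m : ℕ} (hm : m ≠ 0) {z : Ωˣ}
    (h : z ^ m ∈ unitsAt P) : z ∈ unitsAt P :=
  ⟨mem_localRing_of_pow hm (by simpa using h.1),
    mem_localRing_of_pow hm (by
      have := h.2
      rw [← inv_pow] at this
      simpa using this)⟩

/-- The roots `h` at the translates of a prime by `g`, made invariant under the subgroup of the
combination by multiplying over it. -/
private def fixRoot (D : CombId L.frame.q) [Fintype D.fix] (h : Ideal (L.modelRing U) → Ωˣ)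
    (P : Ideal (L.modelRing U)) (g : GL (Fin 2) (ZMod L.frame.q)) : Ωˣ :=
  L.transl (∏ p : D.fix, L.transl (h (pull (pull P g) p.1)) p.1) g

/-- `fixRoot` is invariant on the right under the subgroup of the combination. -/
private lemma fixRoot_mul_fix (D : CombId L.frame.q) [Fintype D.fix]
    (h : Ideal (L.modelRing U) → Ωˣ) (P : Ideal (L.modelRing U))
    (g : GL (Fin 2) (ZMod L.frame.q)) {r : GL (Fin 2) (ZMod L.frame.q)} (hr : r ∈ D.fix) :
    fixRoot D h P (g * r) = fixRoot D h P g := by
  show L.transl _ _ = L.transl _ _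
  rw [transl_mul_apply, pull_mul]
  congr 1
  rw [show L.transl (∏ p : D.fix, L.transl (h (pull (pull (pull P g) r) p.1)) p.1) r
      = ∏ p : D.fix, L.transl (L.transl (h (pull (pull (pull P g) r) p.1)) p.1) r from
      map_prod (Units.map (L.act r).toRingEquiv.toRingHom.toMonoidHom) _ _]
  refine Fintype.prod_equiv (Equiv.mulLeft (⟨r, hr⟩ : D.fix)) _ _ fun p => ?_
  rw [← transl_mul_apply, ← pull_mul]
  rfl

/-- `fixRoot` is equivariant for the inertia group. -/
private lemma fixRoot_inertia_mul (D : CombId L.frame.q) [Fintype D.fix]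
    (h : Ideal (L.modelRing U) → Ωˣ) (P : Ideal (L.modelRing U))
    {s : GL (Fin 2) (ZMod L.frame.q)} (hs : IsInertia P s) (g : GL (Fin 2) (ZMod L.frame.q)) :
    fixRoot D h P (s * g) = L.transl (fixRoot D h P g) s := by
  rw [fixRoot, fixRoot, transl_mul_apply, pull_mul, hs.pull_eq]

/-- If `h P` is an `m`-th root of an invariant `f` up to units at `P`, then `fixRoot` gives
`m`-th roots, up to units, of the translates of `f ^ card D.fix`. -/
private lemma div_fixRoot_pow_mem_unitsAt (D : CombId L.frame.q) [Fintype D.fix] {m : ℕ} {f : Ωˣ}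
    (hfix : ∀ p : D.fix, L.transl f p.1 = f) {h : Ideal (L.modelRing U) → Ωˣ}
    (hh : ∀ (P : Ideal (L.modelRing U)) [P.IsPrime], (L.frame.q : L.modelRing U) ∈ P →
      f / h P ^ m ∈ unitsAt P)
    {P : Ideal (L.modelRing U)} [P.IsPrime] (hq : (L.frame.q : L.modelRing U) ∈ P)
    (g : GL (Fin 2) (ZMod L.frame.q)) :
    L.transl (f ^ Fintype.card D.fix) g / fixRoot D h P g ^ m ∈ unitsAt P := by
  set a := ∏ p : D.fix, L.transl (h (pull (pull P g) p.1)) p.1 with ha
  have key : f ^ Fintype.card D.fix / a ^ m ∈ unitsAt (pull P g) := by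
    rw [show f ^ Fintype.card D.fix / a ^ m
      = ∏ p : D.fix, L.transl (f / h (pull (pull P g) p.1) ^ m) p.1 by
      simp only [ha, ← Finset.prod_pow, ← Finset.card_univ, ← Finset.prod_const,
        ← Finset.prod_div_distrib]
      refine Finset.prod_congr rfl fun p _ => ?_
      conv_lhs => rw [← hfix p]
      simp only [transl, map_div, map_pow]]
    refine Subgroup.prod_mem _ fun p _ => transl_mem_unitsAt _ (hh _ ?_)
    exact natCast_mem_pull (natCast_mem_pull hq g) p.1
  have := transl_mem_unitsAt P key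
  simpa [fixRoot, ha, transl, map_div, map_pow] using this

/-- The combination of the translates of `(f ^ D.exp * qPow α) ^ n`. -/
private lemma lam_transl_pow_qPow {Ω : Type} [Field Ω] [Algebra K Ω] [DecidableEq Ω]
    {L : TateLevel K Ω} (D : CombId L.frame.q) (f : Ωˣ) (α : ℤ) (n : ℕ) :
    L.lam D (L.transl ((f ^ D.exp * L.qPow α) ^ n))
      = (L.lam D (L.transl f) ^ D.exp * L.qPow α ^ D.exp) ^ n := by
  have e : L.qPow α ^ D.exp = L.lam D (fun _ => L.qPow α) := (lam_const D _).symm
  rw [e, ← lam_pow, ← lam_mul, ← lam_pow]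
  refine lam_congr D fun g => ?_
  conv_rhs => rw [← transl_qPow (L := L) α g]
  simp only [transl, map_mul, map_pow]

omit [DecidableEq Ω] in
/-- If `f ^ N` is an `m`-th power times `u` up to constants and the orders of `f` are divisible
by `m`, so are those of `u`. -/
private lemma places_of_pow_eq {m N : ℕ} {f γ u : Ωˣ} {κ : Kˣ} (hpl : Places K m f)
    (h : f ^ N = Units.map (algebraMap K Ω).toMonoidHom κ * γ ^ m * u) : Places K m u := by
  intro v hv
  have e := congrArg (fun z : Ωˣ => v (z : Ω)) h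
  simp only [Units.val_pow_eq_pow_val, Units.val_mul, Units.coe_map, map_mul, map_pow,
    RingHom.toMonoidHom_eq_coe, MonoidHom.coe_coe, hv _ (Units.ne_zero _), one_mul] at e
  have e' := congrArg log e
  rw [log_pow, log_mul (pow_ne_zero _ (v.ne_zero_iff.2 γ.ne_zero))
    (v.ne_zero_iff.2 u.ne_zero), log_pow] at e'
  simp only [nsmul_eq_mul] at e'
  rw [eq_sub_of_add_eq' e'.symm]
  exact dvd_sub (dvd_mul_of_dvd_right (hpl v hv) _) (dvd_mul_right _ _)

/-- Coherent roots near the special fibre. -/
theorem exists_glue {Ω : Type} [Field Ω] [Algebra K Ω] [DecidableEq Ω] {L : TateLevel K Ω}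
    {U : UnramBase K L.frame.q} (D : CombId L.frame.q) {m : ℕ} (hm : m ≠ 0) {f γ : Ωˣ} {κ : Kˣ}
    (hf : L.FixedBy D f) (hpl : Places K m f)
    (hlam : L.lam D (L.transl f) = Units.map (algebraMap K Ω).toMonoidHom κ * γ ^ m) :
    ∃ (u : Ωˣ) (H : Ideal (L.modelRing U) → Ωˣ),
      (∃ (κ' : Kˣ) (γ' : Ωˣ),
        f ^ glueExp D = Units.map (algebraMap K Ω).toMonoidHom κ' * γ' ^ m * u) ∧
      Places K m u ∧
      (∀ (P : Ideal (L.modelRing U)) [P.IsPrime], (L.frame.q : L.modelRing U) ∈ P →
        InMax (localRing P) (((u / H P ^ m : Ωˣ) : Ω) - 1)) ∧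
      (∀ (P P' : Ideal (L.modelRing U)) [P.IsPrime] [P'.IsPrime],
        (L.frame.q : L.modelRing U) ∈ P → P ≤ P' →
          InMax (localRing P) (((H P' / H P : Ωˣ) : Ω) - 1)) := by
  classical
  obtain ⟨α, hα⟩ := exists_local_power D hm hf (horizontal_of_places (U := U) hpl) hlam
  set C := D.exp with hC
  set f' : Ωˣ := f ^ C * L.qPow α with hf'
  have hf'T : ∀ p : D.fix, L.transl f' p.1 = f' := fun p => by
    conv_rhs => rw [hf', ← transl_qPow (L := L) α p.1, ← hf _ p.2]
    simp only [hf', transl, map_mul, map_pow]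
  set f'' : Ωˣ := f' ^ Fintype.card D.fix with hf''
  -- the local roots
  let h : Ideal (L.modelRing U) → Ωˣ := fun P =>
    if hP : P.IsPrime ∧ (L.frame.q : L.modelRing U) ∈ P then
      haveI := hP.1; (hα P hP.2).choose
    else 1
  have hh : ∀ (P : Ideal (L.modelRing U)) [P.IsPrime], (L.frame.q : L.modelRing U) ∈ P →
      f' / h P ^ m ∈ unitsAt P := by
    intro P _ hq
    simp only [h, dif_pos (⟨‹_›, hq⟩ : P.IsPrime ∧ (L.frame.q : L.modelRing U) ∈ P)]
    exact (hα P hq).choose_spec
  let η := fixRoot D h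
  let ν : Ideal (L.modelRing U) → GL (Fin 2) (ZMod L.frame.q) → Ωˣ := fun P g =>
    L.transl f'' g / η P g ^ m
  have hν : ∀ (P : Ideal (L.modelRing U)) [P.IsPrime], (L.frame.q : L.modelRing U) ∈ P →
      ∀ g, ν P g ∈ unitsAt P := fun P _ hq g => div_fixRoot_pow_mem_unitsAt D hf'T hh hq g
  have hf''T : ∀ g, ∀ r ∈ D.fix, L.transl f'' (g * r) = L.transl f'' g := fun g r hr => by
    rw [transl_mul_apply]
    congr 1
    show Units.map _ (f' ^ _) = f' ^ _
    rw [map_pow]
    exact congrArg (· ^ _) (hf'T ⟨r, hr⟩)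
  -- the common function
  set u : Ωˣ := f'' ^ C / L.lam D (L.transl f'') with hu
  let H : Ideal (L.modelRing U) → Ωˣ := fun P => η P 1 ^ C / L.lam D (η P)
  have hsplit : ∀ (P : Ideal (L.modelRing U)),
      L.lam D (ν P) * L.lam D (η P) ^ m = L.lam D (L.transl f'') := fun P => by
    rw [← lam_pow, ← lam_mul]
    exact lam_congr D fun g => div_mul_cancel _ _
  have hrel : f ^ (C * C * Fintype.card D.fix) = Units.map (algebraMap K Ω).toMonoidHom
      (κ ^ (C * Fintype.card D.fix)) * (γ ^ (C * Fintype.card D.fix)) ^ m * u := by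
    rw [hu, hf'', hf', lam_transl_pow_qPow, hlam, ← hC, map_pow]
    apply Additive.ofMul.injective
    simp only [ofMul_mul, ofMul_pow, ofMul_div]
    module
  have hN : C * C * Fintype.card D.fix = glueExp D := by
    rw [hC, glueExp, Nat.card_eq_fintype_card]
  refine ⟨u, H, ⟨_, _, hN ▸ hrel⟩, places_of_pow_eq hpl hrel, ?_, ?_⟩
  · intro P _ hq
    obtain ⟨-, hmax⟩ := inMax_pow_div_lam P D hq (ν P) (hν P hq)
      (fun g r hr => by simp only [ν, η, hf''T g r hr, fixRoot_mul_fix D h P g hr])
      (fun s g hs => by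
        simp only [ν, η, fixRoot_inertia_mul D h P hs g, transl_mul_apply]
        simp only [transl, map_div, map_pow])
    convert hmax using 4
    rw [eq_div_of_mul_eq' (hsplit P), show ν P 1 = f'' / η P 1 ^ m by
      simp only [ν, transl_one]]
    simp only [hu, H]
    apply Additive.ofMul.injective
    simp only [ofMul_mul, ofMul_inv, ofMul_div, ofMul_pow]
    module
  · intro P P' _ _ hq hle
    set c : GL (Fin 2) (ZMod L.frame.q) → Ωˣ := fun g => η P' g / η P g with hc
    have hcu : ∀ g, c g ∈ unitsAt P := fun g => by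
      refine mem_unitsAt_of_pow hm ?_
      rw [show c g ^ m = ν P g / ν P' g by
        simp only [c, ν, div_pow, div_div_div_cancel_left]]
      exact Subgroup.div_mem _ (hν P hq g) (unitsAt_le_of_le hle (hν P' (hle hq) g))
    obtain ⟨-, hmax⟩ := inMax_pow_div_lam P D hq c hcu
      (fun g r hr => by simp only [c, η, fixRoot_mul_fix D h _ g hr])
      (fun s g hs => by
        simp only [c, η, fixRoot_inertia_mul D h P hs g,
          fixRoot_inertia_mul D h P' (fun a => hle (hs a)) g]
        simp only [transl, map_div])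
    convert hmax using 4
    have hl : L.lam D c * L.lam D (η P) = L.lam D (η P') := by
      rw [← lam_mul]; exact lam_congr D fun g => div_mul_cancel _ _
    simp only [H, eq_div_of_mul_eq' hl, c]
    apply Additive.ofMul.injective
    simp only [ofMul_mul, ofMul_inv, ofMul_div, ofMul_pow]
    module

end TateLevel

end Fermat.Agent.Carayol
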