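import Fermat.Agent.Carayol.CuspRing
import Fermat.Agent.Carayol.Glue

/-!
# Embeddings at a cusp
-/

set_option autoImplicit false

noncomputable section

namespace Fermat.Agent.Carayol

open WeierstrassCurve Polynomial WithZero

variable {K Ω : Type*} [Field K] [Field Ω] [Algebra K Ω] [DecidableEq Ω]

/-- An embedding of the field of level `q n` into the fractions of power series over a `SerBase`,
sending `j` to a series with a pole and unit leading coefficient. -/
structure CuspEmb (L : TateLevel K Ω) {U : UnramBase K L.frame.q} (S : SerBase U) where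
  /-- The embedding. -/
  σ : Ω →+* S.SerF
  σ_cst : ∀ w : U.W, σ (algebraMap K Ω (w : K)) = S.cst w
  /-- The order of the pole of `j`. -/
  N : ℕ
  one_le : 1 ≤ N
  /-- The series of `j`. -/
  p : PowerSeries S.O
  unit : IsUnit (PowerSeries.constantCoeff p)
  σ_j : σ L.j * S.tvar ^ N = S.ser p

namespace CuspEmb

variable {L : TateLevel K Ω} {U : UnramBase K L.frame.q} {S : SerBase U} (C : CuspEmb L S)

/-- The embedding obtained from another homomorphism which agrees on constants and `j`. -/
def ofHom (τ : Ω →+* S.SerF) (hc : ∀ c : K, τ (algebraMap K Ω c) = C.σ (algebraMap K Ω c))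
    (hj : τ L.j = C.σ L.j) : CuspEmb L S :=
  { C with σ := τ, σ_cst := fun w => (hc w).trans (C.σ_cst w), σ_j := by rw [hj]; exact C.σ_j }

lemma σ_evalJ (P : U.W[X]) : C.σ (L.evalJ U P) = SerBase.evalSer (C.σ L.j) P := by
  rw [TateLevel.evalJ, coe_eval₂RingHom, hom_eval₂, SerBase.evalSer, coe_eval₂RingHom]
  congr 1
  exact RingHom.ext C.σ_cst

lemma bd_lineRing {z : Ω} (hz : z ∈ L.lineRing U) : S.Bd (C.σ z) := by
  refine (Subring.closure_le.2 ?_ : L.lineRing U ≤ S.bdRing.comap C.σ) hz
  rintro z (⟨w, hw, rfl⟩ | rfl)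
  · show S.Bd _
    rw [show (algebraMap K Ω) w = algebraMap K Ω ((⟨w, hw⟩ : U.W) : K) from rfl, C.σ_cst]
    exact SerBase.bd_cst _
  · exact ⟨C.N, C.p, C.σ_j⟩

lemma bd_modelRing {z : Ω} (hz : z ∈ L.modelRing U) : S.Bd (C.σ z) := by
  obtain ⟨P, hP, e⟩ := hz
  refine SerBase.bd_of_monic (hP.map (C.σ.comp (algebraMap (L.lineRing U) Ω)))
    (fun i => by rw [coeff_map]; exact C.bd_lineRing (P.coeff i).2) ?_
  rw [eval_map, ← hom_eval₂, e, map_zero]

lemma gauss_σ_le {z : Ω} (hz : z ∈ L.modelRing U) : S.gauss (C.σ z) ≤ 1 :=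
  SerBase.gauss_le_one_of_bd (C.bd_modelRing hz)

/-- The centre on the model. -/
def centre : Ideal (L.modelRing U) where
  carrier := {a | S.gauss (C.σ (a : Ω)) < 1}
  zero_mem' := by simp
  add_mem' {a b} ha hb := by
    show S.gauss (C.σ ((a + b : L.modelRing U) : Ω)) < 1
    rw [Subring.coe_add, map_add]
    exact Valuation.map_add_lt _ ha hb
  smul_mem' c a ha := by
    show S.gauss (C.σ ((c • a : L.modelRing U) : Ω)) < 1
    rw [smul_eq_mul, Subring.coe_mul, map_mul, map_mul]
    exact mul_lt_one_of_nonneg_of_lt_one_right (C.gauss_σ_le c.2) zero_le ha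

lemma mem_centre {a : L.modelRing U} : a ∈ C.centre ↔ S.gauss (C.σ (a : Ω)) < 1 := Iff.rfl

instance centre_isPrime : C.centre.IsPrime := by
  refine ⟨fun h => ?_, fun {a b} h => ?_⟩
  · have : (1 : L.modelRing U) ∈ C.centre := h ▸ Submodule.mem_top
    simp [mem_centre] at this
  · by_contra! hn
    rw [mem_centre, Subring.coe_mul, map_mul, map_mul] at h
    have ha : S.gauss (C.σ (a : Ω)) = 1 := le_antisymm (C.gauss_σ_le a.2) (not_lt.1 hn.1)
    rw [ha, one_mul] at h
    exact hn.2 h

lemma natCast_mem_centre : (L.frame.q : L.modelRing U) ∈ C.centre := by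
  rw [mem_centre, SubringClass.coe_natCast, map_natCast]
  exact S.gauss_natCast_lt

lemma gauss_lt_of_inMax {z : Ω} (h : InMax (TateLevel.localRing C.centre) z) :
    S.gauss (C.σ z) < 1 := by
  obtain ⟨a, d, hd, e⟩ := (TateLevel.mem_localRing _).1 h.1
  have hd1 : S.gauss (C.σ (d : Ω)) = 1 :=
    le_antisymm (C.gauss_σ_le d.2) (not_lt.1 hd)
  have ha : a ∈ C.centre := by
    refine (TateLevel.inMax_localRing _).1 ?_
    rw [← e]
    exact h.mul_right (TateLevel.le_localRing _ d.2)
  have := congrArg (fun z => S.gauss (C.σ z)) e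
  simp only [map_mul, hd1, mul_one] at this
  exact this ▸ ha

/-- A function with trivial divisor modulo `m` congruent to an `m`-th power at the centre has a
root in the series. -/
lemma exists_root {m : ℕ} (hm : IsUnit (m : U.W)) {u : Ωˣ}
    (hpl : Places K m u) {h : Ωˣ}
    (hu : InMax (TateLevel.localRing C.centre) (((u / h ^ m : Ωˣ) : Ω) - 1)) :
    ∃ y, y ^ m = C.σ (u : Ω) := by
  refine SerBase.exists_root_of_orders (SerBase.isUnit_natCast (S := S) hm) (h := C.σ (h : Ω))
    ((map_ne_zero C.σ).2 h.ne_zero) ?_ fun p hp hpq => ?_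
  · have := C.gauss_lt_of_inMax hu
    rwa [map_sub, map_one, Units.val_div_eq_div_val, map_div₀, Units.val_pow_eq_pow_val,
      map_pow] at this
  · refine hpl ((primeVal S.SerF hp).comap C.σ) fun c hc => ?_
    obtain ⟨k, w, rfl⟩ := TateLevel.exists_qpow_mul_unit (L := L) (U := U) hc
    have hq1 : primeVal S.SerF hp (L.frame.q : S.SerF) = 1 := by
      rw [← map_natCast S.ser, primeVal_algebraMap hp S.natCast_q_ne_zero,
        multiplicity_eq_zero.2 hpq]
      simp
    have hw : primeVal S.SerF hp (S.cst (w : U.W)) = 1 :=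
      primeVal_unit hp ((w.isUnit.map S.ψ).map (PowerSeries.C (R := S.O)))
    rw [Valuation.comap_apply, map_mul, map_mul, map_mul, map_zpow₀, map_natCast, map_zpow₀,
      map_natCast, map_zpow₀, hq1, one_zpow, one_mul, C.σ_cst, hw]

end CuspEmb

end Fermat.Agent.Carayol
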