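import Fermat.Agent.Carayol.Residue
import Fermat.Agent.Carayol.PrimeVal

/-!
# A function with trivial divisor modulo `m` is an `m`-th power near the special fibre
-/

set_option autoImplicit false

noncomputable section

namespace Fermat.Agent.Carayol

open WeierstrassCurve IsLocalRing Matrix

variable {K Ω : Type*} [Field K] [Field Ω] [Algebra K Ω] [DecidableEq Ω]

namespace TateLevel

variable {L : TateLevel K Ω} {U : UnramBase K L.frame.q}

variable (L) in
/-- Invariance under the subgroup of a combination. -/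
def FixedBy (D : CombId L.frame.q) (f : Ωˣ) : Prop := ∀ t ∈ D.fix, L.transl f t = f

variable (L U) in
/-- All horizontal orders near the special fibre are divisible by `m`. -/
def Horizontal (m : ℕ) (f : Ωˣ) : Prop :=
  ∀ (x : Ideal (L.modelRing U)) (_ : x.IsMaximal) (hq : (L.frame.q : L.modelRing U) ∈ x)
    (π : localRing x) (hπ : Prime π), ¬ π ∣ (L.frame.q : localRing x) →
    (m : ℤ) ∣ @primeOrd _ _ _ (ufd_localRing x hq) π Ω _ _ _ hπ (f : Ω)

variable (L) in
/-- The constant `q ^ k` of `Ω`. -/
def qPow (k : ℤ) : Ωˣ := (Units.mk0 (L.frame.q : Ω) L.frame.hchar) ^ k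

lemma transl_qPow (k : ℤ) (g : GL (Fin 2) (ZMod L.frame.q)) :
    L.transl (L.qPow k) g = L.qPow k := by
  rw [transl, qPow, map_zpow]
  congr 1
  exact Units.ext (map_natCast (L.act g).toRingEquiv.toRingHom L.frame.q)

/-- An automorphism of a local ring fixing the ideal of a prime element preserves its order. -/
lemma primeOrd_act {x : Ideal (L.modelRing U)} [x.IsPrime]
    [UniqueFactorizationMonoid (localRing x)] {π : localRing x} (hπ : Prime π)
    {s : GL (Fin 2) (ZMod L.frame.q)} (hs : IsInertia x s) (hs' : IsInertia x s⁻¹)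
    (hπs : ∀ a : L.modelRing U, π ∣ algebraMap (L.modelRing U) (localRing x) a →
      π ∣ algebraMap (L.modelRing U) (localRing x) (L.actR U s a)) {z : Ω} (hz : z ≠ 0) :
    primeOrd hπ (L.act s z) = primeOrd hπ z := by
  have hinv : ∀ z : Ω, L.act s (L.act s⁻¹ z) = z := fun z => by
    rw [← AlgEquiv.mul_apply, ← map_mul, mul_inv_cancel, map_one]; rfl
  have hinv' : ∀ z : Ω, L.act s⁻¹ (L.act s z) = z := fun z => by
    rw [← AlgEquiv.mul_apply, ← map_mul, inv_mul_cancel, map_one]; rfl
  -- The automorphism acts on the local ring, sending `π` to an associate.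
  let e : localRing x ≃* localRing x :=
    { toFun := fun a => ⟨L.act s a, (hs.inMax_sub x a.2).1⟩
      invFun := fun a => ⟨L.act s⁻¹ a, (hs'.inMax_sub x a.2).1⟩
      left_inv := fun a => Subtype.ext (hinv' a)
      right_inv := fun a => Subtype.ext (hinv a)
      map_mul' := fun a b => Subtype.ext (map_mul (L.act s) (a : Ω) b) }
  have hdvd : π ∣ e π := by
    obtain ⟨a, d, hd, eq⟩ := (mem_localRing x).1 π.2
    have ha : π ∣ algebraMap (L.modelRing U) (localRing x) a :=
      ⟨algebraMap (L.modelRing U) (localRing x) d, Subtype.ext eq.symm⟩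
    have hu : IsUnit (e (algebraMap (L.modelRing U) (localRing x) d)) :=
      (IsLocalization.map_units (localRing x) (⟨d, hd⟩ : x.primeCompl)).map e
    have eq' : e π * e (algebraMap (L.modelRing U) (localRing x) d)
        = algebraMap (L.modelRing U) (localRing x) (L.actR U s a) :=
      Subtype.ext (by
        show L.act s (π : Ω) * L.act s (d : Ω) = L.act s (a : Ω)
        rw [← map_mul, eq])
    exact hu.dvd_mul_right.1 (eq' ▸ hπs a ha)
  have hassoc : Associated π (e π) :=
    hπ.irreducible.associated_of_dvd (hπ.irreducible.map e) hdvd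
  have hmult : ∀ a : localRing x, a ≠ 0 → multiplicity π (e a) = multiplicity π a := by
    intro a ha
    rw [← multiplicity_eq_of_associated_left hassoc]
    exact multiplicity_map_eq e
  -- So it preserves multiplicities, hence the orders of fractions.
  obtain ⟨a, d, hd, rfl⟩ := IsFractionRing.div_surjective (localRing x) z
  have ha : a ≠ 0 := by rintro rfl; simp at hz
  have hd0 : d ≠ 0 := nonZeroDivisors.ne_zero hd
  have hne : ∀ y : localRing x, y ≠ 0 → algebraMap (localRing x) Ω y ≠ 0 := fun y hy h =>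
    hy (Subtype.ext h)
  have hdiv : ∀ y y' : localRing x, y ≠ 0 → y' ≠ 0 →
      primeOrd hπ (algebraMap (localRing x) Ω y / algebraMap (localRing x) Ω y')
        = (multiplicity π y : ℤ) - multiplicity π y' := by
    intro y y' hy hy'
    have h := primeOrd_mul (F := Ω) hπ (div_ne_zero (hne y hy) (hne y' hy')) (hne y' hy')
    rw [div_mul_cancel₀ _ (hne y' hy'), primeOrd_algebraMap hπ hy,
      primeOrd_algebraMap hπ hy'] at h
    omega
  have hne' : ∀ y : localRing x, y ≠ 0 → e y ≠ 0 := fun y hy h =>
    hy (Subtype.ext ((L.act s).injective ((congrArg Subtype.val h).trans (map_zero _).symm)))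
  rw [map_div₀, show L.act s (algebraMap (localRing x) Ω a) = algebraMap (localRing x) Ω (e a)
      from rfl,
    show L.act s (algebraMap (localRing x) Ω d) = algebraMap (localRing x) Ω (e d) from rfl,
    hdiv _ _ (hne' a ha) (hne' d hd0), hdiv a d ha hd0, hmult a ha, hmult d hd0]

/-- A nonzero element of `K` is a power of `q` times a unit of the base. -/
lemma exists_qpow_mul_unit {c : K} (hc : c ≠ 0) :
    ∃ (k : ℤ) (w : (U.W)ˣ), c = (L.frame.q : K) ^ k * ((w : U.W) : K) := by
  have hirr : Irreducible (L.frame.q : U.W) :=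
    (IsDiscreteValuationRing.irreducible_iff_uniformizer _).2 U.max_eq
  obtain ⟨a, d, hd, e⟩ := IsFractionRing.div_surjective U.W c
  have ha : a ≠ 0 := by rintro rfl; rw [map_zero, zero_div] at e; exact hc e.symm
  obtain ⟨i, u, rfl⟩ := IsDiscreteValuationRing.eq_unit_mul_pow_irreducible ha hirr
  obtain ⟨j, v, rfl⟩ :=
    IsDiscreteValuationRing.eq_unit_mul_pow_irreducible (nonZeroDivisors.ne_zero hd) hirr
  have hqK : (L.frame.q : K) ≠ 0 := by
    have := U.charZero
    exact Nat.cast_ne_zero.2 L.frame.hq.ne_zero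
  refine ⟨(i : ℤ) - j, u * v⁻¹, ?_⟩
  rw [← e]
  have hvv : ((v : U.W) : K) * (((v⁻¹ : (U.W)ˣ) : U.W) : K) = 1 := by
    rw [← Subring.coe_mul, Units.mul_inv, Subring.coe_one]
  simp only [map_mul, map_pow, map_natCast, Units.val_mul, Subring.coe_mul, zpow_sub₀ hqK,
    zpow_natCast]
  rw [show algebraMap U.W K (u : U.W) = ((u : U.W) : K) from rfl,
    show algebraMap U.W K (v : U.W) = ((v : U.W) : K) from rfl,
    eq_inv_of_mul_eq_one_right hvv]
  field_simp

/-- The order at a prime element in `x` is invariant under the translations fixing the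
inertia line of the prime of the model ring below it. -/
private theorem primeOrd_transl_mul {x : Ideal (L.modelRing U)} [x.IsPrime]
    [UniqueFactorizationMonoid (localRing x)] {π : localRing x} (hπ : Prime π)
    (h𝔭x : (Ideal.span {π}).comap (algebraMap (L.modelRing U) (localRing x)) ≤ x)
    {v : Fin 2 → ZMod L.frame.q}
    (hline : ∀ g : GL (Fin 2) (ZMod L.frame.q),
      (∀ w, ∃ k : ZMod L.frame.q,
        (g : Matrix (Fin 2) (Fin 2) (ZMod L.frame.q)) *ᵥ w - w = k • v) →
      IsInertia ((Ideal.span {π}).comap (algebraMap (L.modelRing U) (localRing x))) g)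
    (f : Ωˣ) {s : GL (Fin 2) (ZMod L.frame.q)} (g : GL (Fin 2) (ZMod L.frame.q))
    (hs : ∀ w, ∃ k : ZMod L.frame.q,
      (s : Matrix (Fin 2) (Fin 2) (ZMod L.frame.q)) *ᵥ w - w = k • v) :
    primeOrd hπ (L.transl f (s * g) : Ω) = primeOrd hπ (L.transl f g : Ω) := by
  have hinv : ∀ w, ∃ k : ZMod L.frame.q,
      ((s⁻¹ : GL (Fin 2) (ZMod L.frame.q)) : Matrix (Fin 2) (Fin 2) (ZMod L.frame.q)) *ᵥ w
        - w = k • v := by
    intro w
    obtain ⟨k, hk⟩ := hs (((s⁻¹ : GL (Fin 2) (ZMod L.frame.q)) :
      Matrix (Fin 2) (Fin 2) (ZMod L.frame.q)) *ᵥ w)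
    rw [Matrix.mulVec_mulVec, ← Units.val_mul, mul_inv_cancel, Units.val_one,
      Matrix.one_mulVec] at hk
    exact ⟨-k, by rw [neg_smul, ← hk, neg_sub]⟩
  rw [transl_mul_apply]
  refine primeOrd_act hπ (fun a => h𝔭x (hline s hs a)) (fun a => h𝔭x (hline _ hinv a))
    (fun a ha => ?_) (Units.ne_zero _)
  have h2 := Ideal.add_mem _ (hline s hs a) (Ideal.mem_span_singleton.2 ha)
  rw [sub_add_cancel] at h2
  exact Ideal.mem_span_singleton.1 h2

/-- The universal identity turns the condition on partial norms into divisibility at the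
vertical primes, hence, with the horizontal condition, into being an `m`-th power near the
special fibre. -/
theorem exists_local_power {Ω : Type} [Field Ω] [Algebra K Ω] [DecidableEq Ω]
    {L : TateLevel K Ω} {U : UnramBase K L.frame.q} (D : CombId L.frame.q) {m : ℕ} (hm : m ≠ 0)
    {f γ : Ωˣ} {κ : Kˣ} (hf : L.FixedBy D f) (hor : L.Horizontal U m f)
    (hlam : L.lam D (L.transl f) = Units.map (algebraMap K Ω).toMonoidHom κ * γ ^ m) :
    ∃ α : ℤ, ∀ (P : Ideal (L.modelRing U)) [P.IsPrime], (L.frame.q : L.modelRing U) ∈ P →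
      ∃ h : Ωˣ, (f ^ D.exp * L.qPow α) / h ^ m ∈ unitsAt P := by
  classical
  -- the constant is a power of `q` times a unit
  obtain ⟨k, w, hk⟩ := exists_qpow_mul_unit (U := U) κ.ne_zero
  refine ⟨-k, fun P hP hq => ?_⟩
  obtain ⟨x, hx, hPx⟩ := Ideal.exists_le_maximal P hP.ne_top
  have := hx.isPrime
  have hqx := hPx hq
  have := ufd_localRing x hqx
  set f' : Ωˣ := f ^ D.exp * L.qPow (-k)
  have key : ∀ (π : localRing x) (hπ : Prime π), (m : ℤ) ∣ primeOrd hπ (f' : Ω) := by
    intro π hπ
    set o := primeOrdHom (F := Ω) hπ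
    have ho : ∀ z : Ωˣ, primeOrd hπ (z : Ω) = o (Additive.ofMul z) := fun z => rfl
    have hc : ∀ z : Ωˣ, ∀ j : ℤ, o (Additive.ofMul (z ^ j)) = j * o (Additive.ofMul z) :=
      fun z j => by rw [ofMul_zpow, map_zsmul, smul_eq_mul]
    have hn : ∀ (z : Ωˣ) (n : ℕ), o (Additive.ofMul (z ^ n)) = n * o (Additive.ofMul z) :=
      fun z n => by rw [ofMul_pow, map_nsmul, nsmul_eq_mul]
    rw [ho, show Additive.ofMul f' = Additive.ofMul (f ^ D.exp)
      + Additive.ofMul (L.qPow (-k)) from rfl, map_add, hn, qPow, hc]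
    set oq := o (Additive.ofMul (Units.mk0 (L.frame.q : Ω) L.frame.hchar))
    by_cases hπq : π ∣ (L.frame.q : localRing x)
    · -- a vertical prime element
      set 𝔭 : Ideal (L.modelRing U) :=
        (Ideal.span {π}).comap (algebraMap (L.modelRing U) (localRing x))
      have : (Ideal.span {π}).IsPrime := (Ideal.span_singleton_prime hπ.ne_zero).2 hπ
      have : 𝔭.IsPrime := Ideal.IsPrime.comap _
      have hq𝔭 : (L.frame.q : L.modelRing U) ∈ 𝔭 := by
        rw [Ideal.mem_comap, map_natCast, Ideal.mem_span_singleton]; exact hπq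
      have h𝔭x : 𝔭 ≤ x := fun a ha => by
        rw [Ideal.mem_comap] at ha
        exact (IsLocalization.AtPrime.to_map_mem_maximal_iff (localRing x) x a).1
          (le_maximalIdeal (Ideal.IsPrime.ne_top ‹_›) ha)
      obtain ⟨v, hv, hline⟩ := exists_line_inertia 𝔭 hq𝔭
      have hS : ∀ s g : GL (Fin 2) (ZMod L.frame.q),
          (∀ w, ∃ k : ZMod L.frame.q,
            (s : Matrix (Fin 2) (Fin 2) (ZMod L.frame.q)) *ᵥ w - w = k • v) →
          o (Additive.ofMul (L.transl f (s * g))) = o (Additive.ofMul (L.transl f g)) :=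
        fun s g hs => primeOrd_transl_mul hπ h𝔭x hline f g hs
      have hid := D.hid ℤ (fun g => o (Additive.ofMul (L.transl f g)))
        (fun g t ht => by rw [transl_mul_apply, hf t ht]) v hv hS
      simp only [← map_zsmul] at hid
      rw [← map_sum, transl_one] at hid
      have hlam' : o (∑ g, D.coeffs g • Additive.ofMul (L.transl f g))
          = k * oq + m * o (Additive.ofMul γ) := by
        change o (Additive.ofMul (L.lam D (L.transl f))) = _
        rw [hlam, ofMul_mul, map_add, hn]
        congr 1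
        rw [show Units.map (algebraMap K Ω).toMonoidHom κ
            = Units.mk0 (L.frame.q : Ω) L.frame.hchar ^ k
              * Units.map ((algebraMap K Ω).comp U.W.subtype).toMonoidHom w by
          apply Units.ext
          simp [hk, map_zpow₀]]
        rw [ofMul_mul, map_add, hc]
        refine add_eq_left.2 ?_
        have hu : IsUnit (algebraMap (L.modelRing U) (localRing x) (L.baseHom U w)) :=
          (w.isUnit.map (L.baseHom U)).map _
        have hw : ((Units.map ((algebraMap K Ω).comp U.W.subtype).toMonoidHom w : Ωˣ) : Ω)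
            = algebraMap (localRing x) Ω
              (algebraMap (L.modelRing U) (localRing x) (L.baseHom U w)) := rfl
        rw [← ho, hw, primeOrd, primeVal_unit hπ hu]
        rfl
      rw [hlam'] at hid
      refine ⟨o (Additive.ofMul γ), ?_⟩
      simp only [map_zsmul, smul_eq_mul] at hid
      linear_combination -hid
    · -- a horizontal prime element
      have hoq : oq = 0 := by
        show primeOrd hπ _ = 0
        have hne : (L.frame.q : localRing x) ≠ 0 := fun h => hπq (h ▸ dvd_zero π)
        show primeOrd hπ (L.frame.q : Ω) = 0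
        rw [show (L.frame.q : Ω)
          = algebraMap (localRing x) Ω (L.frame.q : localRing x) from (map_natCast _ _).symm,
          primeOrd_algebraMap hπ hne, multiplicity_eq_zero.2 hπq]
        rfl
      rw [hoq, mul_zero, add_zero]
      exact dvd_mul_of_dvd_right (hor x hx hqx π hπ hπq) _
  obtain ⟨u, g, hg, e⟩ := exists_unit_mul_pow hm f'.ne_zero key
  refine ⟨Units.mk0 g hg, ?_⟩
  set z : Ωˣ := f' / Units.mk0 g hg ^ m with hz
  have hzu : (z : Ω) = algebraMap (localRing x) Ω u := by
    simp [hz, e, hg]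
  have hle : localRing x ≤ localRing P := fun y hy => by
    obtain ⟨r, d, hd, e⟩ := (mem_localRing x).1 hy
    exact (mem_localRing P).2 ⟨r, d, fun h => hd (hPx h), e⟩
  refine ⟨hzu ▸ hle (u : localRing x).2, ?_⟩
  have : ((z⁻¹ : Ωˣ) : Ω) = algebraMap (localRing x) Ω (u⁻¹ : (localRing x)ˣ) := by
    rw [Units.val_inv_eq_inv_val, hzu, map_units_inv]
  exact this ▸ hle ((u⁻¹ : (localRing x)ˣ) : localRing x).2

end TateLevel

end Fermat.Agent.Carayol
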