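import Fermat.Agent.GaloisReps.Matching
import Fermat.Agent.NewformLocal.Oldness

/-!
# Leaving a good prime out of the Hecke algebra

A Frobenius element at a good prime is approached by powers of Frobenius elements at other primes,
so on a model `T_l` is a limit of operators avoiding a given finite set of primes. By Krull's
intersection theorem a nonzero multiple of `T_l` is such an operator.
-/

set_option autoImplicit false

noncomputable section

namespace Fermat.Agent.Carayol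

open GaloisReps (AbsGal FullHecke HeckeGaloisModel matIn toFull powerTrace)

variable {N p : ℕ} [NeZero N] [Fact p.Prime]

/-- On a model, `T_l` is congruent to an operator avoiding `S` modulo every power of `p`. -/
theorem exists_good_congr (D : HeckeGaloisModel N p) {l : ℕ} (hl : l.Prime) (hlN : ¬ l ∣ N * p)
    (S : Finset ℕ) (n : ℕ) :
    ∃ t : CuspForm.heckeAlgebra N 2 (↑S : Set ℕ),
      (PadicInt.toZModPow n).mapMatrix (matIn D.hecke ℤ_[p] (HeckeDuality.heckeOp N 2 l hl)) =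
        (PadicInt.toZModPow n).mapMatrix (matIn D.hecke ℤ_[p] (toFull (↑S : Set ℕ) t)) := by
  classical
  have : NeZero (p ^ n) := ⟨pow_ne_zero _ (Fact.out : p.Prime).ne_zero⟩
  obtain ⟨ζ, hζ⟩ := GaloisReps.exists_primitiveRoot (p ^ n)
  obtain ⟨A, hA⟩ := Arith.exists_liesOverPrime hl
  obtain ⟨g, hg⟩ := Arith.exists_isFrobeniusAt hA hl
  obtain ⟨L₁, hL₁, h₁⟩ := D.gal_continuous n
  have : FiniteDimensional ℚ (IntermediateField.adjoin ℚ {ζ}) :=
    IntermediateField.adjoin.finiteDimensional (Algebra.IsIntegral.isIntegral ζ)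
  obtain ⟨ℓ, hℓ, hℓS, B, hB, σ, hσ, i, hi⟩ :=
    GaloisReps.frobeniusDensity (L₁ ⊔ IntermediateField.adjoin ℚ {ζ}) inferInstance g
      (S ∪ (N * p).primeFactors)
  rw [Finset.mem_union, not_or] at hℓS
  have hℓNp : ¬ ℓ ∣ N * p := fun h => hℓS.2 (Nat.mem_primeFactors.mpr
    ⟨hℓ, h, mul_ne_zero (NeZero.ne N) (Fact.out : p.Prime).ne_zero⟩)
  have hℓN : ¬ ℓ ∣ N := fun h => hℓNp (dvd_mul_of_dvd_left h p)
  have hℓS' : ℓ ∉ (↑S : Set ℕ) := fun h => hℓS.1 (Finset.mem_coe.mp h)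
  have hfix := GaloisReps.inv_mul_fixes (fun x hx => (hi x hx).symm)
  set Tl : CuspForm.heckeAlgebra N 2 (↑S : Set ℕ) := CuspForm.heckeAlgebra.T hℓ hℓN hℓS' with hTl
  refine ⟨powerTrace Tl (ℓ : CuspForm.heckeAlgebra N 2 (↑S : Set ℕ)) i, ?_⟩
  set G := (PadicInt.toZModPow n).mapMatrix (D.gal g) with hG
  -- the quadratic equation of the limit
  have hcongr : G = (PadicInt.toZModPow n).mapMatrix (D.gal (σ ^ i)) := by
    have := h₁ _ fun x hx =>
      hfix x ((le_sup_left : L₁ ≤ L₁ ⊔ IntermediateField.adjoin ℚ {ζ}) hx)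
    rw [hG, ← mul_inv_cancel_left (σ ^ i) g, map_mul, map_mul,
      RingHom.mapMatrix_apply (PadicInt.toZModPow n) (D.gal ((σ ^ i)⁻¹ * g)), this, mul_one]
  have hq2 : D.gal σ * D.gal σ - matIn D.hecke ℤ_[p] (toFull (↑S : Set ℕ) Tl) * D.gal σ +
      (ℓ : Matrix (Fin D.d) (Fin D.d) ℤ_[p]) = 0 := by
    have := D.gal_frobenius ℓ hℓ hℓNp B hB σ hσ
    rwa [← GaloisReps.toFull_T hℓ hℓN hℓS', Nat.cast_smul_eq_nsmul, nsmul_eq_mul, mul_one] at this
  have h3 := GaloisReps.pow_quadratic (D.gal_comm σ _).symm ℓ hq2 i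
  have e : matIn D.hecke ℤ_[p]
        (toFull (↑S : Set ℕ) (powerTrace Tl (ℓ : CuspForm.heckeAlgebra N 2 _) i)) =
      powerTrace (matIn D.hecke ℤ_[p] (toFull (↑S : Set ℕ) Tl)) (ℓ : Matrix _ _ ℤ_[p]) i := by
    rw [← map_natCast ((matIn D.hecke ℤ_[p]).comp (toFull (↑S : Set ℕ)).toRingHom) ℓ]
    exact GaloisReps.map_powerTrace
      ((matIn D.hecke ℤ_[p]).comp (toFull (↑S : Set ℕ)).toRingHom) Tl _ i
  rw [← e, ← map_pow D.gal] at h3
  have h4 := congrArg (PadicInt.toZModPow n).mapMatrix h3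
  rw [map_add, map_sub, map_mul, map_mul, map_zero, map_natCast, ← hcongr] at h4
  -- the quadratic equation of `g` itself
  have hgl := D.gal_frobenius l hl hlN A hA g hg
  rw [Nat.cast_smul_eq_nsmul, nsmul_eq_mul, mul_one] at hgl
  have h5 := congrArg (PadicInt.toZModPow n).mapMatrix hgl
  rw [map_add, map_sub, map_mul, map_mul, map_zero, map_natCast, ← hG] at h5
  -- the two constant terms agree
  have hchi : ((ℓ ^ i : ℕ) : ZMod (p ^ n)) = (l : ZMod (p ^ n)) := by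
    have e1 : g ζ = ζ ^ ℓ ^ i := by
      rw [hi ζ (le_sup_right (a := L₁) (IntermediateField.mem_adjoin_simple_self ℚ ζ))]
      refine GaloisReps.pow_apply_root
        (Arith.frobenius_root hB hℓ hσ hζ.pow_eq_one fun hdvd => hℓNp ?_) i
      exact dvd_mul_of_dvd_right (hℓ.dvd_of_dvd_pow hdvd) N
    have e2 : g ζ = ζ ^ l := Arith.frobenius_root hA hl hg hζ.pow_eq_one
      fun hdvd => hlN (dvd_mul_of_dvd_right (hl.dvd_of_dvd_pow hdvd) N)
    have := (hζ.isOfFinOrder (NeZero.ne _)).pow_eq_pow_iff_modEq.mp (e1.symm.trans e2)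
    rwa [← hζ.eq_orderOf, ← ZMod.natCast_eq_natCast_iff] at this
  have hnat : ((ℓ ^ i : ℕ) : Matrix (Fin D.d) (Fin D.d) (ZMod (p ^ n))) = (l : Matrix _ _ _) := by
    rw [← map_natCast (algebraMap (ZMod (p ^ n)) (Matrix (Fin D.d) (Fin D.d) (ZMod (p ^ n)))),
      hchi, map_natCast]
  rw [hnat] at h4
  have hinv : G * (PadicInt.toZModPow n).mapMatrix (D.gal g⁻¹) = 1 := by
    rw [hG, ← map_mul, ← map_mul, mul_inv_cancel, map_one, map_one]
  have h6 := sub_right_inj.1 (add_right_cancel (h5.trans h4.symm))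
  have h7 := congrArg (· * (PadicInt.toZModPow n).mapMatrix (D.gal g⁻¹)) h6
  simpa only [mul_assoc, hinv, mul_one] using h7

omit [Fact p.Prime] in
/-- Krull's intersection theorem for a subgroup of a finitely generated abelian group. -/
theorem exists_zsmul_mem_of_forall {M : Type} [AddCommGroup M] [Module.Finite ℤ M]
    (Λ : Submodule ℤ M) (hp : p.Prime) (x : M)
    (hx : ∀ n : ℕ, ∃ y ∈ Λ, ∃ m : M, x = y + ((p : ℤ) ^ n) • m) :
    ∃ z : ℤ, z ≠ 0 ∧ z • x ∈ Λ := by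
  set I : Ideal ℤ := Ideal.span {(p : ℤ)} with hI
  have hmem : Λ.mkQ x ∈ (⨅ n : ℕ, I ^ n • ⊤ : Submodule ℤ (M ⧸ Λ)) := by
    refine (Submodule.mem_iInf _).2 fun n => ?_
    obtain ⟨y, hy, m, rfl⟩ := hx n
    have h0 : Λ.mkQ y = 0 := (Submodule.Quotient.mk_eq_zero Λ).2 hy
    rw [map_add, map_smul, h0, zero_add, hI, Ideal.span_singleton_pow]
    exact Submodule.smul_mem_smul (Ideal.mem_span_singleton_self _) Submodule.mem_top
  obtain ⟨r, hr⟩ := (Ideal.mem_iInf_smul_pow_eq_bot_iff I _).1 hmem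
  refine ⟨1 - (r : ℤ), fun h => hp.ne_one ?_, (Submodule.Quotient.mk_eq_zero Λ).1 ?_⟩
  · have h1 := Ideal.mem_span_singleton.1 (show (r : ℤ) ∈ Ideal.span {(p : ℤ)} from r.2)
    rw [← sub_eq_zero.1 h] at h1
    exact Nat.dvd_one.1 (Int.natCast_dvd_natCast.1 h1)
  · show Λ.mkQ ((1 - (r : ℤ)) • x) = 0
    rw [map_smul, sub_smul, one_smul, hr, sub_self]

/-- A nonzero multiple of `T_l` avoids `S`. -/
theorem exists_zsmul_mem_good (D : HeckeGaloisModel N p) {l : ℕ} (hl : l.Prime)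
    (hlN : ¬ l ∣ N * p) (S : Finset ℕ) :
    ∃ z : ℤ, z ≠ 0 ∧ ∃ t : CuspForm.heckeAlgebra N 2 (↑S : Set ℕ),
      toFull (↑S : Set ℕ) t = z • HeckeDuality.heckeOp N 2 l hl := by
  obtain ⟨φ, hφ⟩ : ∃ φ : CuspForm.heckeAlgebra N 2 (↑S : Set ℕ) →ₗ[ℤ]
      Matrix (Fin D.d) (Fin D.d) ℤ, ∀ t, φ t = D.hecke (toFull (↑S : Set ℕ) t) :=
    ⟨(D.hecke.comp (toFull (↑S : Set ℕ)).toRingHom).toAddMonoidHom.toIntLinearMap, fun _ => rfl⟩
  obtain ⟨z, hz, t, ht⟩ := exists_zsmul_mem_of_forall (LinearMap.range φ) (Fact.out : p.Prime)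
    (D.hecke (HeckeDuality.heckeOp N 2 l hl)) fun n => by
      obtain ⟨t, ht⟩ := exists_good_congr D hl hlN S n
      have hd : ∀ i j, ((p ^ n : ℕ) : ℤ) ∣
          (D.hecke (HeckeDuality.heckeOp N 2 l hl) - φ t) i j := fun i j => by
        rw [hφ, Matrix.sub_apply]
        have := congrFun (congrFun ht i) j
        simp only [RingHom.mapMatrix_apply, GaloisReps.matIn_apply, Matrix.map_apply, eq_intCast,
          map_intCast] at this
        exact Int.modEq_iff_dvd.1 ((ZMod.intCast_eq_intCast_iff _ _ _).1 this.symm)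
      choose Y hY using hd
      refine ⟨φ t, LinearMap.mem_range_self φ t, Matrix.of Y, ?_⟩
      rw [← sub_eq_iff_eq_add']
      ext i j
      rw [hY i j, Matrix.smul_apply, Matrix.of_apply, smul_eq_mul, Nat.cast_pow]
  refine ⟨z, hz, t, D.hecke_injective ?_⟩
  rw [map_zsmul, ← hφ]
  exact ht

/-- A nonzero multiple of an operator away from the level avoids `S`. -/
theorem exists_zsmul_good (S : Finset ℕ)
    (h : ∀ (ℓ : ℕ) (hℓ : ℓ.Prime), ¬ ℓ ∣ N → ℓ ∈ S → ∃ z : ℤ, z ≠ 0 ∧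
      ∃ t : CuspForm.heckeAlgebra N 2 (↑S : Set ℕ),
        toFull (↑S : Set ℕ) t = z • HeckeDuality.heckeOp N 2 ℓ hℓ)
    (u : CuspForm.heckeAlgebra N 2 (NewformLocal.levelPrimes N)) :
    ∃ z : ℤ, z ≠ 0 ∧ ∃ t : CuspForm.heckeAlgebra N 2 (↑S : Set ℕ),
      toFull (↑S : Set ℕ) t = z • toFull _ u := by
  obtain ⟨x, hx⟩ := u
  induction hx using Algebra.adjoin_induction with
  | mem y hy =>
    rcases hy with ⟨ℓ, hℓ, hℓN, hℓS, rfl⟩ | ⟨q, hqN, -, hqS, rfl⟩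
    · have e := GaloisReps.toFull_T (N := N) (S := NewformLocal.levelPrimes N) hℓ hℓN hℓS
      by_cases hmem : ℓ ∈ S
      · obtain ⟨z, hz, t, ht⟩ := h ℓ hℓ hℓN hmem
        exact ⟨z, hz, t, by rw [ht, ← e]; rfl⟩
      · refine ⟨1, one_ne_zero, CuspForm.heckeAlgebra.T hℓ hℓN (by simpa using hmem), ?_⟩
        rw [one_smul, GaloisReps.toFull_T]
        exact e.symm
    · exact absurd hqN hqS
  | algebraMap r =>
    refine ⟨1, one_ne_zero, algebraMap ℤ _ r, ?_⟩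
    rw [one_smul, AlgHom.commutes]
    exact Subtype.ext rfl
  | add a b ha hb iha ihb =>
    obtain ⟨z₁, h₁, t₁, e₁⟩ := iha
    obtain ⟨z₂, h₂, t₂, e₂⟩ := ihb
    refine ⟨z₁ * z₂, mul_ne_zero h₁ h₂, z₂ • t₁ + z₁ • t₂, ?_⟩
    rw [show (⟨a + b, _⟩ : CuspForm.heckeAlgebra N 2 (NewformLocal.levelPrimes N)) =
      ⟨a, ha⟩ + ⟨b, hb⟩ from rfl, map_add, map_zsmul, map_zsmul, e₁, e₂, map_add, smul_add,
      smul_smul, smul_smul, mul_comm z₂ z₁]
  | mul a b ha hb iha ihb =>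
    obtain ⟨z₁, h₁, t₁, e₁⟩ := iha
    obtain ⟨z₂, h₂, t₂, e₂⟩ := ihb
    refine ⟨z₁ * z₂, mul_ne_zero h₁ h₂, t₁ * t₂, ?_⟩
    rw [show (⟨a * b, _⟩ : CuspForm.heckeAlgebra N 2 (NewformLocal.levelPrimes N)) =
      ⟨a, ha⟩ * ⟨b, hb⟩ from rfl, map_mul, e₁, e₂, map_mul, smul_mul_smul_comm]

end Fermat.Agent.Carayol

end
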