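import Fermat.Agent.Carayol.Special
import Fermat.Agent.Carayol.CombId

/-!
# The combination of partial norms at a prime above `q`

The combination `lam` of a family of units invariant under the torus and compatible with the
inertia group of a prime above `q` is congruent to the power `combExp q` of the first member.
-/

set_option autoImplicit false

noncomputable section

namespace Fermat.Agent.Carayol

open WeierstrassCurve Matrix

variable {K Ω : Type*} [Field K] [Field Ω] [Algebra K Ω] [DecidableEq Ω]

instance {b c : Ω} (T : TorsFrame b c) : NeZero T.q := ⟨T.hq.ne_zero⟩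

instance {b c : Ω} (T : TorsFrame b c) : Fact T.q.Prime := ⟨T.hq⟩

namespace TateLevel

variable {L : TateLevel K Ω} {U : UnramBase K L.frame.q}

variable (L) in
/-- The combination of partial norms of a family, multiplicatively. -/
def lam (D : CombId L.frame.q) (ν : GL (Fin 2) (ZMod L.frame.q) → Ωˣ) : Ωˣ :=
  Additive.toMul (∑ g, D.coeffs g • Additive.ofMul (ν g))

variable (L) in
/-- The translates of a unit. -/
def transl (f : Ωˣ) (g : GL (Fin 2) (ZMod L.frame.q)) : Ωˣ :=
  Units.map (L.act g).toRingEquiv.toRingHom.toMonoidHom f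

lemma coe_transl (f : Ωˣ) (g : GL (Fin 2) (ZMod L.frame.q)) :
    (L.transl f g : Ω) = L.act g f := rfl

/-- Translation is an action. -/
lemma transl_mul_apply (f : Ωˣ) (g g' : GL (Fin 2) (ZMod L.frame.q)) :
    L.transl f (g * g') = L.transl (L.transl f g') g :=
  Units.ext (by simp [coe_transl, map_mul, AlgEquiv.mul_apply])

lemma transl_one (f : Ωˣ) : L.transl f 1 = f := Units.ext (by simp [coe_transl])

variable (D : CombId L.frame.q)

lemma lam_mul (ν ν' : GL (Fin 2) (ZMod L.frame.q) → Ωˣ) :
    L.lam D (fun g => ν g * ν' g) = L.lam D ν * L.lam D ν' := by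
  simp only [lam, ← toMul_add, ← Finset.sum_add_distrib, ofMul_mul]
  exact congrArg _ (Finset.sum_congr rfl fun g _ => zsmul_add _ _ _)

lemma lam_pow (ν : GL (Fin 2) (ZMod L.frame.q) → Ωˣ) (m : ℕ) :
    L.lam D (fun g => ν g ^ m) = L.lam D ν ^ m := by
  simp only [lam, ← toMul_nsmul, ofMul_pow]
  rw [← Finset.sum_nsmul]
  exact congrArg _ (Finset.sum_congr rfl fun g _ => by rw [← natCast_zsmul, ← natCast_zsmul,
    smul_comm])

lemma lam_congr {ν ν' : GL (Fin 2) (ZMod L.frame.q) → Ωˣ} (h : ∀ g, ν g = ν' g) :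
    L.lam D ν = L.lam D ν' := by rw [funext h]

lemma act_mem_lineRing (g : GL (Fin 2) (ZMod L.frame.q)) {z : Ω} (hz : z ∈ L.lineRing U) :
    L.act g z = z := by
  refine Subring.closure_induction (p := fun z _ => L.act g z = z) ?_ (map_zero _) (map_one _)
    (fun a b _ _ ha hb => by rw [map_add, ha, hb]) (fun a _ ha => by rw [map_neg, ha])
    (fun a b _ _ ha hb => by rw [map_mul, ha, hb]) hz
  rintro z (⟨w, -, rfl⟩ | rfl)
  · exact (L.act g).commutes w
  · exact L.act_j g

lemma act_mem_modelRing (g : GL (Fin 2) (ZMod L.frame.q)) {z : Ω} (hz : z ∈ L.modelRing U) :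
    L.act g z ∈ L.modelRing U := by
  obtain ⟨p, hp, e⟩ := hz
  refine ⟨p, hp, ?_⟩
  have h := congrArg (L.act g).toRingEquiv.toRingHom e
  rw [Polynomial.hom_eval₂, map_zero,
    show (L.act g).toRingEquiv.toRingHom.comp (algebraMap (L.lineRing U) Ω)
      = algebraMap (L.lineRing U) Ω from RingHom.ext fun r => act_mem_lineRing g r.2] at h
  exact h

variable (L U) in
/-- The action on the model. -/
def actR (g : GL (Fin 2) (ZMod L.frame.q)) : L.modelRing U →+* L.modelRing U :=
  ((L.act g).toRingEquiv.toRingHom.comp (L.modelRing U).subtype).codRestrict (L.modelRing U)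
    fun z => act_mem_modelRing g z.2

lemma coe_actR (g : GL (Fin 2) (ZMod L.frame.q)) (z : L.modelRing U) :
    (L.actR U g z : Ω) = L.act g z := rfl

lemma actR_mul (g g' : GL (Fin 2) (ZMod L.frame.q)) :
    L.actR U (g * g') = (L.actR U g).comp (L.actR U g') :=
  RingHom.ext fun z => Subtype.ext (by simp [coe_actR, map_mul, AlgEquiv.mul_apply])

/-- The pullback of a prime under an element of the group. -/
def pull (P : Ideal (L.modelRing U)) (g : GL (Fin 2) (ZMod L.frame.q)) : Ideal (L.modelRing U) :=
  P.comap (L.actR U g)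

instance (P : Ideal (L.modelRing U)) [P.IsPrime] (g : GL (Fin 2) (ZMod L.frame.q)) :
    (pull P g).IsPrime := Ideal.IsPrime.comap _

lemma pull_mul (P : Ideal (L.modelRing U)) (g g' : GL (Fin 2) (ZMod L.frame.q)) :
    pull P (g * g') = pull (pull P g) g' := by
  rw [pull, actR_mul, ← Ideal.comap_comap]; rfl

lemma natCast_mem_pull {P : Ideal (L.modelRing U)} (hq : (L.frame.q : L.modelRing U) ∈ P)
    (g : GL (Fin 2) (ZMod L.frame.q)) : (L.frame.q : L.modelRing U) ∈ pull P g := by
  rw [pull, Ideal.mem_comap, map_natCast]; exact hq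

/-- The element `s` acts trivially modulo `P`, that is lies in the inertia group of `P`. -/
def IsInertia (P : Ideal (L.modelRing U)) (s : GL (Fin 2) (ZMod L.frame.q)) : Prop :=
  ∀ a : L.modelRing U, L.actR U s a - a ∈ P

lemma IsInertia.pull_eq {P : Ideal (L.modelRing U)} {s : GL (Fin 2) (ZMod L.frame.q)}
    (h : IsInertia P s) : pull P s = P := by
  ext a
  rw [pull, Ideal.mem_comap]
  exact ⟨fun ha => by simpa using P.sub_mem ha (h a),
    fun ha => by simpa using P.add_mem (h a) ha⟩

/-- A prime above `q` has a line such that every element trivial modulo it lies in inertia. -/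
lemma exists_line_inertia (P : Ideal (L.modelRing U)) [P.IsPrime]
    (hq : (L.frame.q : L.modelRing U) ∈ P) :
    ∃ v : Fin 2 → ZMod L.frame.q, v ≠ 0 ∧ ∀ g : GL (Fin 2) (ZMod L.frame.q),
      (∀ w, ∃ k : ZMod L.frame.q,
        (g : Matrix (Fin 2) (Fin 2) (ZMod L.frame.q)) *ᵥ w - w = k • v) → IsInertia P g := by
  obtain ⟨v, hv, h⟩ := exists_line P hq
  refine ⟨v, hv, fun g hg a => mem_of_forall_maximal hq fun x hx hPx => ?_⟩
  obtain ⟨w, hw⟩ := exists_sub_mem x (hPx hq) a
  have key : L.actR U g (a - L.baseHom U w) ∈ x :=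
    h g hg x hx hPx _ hw (L.actR U g (a - L.baseHom U w)).2
  have hfix : L.actR U g (L.baseHom U w) = L.baseHom U w :=
    Subtype.ext ((L.act g).commutes _)
  rw [map_sub, hfix] at key
  simpa using x.sub_mem key hw

end TateLevel

end Fermat.Agent.Carayol
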