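import Fermat.Agent.Carayol.Points
import Mathlib.RingTheory.FiniteType
import Mathlib.RingTheory.Localization.Submodule

/-!
# The localisation of a finitely generated subring at the centre of a local subring
-/

set_option autoImplicit false

namespace Fermat.Agent.Carayol

open IsLocalRing

variable {Ω : Type*} [Field Ω] {O : Subring Ω} [IsLocalRing O]

lemma inMax_iff {a : Ω} (h : a ∈ O) : InMax O a ↔ (⟨a, h⟩ : O) ∈ maximalIdeal O :=
  ⟨fun ⟨_, h'⟩ => h', fun h' => ⟨h, h'⟩⟩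

lemma inMax_zero : InMax O (0 : Ω) := ⟨zero_mem O, (maximalIdeal O).zero_mem⟩

lemma InMax.add {a a' : Ω} (h : InMax O a) (h' : InMax O a') : InMax O (a + a') :=
  ⟨add_mem h.1 h'.1, (maximalIdeal O).add_mem h.2 h'.2⟩

/-- The maximal ideal absorbs multiplication by `O` on the left. -/
lemma InMax.mul_left {a r : Ω} (hr : r ∈ O) (h : InMax O a) : InMax O (r * a) :=
  ⟨mul_mem hr h.1, (maximalIdeal O).mul_mem_left ⟨r, hr⟩ h.2⟩

/-- The maximal ideal absorbs multiplication by `O` on the right. -/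
lemma InMax.mul_right {a r : Ω} (hr : r ∈ O) (h : InMax O a) : InMax O (a * r) :=
  mul_comm r a ▸ h.mul_left hr

lemma InMax.neg {a : Ω} (h : InMax O a) : InMax O (-a) :=
  ⟨neg_mem h.1, (maximalIdeal O).neg_mem h.2⟩

lemma InMax.sub {a a' : Ω} (h : InMax O a) (h' : InMax O a') : InMax O (a - a') :=
  sub_eq_add_neg a a' ▸ h.add h'.neg

lemma not_inMax_one : ¬ InMax O (1 : Ω) := fun ⟨_, h⟩ => h isUnit_one

lemma InMax.mem_or_mem {a a' : Ω} (ha : a ∈ O) (ha' : a' ∈ O) (h : InMax O (a * a')) :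
    InMax O a ∨ InMax O a' :=
  ((maximalIdeal.isMaximal O).isPrime.mem_or_mem (x := ⟨a, ha⟩) (y := ⟨a', ha'⟩) h.2).imp
    (fun h => ⟨ha, h⟩) (fun h => ⟨ha', h⟩)

lemma not_inMax_mul {a a' : Ω} (ha : a ∈ O) (ha' : a' ∈ O) (h : ¬ InMax O a) (h' : ¬ InMax O a') :
    ¬ InMax O (a * a') := fun hm => (hm.mem_or_mem ha ha').elim h h'

/-- An element of `O` outside the maximal ideal is a unit of `O`. -/
lemma inv_mem_of_not_inMax {a : Ω} (ha : a ∈ O) (h : ¬ InMax O a) :
    a ≠ 0 ∧ a⁻¹ ∈ O ∧ ¬ InMax O a⁻¹ := by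
  have h0 : a ≠ 0 := fun e => h (e ▸ inMax_zero)
  obtain ⟨u, hu⟩ : IsUnit (⟨a, ha⟩ : O) := not_not.1 fun hn => h ⟨ha, hn⟩
  have e : ((↑u⁻¹ : O) : Ω) = a⁻¹ := by
    refine eq_inv_of_mul_eq_one_left ?_
    have := congrArg (fun x : O => (x : Ω)) u.inv_mul
    simpa [hu] using this
  refine ⟨h0, e ▸ (↑u⁻¹ : O).2, ?_⟩
  rintro hm
  exact not_inMax_one (O := O) (by simpa [h0] using hm.mul_left ha)

variable (A : Subring Ω) (h : A ≤ O)

/-- The centre of `O` on `A`. -/
def centre : Ideal A := (maximalIdeal O).comap (Subring.inclusion h)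

instance centre_isPrime : (centre A h).IsPrime := Ideal.IsPrime.comap _

/-- The localisation of `A` at the centre of `O`. -/
noncomputable def locRing : Subring Ω := (LocalSubring.ofPrime A (centre A h)).toSubring

instance : IsLocalRing (locRing A h) := (LocalSubring.ofPrime A (centre A h)).isLocalRing

noncomputable instance : Algebra A (locRing A h) :=
  inferInstanceAs (Algebra A (LocalSubring.ofPrime A (centre A h)).toSubring)

instance : IsLocalization.AtPrime (locRing A h) (centre A h) :=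
  inferInstanceAs (IsLocalization.AtPrime (LocalSubring.ofPrime A (centre A h)).toSubring _)

instance isNoetherianRing_locRing [IsNoetherianRing A] : IsNoetherianRing (locRing A h) :=
  IsLocalization.isNoetherianRing (centre A h).primeCompl (locRing A h) inferInstance

lemma le_locRing : A ≤ locRing A h := LocalSubring.le_ofPrime _ _

lemma mem_centre {a : A} : a ∈ centre A h ↔ InMax O (a : Ω) :=
  (inMax_iff (h a.2)).symm

lemma mem_locRing {x : Ω} :
    x ∈ locRing A h ↔ ∃ a ∈ A, ∃ d ∈ A, ¬ InMax O d ∧ x * d = a := by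
  constructor
  · intro hx
    obtain ⟨⟨a, d⟩, he⟩ := IsLocalization.surj (centre A h).primeCompl (⟨x, hx⟩ : locRing A h)
    exact ⟨_, a.2, _, d.1.2, fun hd => d.2 ((mem_centre A h).2 hd), congrArg Subtype.val he⟩
  · rintro ⟨a, ha, d, hd, hdm, e⟩
    obtain ⟨u, hu⟩ := IsLocalization.map_units (locRing A h)
      (⟨⟨d, hd⟩, fun hc => hdm ((mem_centre A h).1 hc)⟩ : (centre A h).primeCompl)
    have h1 := congrArg (fun z : locRing A h => (z : Ω)) u.inv_mul
    rw [hu] at h1
    have h2 : ((↑u⁻¹ : locRing A h) : Ω) * d = 1 := h1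
    rw [show x = a * ((↑u⁻¹ : locRing A h) : Ω) by
      rw [← e, mul_assoc, mul_comm d, h2, mul_one]]
    exact mul_mem (le_locRing A h ha) (↑u⁻¹ : locRing A h).2

lemma locRing_le : locRing A h ≤ O := by
  intro x hx
  obtain ⟨a, ha, d, hd, hdm, e⟩ := (mem_locRing A h).1 hx
  obtain ⟨h0, hi, -⟩ := inv_mem_of_not_inMax (h hd) hdm
  rw [show x = a * d⁻¹ by rw [← e, mul_assoc, mul_inv_cancel₀ h0, mul_one]]
  exact mul_mem (h ha) hi

lemma inMax_locRing {x : Ω} : InMax (locRing A h) x ↔ x ∈ locRing A h ∧ InMax O x := by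
  constructor
  · rintro hm
    refine ⟨hm.1, ?_⟩
    by_contra hxO
    obtain ⟨a, ha, d, hd, hdm, e⟩ := (mem_locRing A h).1 hm.1
    obtain ⟨hx0, -⟩ := inv_mem_of_not_inMax (locRing_le A h hm.1) hxO
    have ha' : ¬ InMax O a := e ▸ not_inMax_mul (locRing_le A h hm.1) (h hd) hxO hdm
    have hxi : x⁻¹ ∈ locRing A h := by
      refine (mem_locRing A h).2 ⟨d, hd, a, ha, ha', ?_⟩
      rw [← e]; field_simp
    exact not_inMax_one (O := locRing A h) (by simpa [hx0] using hm.mul_left hxi)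
  · rintro ⟨hx, hm⟩
    refine ⟨hx, fun hu => ?_⟩
    obtain ⟨u, hu⟩ := hu
    have := congrArg (fun z : locRing A h => (z : Ω)) u.inv_mul
    rw [hu] at this
    have h1 : InMax O (((↑u⁻¹ : locRing A h) : Ω) * x) :=
      hm.mul_left (locRing_le A h (↑u⁻¹ : locRing A h).2)
    rw [show ((↑u⁻¹ : locRing A h) : Ω) * x = 1 from this] at h1
    exact not_inMax_one h1

omit [IsLocalRing O] in
lemma isNoetherianRing_closure_union (W0 : Subring Ω) [IsNoetherianRing W0] {G : Set Ω}
    (hG : G.Finite) : IsNoetherianRing (Subring.closure ((W0 : Set Ω) ∪ G)) := by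
  have : Algebra.FiniteType W0 (Algebra.adjoin W0 G) :=
    ⟨(Subalgebra.fg_top _).2 ⟨hG.toFinset, by simp⟩⟩
  have hn : IsNoetherianRing (Algebra.adjoin W0 G) := Algebra.FiniteType.isNoetherianRing W0 _
  have e : (Algebra.adjoin W0 G).toSubring = Subring.closure ((W0 : Set Ω) ∪ G) := by
    rw [Algebra.adjoin_eq_ring_closure]
    congr 2
    ext a
    exact ⟨fun ⟨w, hw⟩ => hw ▸ w.2, fun ha => ⟨⟨a, ha⟩, rfl⟩⟩
  exact isNoetherianRing_of_ringEquiv _ (RingEquiv.subringCongr e)

end Fermat.Agent.Carayol
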