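import Fermat.Agent.Carayol.Cst

/-!
# The local ring attached to a kernel point

`KerData`: a closed point with a nonzero `q`-torsion point in the kernel of reduction, of parameter
`s`. The local ring `B` is the localisation of the ring generated over the base by `b`, `c`, the
coordinates of mixed torsion points and the parameters of that point; `s` divides `q` in `B` and
the translations by that point are trivial modulo `s` (`exists_translate`).
-/

set_option autoImplicit false

namespace Fermat.Agent.Carayol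

open WeierstrassCurve

variable {Ω : Type*} [Field Ω] [DecidableEq Ω] {b c : Ω}

/-- A closed point together with a nonzero `q`-torsion point `qTors v0` in the kernel of
reduction. -/
structure KerData (T : TorsFrame b c) (F : GoodFibre b c) (W0 : Subring Ω) (j : Ω) where
  ov : Over T F W0 j
  v0 : Fin 2 → ZMod T.q
  hv0 : v0 ≠ 0
  hinf : F.Inf (T.qTors v0)

namespace KerData

variable {T : TorsFrame b c} {F : GoodFibre b c} {W0 : Subring Ω} {j : Ω}
variable (D : KerData T F W0 j)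

/-- The finitely generated subring. -/
abbrev A : Subring Ω := T.genRing W0 D.v0

lemma A_le : D.A ≤ F.O := D.ov.genRing_le D.hinf

/-- Its localisation. -/
noncomputable abbrev B : Subring Ω := locRing D.A D.A_le

/-- The localisation `B` lies in the local ring `F.O`. -/
lemma B_le : D.B ≤ F.O := locRing_le _ _

lemma W0_le_B : W0 ≤ D.B := fun _ hw => le_locRing _ _ (Subring.subset_closure (Or.inl hw))

lemma gens_mem_B {x : Ω} (hx : x ∈ T.gens D.v0) : x ∈ D.B :=
  le_locRing _ _ (Subring.subset_closure (Or.inr hx))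

lemma b_mem_B : b ∈ D.B := D.gens_mem_B (by simp [TorsFrame.gens])

lemma c_mem_B : c ∈ D.B := D.gens_mem_B (by simp [TorsFrame.gens])

/-- The coordinates of the mixed points lie in `B`. -/
lemma coord_mem_B {x y : Ω} {h : (tateCurve b c).toAffine.Nonsingular x y}
    (hP : Affine.Point.some x y h ∈ T.mixed) : x ∈ D.B ∧ y ∈ D.B :=
  ⟨le_locRing _ _ (Over.mem_genRing_of_coord D.v0 hP (Or.inl rfl)),
    le_locRing _ _ (Over.mem_genRing_of_coord D.v0 hP (Or.inr rfl))⟩

/-- The maximal ideal of `B` is the trace of that of `F.O`. -/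
lemma inMax_B {x : Ω} : InMax D.B x ↔ x ∈ D.B ∧ InMax F.O x := inMax_locRing _ _

/-- Every element of the local ring is congruent to an element of the base `W0`. -/
lemma res_B (x : D.B) : ∃ w ∈ W0, InMax D.B ((x : Ω) - w) := by
  obtain ⟨w, hw, hm⟩ := D.ov.res _ (D.B_le x.2)
  exact ⟨w, hw, D.inMax_B.2 ⟨sub_mem x.2 (D.W0_le_B hw), hm⟩⟩

lemma unit_B (w : Ω) (hw : w ∈ W0) (h : ¬ InMax D.B w) : w⁻¹ ∈ W0 :=
  D.ov.unit w hw fun hm => h (D.inMax_B.2 ⟨D.W0_le_B hw, hm⟩)

/-- The parameter of the kernel point. -/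
def s : Ω := sPar (T.qTors D.v0)

lemma s_mem : D.s ∈ D.B := D.gens_mem_B (by simp [TorsFrame.gens, s])

lemma kerPoint : ∃ xP yP, ∃ h : (tateCurve b c).toAffine.Nonsingular xP yP,
    T.qTors D.v0 = .some xP yP h ∧ xP ≠ 0 ∧ yP ≠ 0 ∧ InMax D.B (xP / yP) ∧
      InMax D.B (1 / yP) ∧ D.s = xP / yP := by
  obtain ⟨xP, yP, h, e, h0, h0', hs, ht⟩ := D.hinf
  refine ⟨xP, yP, h, e, h0, h0', D.inMax_B.2 ⟨?_, hs⟩, D.inMax_B.2 ⟨?_, ht⟩, ?_⟩
  · have := D.gens_mem_B (x := sPar (T.qTors D.v0)) (by simp [TorsFrame.gens])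
    rwa [e, sPar_some] at this
  · have := D.gens_mem_B (x := tPar (T.qTors D.v0)) (by simp [TorsFrame.gens])
    rwa [e, tPar_some] at this
  · rw [s, e, sPar_some]

lemma s_ne_zero : D.s ≠ 0 := by
  obtain ⟨xP, yP, -, -, h0, h0', -, -, e⟩ := D.kerPoint
  rw [e]; exact div_ne_zero h0 h0'

lemma inMax_s : InMax D.B D.s := by
  obtain ⟨_, _, -, -, -, -, hs, -, e⟩ := D.kerPoint
  rw [e]; exact hs

lemma mixed_add {P : (tateCurve b c).toAffine.Point} (hP : P ∈ T.mixed) (v : Fin 2 → ZMod T.q) :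
    P + T.qTors v ∈ T.mixed := by
  obtain ⟨a, u, ha, h0, rfl⟩ := hP
  exact ⟨a, u + v, ha, h0, by rw [map_add, add_assoc]⟩

/-- Coordinates of a translate by a multiple of the kernel point. -/
lemma exists_translate {xA yA : Ω} {hA : (tateCurve b c).toAffine.Nonsingular xA yA}
    (hP : Affine.Point.some _ _ hA ∈ T.mixed) (k : ℕ) :
    ∃ x y, ∃ h : (tateCurve b c).toAffine.Nonsingular x y,
      Affine.Point.some _ _ hA + k • T.qTors D.v0 = .some x y h ∧
      ∃ β ∈ D.B, ∃ γ ∈ D.B, x = xA - k * D.s * (2 * yA + (1 - c) * xA + -b) + D.s ^ 2 * β ∧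
        y = yA + D.s * γ := by
  induction k with
  | zero =>
    exact ⟨xA, yA, hA, by simp, 0, zero_mem _, 0, zero_mem _, by simp, by simp⟩
  | succ k ih =>
    obtain ⟨x, y, h, e, β, hβ, γ, hγ, ex, ey⟩ := ih
    obtain ⟨xP, yP, hP', eP, h0, h0', hs, ht, es⟩ := D.kerPoint
    have hm : Affine.Point.some x y h ∈ T.mixed := by
      rw [← e, ← map_nsmul]; exact mixed_add hP _
    obtain ⟨x', y', h', e', -, -, β', γ', hβ', hγ', ex', ey'⟩ :=
      add_infinite_coords D.B D.b_mem_B D.c_mem_B (hA := h) (D.coord_mem_B hm).1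
        (D.coord_mem_B hm).2 (hP := hP') h0 h0' hs ht
    obtain ⟨hxA, hyA⟩ := D.coord_mem_B hP
    refine ⟨x', y', h', by rw [succ_nsmul, ← add_assoc, e, eP, e'],
      β + β' - (2 * γ + (1 - c) * (-(k : Ω) * (2 * yA + (1 - c) * xA + -b) + D.s * β)), ?_,
      γ + γ', add_mem hγ hγ', ?_, ?_⟩
    · exact sub_mem (add_mem hβ hβ') (add_mem (mul_mem (ofNat_mem _ 2) hγ)
        (mul_mem (sub_mem (one_mem _) D.c_mem_B) (add_mem (mul_mem (neg_mem (natCast_mem _ k))
          (add_mem (add_mem (mul_mem (ofNat_mem _ 2) hyA)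
            (mul_mem (sub_mem (one_mem _) D.c_mem_B) hxA)) (neg_mem D.b_mem_B)))
          (mul_mem D.s_mem hβ))))
    · rw [ex', ← es, ex, ey]; push_cast; ring
    · rw [ey', ← es, ey]; ring

variable [Fact T.q.Prime]

/-- `q` is divisible by `s`. -/
lemma exists_q_eq : ∃ β ∈ D.B, (T.q : Ω) = D.s * β := by
  have hR : (1 : ℕ) • T.R ∈ T.mixed := by
    simpa using Over.nsmul_R_mem (T := T) (k := 1) (by simp) 0
  rw [one_nsmul] at hR
  have h0 : (tateCurve b c).toAffine.Nonsingular 0 0 := tate_nonsingular_zero T.hb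
  have eR : T.R = Affine.Point.some 0 0 h0 := rfl
  rw [eR] at hR
  obtain ⟨x, y, h, e, β, hβ, γ, -, ex, -⟩ := D.exists_translate (hA := h0) hR T.q
  rw [T.nsmul_qTors, add_zero] at e
  have hx := (Affine.Point.some.inj e).1
  rw [← hx] at ex
  have hbB : ¬ InMax D.B b := fun h => D.ov.units.1 (D.inMax_B.1 h).2
  obtain ⟨hb0, hbi, -⟩ := inv_mem_of_not_inMax D.b_mem_B hbB
  refine ⟨-β * b⁻¹, mul_mem (neg_mem hβ) hbi, mul_left_cancel₀ D.s_ne_zero ?_⟩
  field_simp
  linear_combination -ex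

end KerData

end Fermat.Agent.Carayol
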