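import Mathlib.RingTheory.UniqueFactorizationDomain.Kaplansky
import Mathlib.RingTheory.DiscreteValuationRing.TFAE
import Mathlib.RingTheory.Nakayama
import Mathlib.Tactic

/-!
# Two generated two dimensional local domains are factorial

If the maximal ideal of a Noetherian local domain `A` is `(s, t)`, `s ≠ 0`, and `A ⧸ (s)` has a
non-maximal prime, then `A` is a unique factorisation domain and `s` is prime.
-/

set_option autoImplicit false

namespace Fermat.Agent.Carayol

open IsLocalRing

variable {A : Type*} [CommRing A]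

/-- A Noetherian local ring with principal maximal ideal which has a non-maximal prime is a
domain. -/
lemma bot_isPrime_of_principal [IsLocalRing A] [IsNoetherianRing A] {t : A}
    (ht : maximalIdeal A = Ideal.span {t}) (P : Ideal A) [P.IsPrime] (hP : P ≠ maximalIdeal A) :
    (⊥ : Ideal A).IsPrime := by
  suffices hP0 : P = ⊥ by rw [← hP0]; infer_instance
  have htP : t ∉ P := fun h => hP (le_antisymm (le_maximalIdeal (Ideal.IsPrime.ne_top ‹_›))
    (by rw [ht, Ideal.span_singleton_le_iff_mem]; exact h))
  have hle : P ≤ Ideal.span {t} • P := by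
    intro a ha
    have : a ∈ Ideal.span {t} := ht ▸ le_maximalIdeal (Ideal.IsPrime.ne_top ‹_›) ha
    obtain ⟨c, rfl⟩ := Ideal.mem_span_singleton.1 this
    have hc : c ∈ P := ((Ideal.IsPrime.mem_or_mem ‹_›) ha).resolve_left htP
    exact Submodule.smul_mem_smul (Ideal.mem_span_singleton_self t) hc
  exact Submodule.eq_bot_of_le_smul_of_le_jacobson_bot _ P (IsNoetherian.noetherian P) hle
    (by rw [jacobson_eq_maximalIdeal _ bot_ne_top, ht])

variable [IsDomain A] [IsLocalRing A] [IsNoetherianRing A]

omit [IsDomain A] in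
/-- The quotient by `s` is a domain. -/
theorem prime_of_maximalIdeal_eq_pair {s t : A} (hs : s ≠ 0)
    (hm : maximalIdeal A = Ideal.span {s, t}) (P : Ideal A) [P.IsPrime] (hsP : s ∈ P)
    (hP : P ≠ maximalIdeal A) : Prime s := by
  rw [← Ideal.span_singleton_prime hs]
  set I : Ideal A := Ideal.span {s} with hI
  have hIP : I ≤ P := (Ideal.span_singleton_le_iff_mem P).2 hsP
  have : Nontrivial (A ⧸ I) := Ideal.Quotient.nontrivial_iff.2
    (fun h => Ideal.IsPrime.ne_top ‹P.IsPrime› (top_le_iff.1 (h ▸ hIP)))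
  have hsurj : Function.Surjective (Ideal.Quotient.mk I) := Ideal.Quotient.mk_surjective
  have : IsLocalRing (A ⧸ I) := IsLocalRing.of_surjective' _ hsurj
  have : IsLocalHom (Ideal.Quotient.mk I) := .of_surjective _ hsurj
  -- Modulo `s` the maximal ideal is principal.
  have hmax : maximalIdeal (A ⧸ I) = Ideal.span {Ideal.Quotient.mk I t} := by
    have h1 : (maximalIdeal A).map (Ideal.Quotient.mk I) = maximalIdeal (A ⧸ I) := by
      refine le_antisymm ?_ ?_
      · refine le_maximalIdeal fun h => ?_
        rcases Ideal.map_eq_top_or_isMaximal_of_surjective _ hsurj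
          (IsLocalRing.maximalIdeal.isMaximal A) with h' | h'
        · have : Ideal.comap (Ideal.Quotient.mk I) ((maximalIdeal A).map (Ideal.Quotient.mk I)) =
              ⊤ := by
            rw [h, Ideal.comap_top]
          rw [Ideal.comap_map_of_surjective _ hsurj, ← RingHom.ker_eq_comap_bot,
            Ideal.mk_ker, sup_eq_left.2 (hIP.trans (le_maximalIdeal (Ideal.IsPrime.ne_top ‹_›)))]
            at this
          exact (IsLocalRing.maximalIdeal.isMaximal A).ne_top this
        · exact h'.ne_top h
      · intro a ha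
        obtain ⟨b, rfl⟩ := hsurj a
        exact Ideal.mem_map_of_mem (Ideal.Quotient.mk I) (fun hb : IsUnit b => ha (hb.map _))
    rw [← h1, hm, Ideal.map_span, Set.image_pair]
    have : Ideal.Quotient.mk I s = 0 :=
      Ideal.Quotient.eq_zero_iff_mem.2 (Ideal.mem_span_singleton_self s)
    rw [this, Ideal.span_insert_zero]
  -- A prime strictly below it then forces zero to be prime.
  have hPq : (P.map (Ideal.Quotient.mk I)).IsPrime :=
    Ideal.map_isPrime_of_surjective hsurj (by rwa [Ideal.mk_ker])
  have hPq' : P.map (Ideal.Quotient.mk I) ≠ maximalIdeal (A ⧸ I) := by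
    intro h
    refine hP (le_antisymm (le_maximalIdeal (Ideal.IsPrime.ne_top ‹_›)) fun a ha => ?_)
    have : Ideal.Quotient.mk I a ∈ P.map (Ideal.Quotient.mk I) := by
      rw [h]; exact fun hu => ha (isUnit_of_map_unit _ a hu)
    obtain ⟨b, hb, hab⟩ := (Ideal.mem_map_iff_of_surjective _ hsurj).1 this
    rw [Ideal.Quotient.eq] at hab
    simpa using sub_mem hb (hIP hab)
  have := bot_isPrime_of_principal hmax (P.map (Ideal.Quotient.mk I))
    hPq'
  have := Ideal.IsPrime.comap (Ideal.Quotient.mk I) (K := (⊥ : Ideal (A ⧸ I)))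
  rwa [← RingHom.ker_eq_comap_bot, Ideal.mk_ker] at this

/-- A two generated local domain of dimension two is factorial. -/
theorem ufd_of_maximalIdeal_eq_pair {s t : A} (hs : s ≠ 0)
    (hm : maximalIdeal A = Ideal.span {s, t}) (P : Ideal A) [P.IsPrime] (hsP : s ∈ P)
    (hP : P ≠ maximalIdeal A) : UniqueFactorizationMonoid A := by
  have hps := prime_of_maximalIdeal_eq_pair hs hm P hsP hP
  have hIprime : (Ideal.span {s} : Ideal A).IsPrime := (Ideal.span_singleton_prime hs).2 hps
  set I : Ideal A := Ideal.span {s} with hI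
  have hsurj : Function.Surjective (Ideal.Quotient.mk I) := Ideal.Quotient.mk_surjective
  have : IsLocalRing (A ⧸ I) := IsLocalRing.of_surjective' _ hsurj
  have : IsLocalHom (Ideal.Quotient.mk I) := .of_surjective _ hsurj
  -- The quotient by `s` is a discrete valuation ring.
  have hPIR : IsPrincipalIdealRing (A ⧸ I) := by
    refine ((tfae_of_isNoetherianRing_of_isLocalRing_of_isDomain (A ⧸ I)).out 0 4).2 ?_
    refine ⟨⟨Ideal.Quotient.mk I t, le_antisymm (fun a ha => ?_) ?_⟩⟩
    · obtain ⟨b, rfl⟩ := hsurj a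
      have hb : b ∈ maximalIdeal A := fun hu => ha (hu.map _)
      rw [hm, Ideal.mem_span_pair] at hb
      obtain ⟨u, v, rfl⟩ := hb
      refine Ideal.mem_span_singleton.2 ⟨Ideal.Quotient.mk I v, ?_⟩
      rw [map_add, map_mul, map_mul,
        Ideal.Quotient.eq_zero_iff_mem.2 (Ideal.mem_span_singleton_self s)]
      ring
    · rw [Submodule.span_singleton_le_iff_mem]
      intro hu
      refine (?_ : ¬ IsUnit t) (isUnit_of_map_unit _ t hu)
      rw [← mem_nonunits_iff, ← IsLocalRing.mem_maximalIdeal, hm]
      exact Ideal.subset_span (by simp)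
  refine UniqueFactorizationMonoid.iff_exists_prime_mem_of_isPrime.mpr fun p hp0 hp => ?_
  by_cases hsp : s ∈ p
  · exact ⟨s, hsp, hps⟩
  -- A prime avoiding `s` is generated by a lift of a generator of its image, by Nakayama.
  obtain ⟨g', hg'⟩ := (IsPrincipalIdealRing.principal (p.map (Ideal.Quotient.mk I))).1
  obtain ⟨g, hgp, rfl⟩ := (Ideal.mem_map_iff_of_surjective _ hsurj).1
    (by rw [hg']; exact Submodule.mem_span_singleton_self g' :
      g' ∈ p.map (Ideal.Quotient.mk I))
  have hle : p ≤ Ideal.span {g} ⊔ Ideal.span {s} • p := by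
    intro a ha
    have : Ideal.Quotient.mk I a ∈ p.map (Ideal.Quotient.mk I) := Ideal.mem_map_of_mem _ ha
    rw [hg'] at this
    obtain ⟨c, hc⟩ := Ideal.mem_span_singleton.1 this
    obtain ⟨c, rfl⟩ := hsurj c
    rw [← map_mul, Ideal.Quotient.eq, hI, Ideal.mem_span_singleton] at hc
    obtain ⟨d, hd⟩ := hc
    have hdp : d ∈ p :=
      ((hp.mem_or_mem (hd ▸ sub_mem ha (p.mul_mem_right c hgp) : s * d ∈ p)).resolve_left hsp)
    rw [show a = g * c + s • d by rw [smul_eq_mul]; linear_combination hd]
    exact Submodule.add_mem_sup (Ideal.mem_span_singleton.2 ⟨c, rfl⟩)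
      (Submodule.smul_mem_smul (Ideal.mem_span_singleton_self s) hdp)
  have hpg : p = Ideal.span {g} := by
    refine le_antisymm ?_ ((Ideal.span_singleton_le_iff_mem p).2 hgp)
    refine Submodule.le_of_le_smul_of_le_jacobson_bot (IsNoetherian.noetherian p) ?_ hle
    rw [jacobson_eq_maximalIdeal _ bot_ne_top, hm]
    exact Ideal.span_mono (by simp)
  refine ⟨g, hgp, (Ideal.span_singleton_prime ?_).1 (hpg ▸ hp)⟩
  rintro rfl
  exact hp0 (by simpa using hpg)

end Fermat.Agent.Carayol
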