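import Fermat.Agent.Carayol.CuspEmb
import Mathlib.FieldTheory.Galois.Basic
import Mathlib.FieldTheory.KummerExtension
import Mathlib.RingTheory.Algebraic.Integral

/-!
# Rigidity of coherent roots

A function which is coherently an `m`-th power near every point of the special fibre and whose
divisor is divisible by `m` is an `m`-th power: the trace of an idempotent expands at a cusp as a
polynomial in `j`, so the cover defined by a root has a connected special fibre.

The main theorems are `CuspEmb.exists_pow_eq` and its consequence `exists_const_mul_pow`.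
-/

set_option autoImplicit false

noncomputable section

namespace Fermat.Agent.Carayol

open WeierstrassCurve IsLocalRing Polynomial WithZero

variable {K Ω : Type*} [Field K] [Field Ω] [Algebra K Ω] [DecidableEq Ω]

/-! ### Labellings and invariant sums -/

/-- Approximation of an idempotent. -/
lemma gauss_approx {F : Type*} [Field F] (v : Valuation F ℤᵐ⁰) {x : F} {n : ℕ} :
    (v x < 1 → v (1 - (1 - x ^ n) ^ n) ≤ exp (-(n : ℤ))) ∧
    (v (x - 1) < 1 → v (1 - (1 - x ^ n) ^ n - 1) ≤ exp (-(n : ℤ))) := by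
  have hpow : ∀ y : F, v y < 1 → v (y ^ n) ≤ exp (-(n : ℤ)) := fun y hy => by
    rw [map_pow]
    rcases eq_or_ne (v y) 0 with h0 | h0
    · rcases eq_or_ne n 0 with rfl | hn
      · simp
      · simp [h0, zero_pow hn]
    refine (pow_le_pow_left₀ zero_le (?_ : v y ≤ exp (-1 : ℤ)) n).trans_eq ?_
    · rw [← exp_log h0, exp_le_exp]
      rw [← exp_log h0, ← exp_zero, exp_lt_exp] at hy
      omega
    · rw [← exp_nsmul, nsmul_eq_mul, mul_neg_one]
  constructor <;> intro hx
  · obtain ⟨c, hc⟩ : ∃ c, 1 - (1 - x ^ n) ^ n = x ^ n * c ∧ v c ≤ 1 := by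
      refine ⟨∑ i ∈ Finset.range n, (1 - x ^ n) ^ i, ?_, ?_⟩
      · have := geom_sum_mul_neg (1 - x ^ n) n
        rw [sub_sub_cancel] at this
        rw [← this, mul_comm]
      · refine v.map_sum_le fun i _ => ?_
        rw [map_pow]
        refine pow_le_one' ((v.map_sub _ _).trans (max_le (map_one v).le ?_)) _
        rw [map_pow]
        exact pow_le_one' hx.le _
    rw [hc.1, map_mul]
    exact (mul_le_of_le_one_right' hc.2).trans (hpow x hx)
  · rw [sub_sub_cancel_left, Valuation.map_neg]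
    refine hpow _ ?_
    have h1 : v x = 1 := (v.map_eq_of_sub_lt (by rwa [map_one])).trans (map_one v)
    rw [← geom_sum_mul_neg x n, map_mul, Valuation.map_sub_swap]
    refine lt_of_le_of_lt (mul_le_of_le_one_left' (v.map_sum_le fun i _ => ?_)) hx
    rw [map_pow, h1, one_pow]

/-- The composite of a normal extension with a splitting field. -/
lemma exists_galois_composite {k M F : Type*} [Field k] [Field M] [Field F] [Algebra k M]
    [Algebra k F] [Normal k M] [FiniteDimensional k M] [CharZero k] (σ : M →ₐ[k] F) (p : k[X])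
    (hp : (p.map (algebraMap k F)).Splits) :
    ∃ E : IntermediateField k F, FiniteDimensional k E ∧ IsGalois k E ∧ (∀ z, σ z ∈ E) ∧
      p.rootSet F ⊆ E := by
  have : p.IsSplittingField k (IntermediateField.adjoin k (p.rootSet F)) :=
    IntermediateField.adjoin_rootSet_isSplittingField hp
  have : Normal k (IntermediateField.adjoin k (p.rootSet F)) := Normal.of_isSplittingField p
  have : FiniteDimensional k (IntermediateField.adjoin k (p.rootSet F)) :=
    Polynomial.IsSplittingField.finiteDimensional _ p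
  have : Normal k σ.fieldRange := Normal.of_algEquiv (AlgEquiv.ofInjectiveField σ)
  have : FiniteDimensional k σ.fieldRange :=
    LinearEquiv.finiteDimensional (AlgEquiv.ofInjectiveField σ).toLinearEquiv
  refine ⟨σ.fieldRange ⊔ IntermediateField.adjoin k (p.rootSet F), inferInstance, ⟨⟩,
    fun z => le_sup_left (a := σ.fieldRange) ⟨z, rfl⟩, fun y hy => ?_⟩
  exact le_sup_right (a := σ.fieldRange) (IntermediateField.subset_adjoin _ _ hy)

/-- By independence of the automorphisms, coefficients of invariant combinations are constant. -/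
private theorem coeff_const_of_forall_fixed {k F : Type*} [Field k] [Field F] [Algebra k F]
    [FiniteDimensional k F] {c : (F ≃ₐ[k] F) → F} (hc : ∀ (δ : F ≃ₐ[k] F) γ, δ (c γ) = c γ)
    (hfix : ∀ (δ : F ≃ₐ[k] F) (a : F), δ (∑ γ, c γ * γ a) = ∑ γ, c γ * γ a)
    (δ γ : F ≃ₐ[k] F) : c (δ⁻¹ * γ) = c γ := by
  have hli := (linearIndependent_monoidHom F F).comp
    (fun γ : F ≃ₐ[k] F => (γ.toRingEquiv.toRingHom.toMonoidHom : F →* F))
    (fun γ γ' h => AlgEquiv.ext fun x => congrArg (fun φ : F →* F => φ x) h)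
  refine sub_eq_zero.1 (Fintype.linearIndependent_iff.1 hli
    (fun γ => c (δ⁻¹ * γ) - c γ) ?_ γ)
  funext a
  simp only [Finset.sum_apply, Pi.smul_apply, smul_eq_mul, Function.comp_apply, Pi.zero_apply,
    sub_mul, Finset.sum_sub_distrib, sub_eq_zero]
  refine Eq.trans ?_ (hfix δ a)
  rw [map_sum]
  refine Fintype.sum_equiv (Equiv.mulLeft δ⁻¹) _ _ fun γ => ?_
  simp only [Equiv.coe_mulLeft, map_mul, AlgEquiv.mul_apply]
  rw [hc,
    ← AlgEquiv.mul_apply δ, mul_inv_cancel]
  rfl

/-- Invariance of combinations extends from integral elements to all. -/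
private theorem forall_fixed_of_forall_integral_fixed {R k F : Type*} [CommRing R] [IsDomain R]
    [Field k] [Field F] [Algebra R k] [IsFractionRing R k] [Algebra k F] [Algebra R F]
    [IsScalarTower R k F] [FiniteDimensional k F] {e : (F ≃ₐ[k] F) → F}
    (hfix : ∀ (δ : F ≃ₐ[k] F) (a : F), IsIntegral R a →
      δ (∑ γ, e γ * γ a) = ∑ γ, e γ * γ a) (δ : F ≃ₐ[k] F) (a : F) :
    δ (∑ γ, e γ * γ a) = ∑ γ, e γ * γ a := by
  have : Algebra.IsAlgebraic k F := Algebra.IsAlgebraic.of_finite _ _
  obtain ⟨c, hc, hint⟩ := ((IsFractionRing.isAlgebraic_iff R k F).2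
    (Algebra.IsAlgebraic.isAlgebraic a)).exists_integral_multiple
  have h := hfix δ (c • a) hint
  have hsmul : ∀ γ : F ≃ₐ[k] F, γ (c • a) = c • γ a := fun γ => by
    rw [Algebra.smul_def, Algebra.smul_def, map_mul, IsScalarTower.algebraMap_apply
      R k F, AlgEquiv.commutes]
  simp only [hsmul, mul_smul_comm, ← Finset.smul_sum] at h
  have hc' : algebraMap R F c ≠ 0 := by
    rw [IsScalarTower.algebraMap_apply R k F, _root_.map_ne_zero]
    exact (map_ne_zero_iff _ (IsFractionRing.injective R k)).2 hc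
  rw [Algebra.smul_def, map_mul, IsScalarTower.algebraMap_apply R k F,
    AlgEquiv.commutes, ← IsScalarTower.algebraMap_apply] at h
  exact mul_left_cancel₀ hc' h

/-- The `m`-th power of a root twisted by a denominator. -/
private theorem twisted_root_pow {k F G : Type*} [Field k] [Field F] [Field G] [Algebra k F]
    [Algebra k G] (j : F →ₐ[k] G) {m : ℕ} (hm0 : m ≠ 0) {u h a d : F} {ρ : G} (hρ : ρ ^ m = j u)
    (ha : a = u / h ^ m * d) : (j d * (ρ / j h)) ^ m = j (a * d ^ (m - 1)) := by
  rw [mul_pow, div_pow, hρ, ← map_pow, ← map_pow, ← map_div₀, ← map_mul, ha]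
  congr 1
  obtain ⟨n, rfl⟩ : ∃ n, m = n + 1 := ⟨m - 1, by omega⟩
  rw [Nat.add_sub_cancel]
  ring

/-- If ideals with different labels are coprime, some element is congruent to `1` modulo the ideals
labelled `k` and to `0` modulo the others. -/
private theorem exists_separating {G B : Type*} [Fintype G] [CommRing B] (Q : G → Ideal B)
    {lab : G → ℕ} (hcop : ∀ γ γ', lab γ ≠ lab γ' → Q γ ⊔ Q γ' = ⊤) (k : ℕ) :
    ∃ e : B, (∀ γ, lab γ ≠ k → e ∈ Q γ) ∧ ∀ γ, lab γ = k → e - 1 ∈ Q γ := by
  classical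
  have htop : (∏ γ ∈ Finset.univ.filter fun γ => lab γ ≠ k, Q γ) ⊔
      (∏ γ ∈ Finset.univ.filter fun γ => lab γ = k, Q γ) = ⊤ := by
    refine Ideal.prod_sup_eq_top fun γ hγ => Ideal.sup_prod_eq_top fun γ' hγ' => hcop γ γ' ?_
    simp only [Finset.mem_filter] at hγ hγ'
    exact hγ'.2 ▸ hγ.2
  rw [Ideal.eq_top_iff_one, Submodule.mem_sup] at htop
  obtain ⟨e, he, e', he', hsum⟩ := htop
  refine ⟨e, fun γ hγ => ?_, fun γ hγ => ?_⟩
  · exact (Ideal.le_of_dvd (Finset.dvd_prod_of_mem Q (by simp [hγ]))) he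
  · rw [show e - 1 = -e' by rw [← hsum]; ring]
    exact (Q γ).neg_mem ((Ideal.le_of_dvd (Finset.dvd_prod_of_mem Q (by simp [hγ]))) he')

/-- A labelling of the automorphisms whose fibre sums are invariant on integral elements is
constant. -/
private theorem label_eq_of_fibre_sums_fixed {R k F : Type*} [CommRing R] [IsDomain R] [Field k]
    [Field F] [Algebra R k] [IsFractionRing R k] [Algebra k F] [Algebra R F] [IsScalarTower R k F]
    [FiniteDimensional k F] {lab : (F ≃ₐ[k] F) → ℕ}
    (hfix : ∀ (l : ℕ) (δ : F ≃ₐ[k] F) (a : F), IsIntegral R a →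
      δ (∑ γ, (if lab γ = l then 1 else 0) * γ a) = ∑ γ, (if lab γ = l then 1 else 0) * γ a)
    (δ : F ≃ₐ[k] F) : lab δ = lab 1 := by
  classical
  have := coeff_const_of_forall_fixed (c := fun γ => if lab γ = lab 1 then (1 : F) else 0)
    (fun δ γ => by split_ifs <;> simp)
    (forall_fixed_of_forall_integral_fixed (R := R) (hfix (lab 1))) δ⁻¹ 1
  simp only [inv_inv, mul_one, if_true] at this
  by_contra h
  rw [if_neg h] at this
  exact one_ne_zero this.symm

/-! ### Roots near the cusps -/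

namespace CuspEmb

open SerBase TateLevel

variable {L : TateLevel K Ω} {U : UnramBase K L.frame.q} {S : SerBase U} (C : CuspEmb L S)

omit C in
/-- A unit whose `m`-th power is near `1` is near a root of unity. -/
private theorem exists_near_root_of_unity {m : ℕ} (hm0 : m ≠ 0) {ζ : U.W}
    (hζF : IsPrimitiveRoot (S.cst ζ) m) {y : S.SerF} (hy : S.gauss (y ^ m - 1) < 1)
    (hy1 : S.gauss y = 1) : ∃ i, i < m ∧ S.gauss (y - S.cst (ζ ^ i)) < 1 := by
  by_contra! hn
  have hprod := congrArg (fun p => p.eval y)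
    (X_pow_sub_C_eq_prod hζF (Nat.pos_of_ne_zero hm0) (one_pow m : (1 : S.SerF) ^ m = 1))
  simp only [map_one, eval_sub, eval_pow, eval_X, eval_one, eval_prod, eval_C, mul_one] at hprod
  have := hy
  rw [hprod, map_prod] at this
  refine absurd this (not_lt.2 ?_)
  refine le_of_eq (Finset.prod_eq_one fun i hi => ?_).symm
  rw [← map_pow]
  refine le_antisymm ((Valuation.map_sub _ _ _).trans (max_le hy1.le
    (SerBase.gauss_le_one_of_bd (SerBase.bd_cst _)))) (hn i (Finset.mem_range.1 hi))

/-- Traces of approximate idempotents: a partial trace is a limit of polynomials in `j`. -/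
private theorem exists_poly_near_partial_trace {E : Type*} [Field E] [Algebra L.lineField E]
    [FiniteDimensional L.lineField E] [IsGalois L.lineField E] [Algebra (L.lineRing U) E]
    [IsScalarTower (L.lineRing U) L.lineField E] (jE : Ω →ₐ[L.lineField] E)
    (halg : ∀ r : L.lineRing U, algebraMap (L.lineRing U) E r = jE (r : Ω))
    (ι : E →+* S.SerF) (hι : ∀ z, ι (jE z) = C.σ z) (q : (E ≃ₐ[L.lineField] E) → Prop)
    [DecidablePred q] (e a : integralClosure (L.lineRing U) E)
    (hle1 : ∀ γ : E ≃ₐ[L.lineField] E, S.gauss (ι (γ (a : E))) ≤ 1)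
    (he0 : ∀ γ, ¬ q γ → S.gauss (ι (γ (e : E))) < 1)
    (he1 : ∀ γ, q γ → S.gauss (ι (γ (e : E)) - 1) < 1) (n : ℕ) :
    ∃ p : U.W[X], S.gauss (SerBase.evalSer (C.σ L.j) p -
      ι (∑ γ, (if q γ then 1 else 0) * γ (a : E))) ≤ exp (-(n : ℤ)) := by
  -- `f` approximates the indicator of `q`; let `T` be the trace of `f * a`.
  set f : integralClosure (L.lineRing U) E := 1 - (1 - e ^ n) ^ n
  set T : E := ∑ γ : E ≃ₐ[L.lineField] E, γ ((f * a : integralClosure (L.lineRing U) E) : E)
  have hT : T ∈ Set.range (algebraMap L.lineField E) := by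
    refine (IsGalois.mem_range_algebraMap_iff_fixed _).2 fun δ => ?_
    rw [map_sum]
    exact Fintype.sum_equiv (Equiv.mulLeft δ) _ _ fun γ => rfl
  obtain ⟨t, ht⟩ := hT
  -- `T` is integral over the line ring, hence a polynomial in `j`.
  have htint : IsIntegral (L.lineRing U) t := by
    refine (isIntegral_algHom_iff (IsScalarTower.toAlgHom (L.lineRing U) L.lineField E)
      (algebraMap L.lineField E).injective).1 ?_
    show IsIntegral _ (algebraMap L.lineField E t)
    rw [ht]
    exact IsIntegral.sum _ fun γ _ => (f * a).2.map (γ.toAlgHom.restrictScalars (L.lineRing U))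
  obtain ⟨r, hr⟩ := IsIntegrallyClosed.algebraMap_eq_of_integral htint
  obtain ⟨p, rfl⟩ := (L.polyEquiv U).surjective r
  refine ⟨p, ?_⟩
  have hιT : SerBase.evalSer (C.σ L.j) p = ι T := by
    rw [← C.σ_evalJ, ← L.coe_polyEquiv, ← hι, ← halg, IsScalarTower.algebraMap_apply
      (L.lineRing U) L.lineField E, hr, ht]
  -- Compare with the partial trace term by term.
  rw [hιT, ← map_sub, show T - (∑ γ : E ≃ₐ[L.lineField] E, (if q γ then 1 else 0) * γ (a : E))
      = ∑ γ : E ≃ₐ[L.lineField] E, (γ (f : E) - (if q γ then 1 else 0)) * γ (a : E) by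
    simp only [T, Subalgebra.coe_mul, map_mul, sub_mul, Finset.sum_sub_distrib], map_sum]
  refine Valuation.map_sum_le _ fun γ _ => ?_
  rw [map_mul, map_mul]
  refine (mul_le_of_le_one_right' (hle1 γ)).trans ?_
  have hf : ι (γ (f : E)) = 1 - (1 - ι (γ (e : E)) ^ n) ^ n := by
    simp only [f, Subalgebra.coe_sub, Subalgebra.coe_one, Subalgebra.coe_pow, map_sub,
      map_pow, map_one]
  rw [map_sub, hf]
  by_cases h : q γ
  · simp only [if_pos h, map_one]
    refine (gauss_approx S.gauss).2 ?_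
    exact he1 γ h
  · simp only [if_neg h, map_zero, sub_zero]
    exact (gauss_approx S.gauss).1 (he0 γ h)

omit C in
/-- Elements integral over the functions on the line have bounded expansions. -/
private theorem bd_of_isIntegral {E : Type*} [Field E] [Algebra (L.lineRing U) E]
    (C' : CuspEmb L S) (φ : E →+* S.SerF)
    (hφ : ∀ r : L.lineRing U, φ (algebraMap (L.lineRing U) E r) = C'.σ (r : Ω)) {b : E}
    (hb : IsIntegral (L.lineRing U) b) : S.Bd (φ b) := by
  obtain ⟨p, hp, e⟩ := hb
  refine SerBase.bd_of_monic (hp.map (φ.comp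
    (algebraMap (L.lineRing U) E))) (fun i => ?_) ?_
  · rw [coeff_map, RingHom.comp_apply, hφ]
    exact C'.bd_lineRing (p.coeff i).2
  · show _ = (0 : S.SerF)
    rw [eval_map, ← hom_eval₂, e, map_zero]

omit C S in
/-- Different powers of a primitive root of unity differ by a unit. -/
private theorem isUnit_pow_sub_pow {m : ℕ} {ζ : U.W}
    (hζres : IsPrimitiveRoot (residue U.W ζ) m) {i k : ℕ} (hi : i < m) (hk : k < m) (hne : i ≠ k) :
    IsUnit (ζ ^ i - ζ ^ k) := by
  refine (IsLocalRing.residue_ne_zero_iff_isUnit _).1 ?_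
  rw [map_sub, map_pow, map_pow, sub_ne_zero]
  exact fun e => hne (hζres.pow_inj hi hk e)

omit C in
/-- The root of unity near an element is unique. -/
private theorem label_unique {m : ℕ} {ζ : U.W} (hζres : IsPrimitiveRoot (residue U.W ζ) m)
    {y : S.SerF} {i k : ℕ} (hi : i < m) (hk : k < m) (hiy : S.gauss (y - S.cst (ζ ^ i)) < 1)
    (hky : S.gauss (y - S.cst (ζ ^ k)) < 1) : k = i := by
  by_contra hne
  have hlt : S.gauss (S.cst (ζ ^ k) - S.cst (ζ ^ i)) < 1 := by
    rw [show S.cst (ζ ^ k) - S.cst (ζ ^ i) = (y - S.cst (ζ ^ i)) - (y - S.cst (ζ ^ k)) by ring]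
    exact (Valuation.map_sub _ _ _).trans_lt (max_lt hiy hky)
  rw [← map_sub, S.gauss_cst_unit (isUnit_pow_sub_pow hζres hk hi hne)] at hlt
  exact lt_irrefl _ hlt

omit C in
/-- An `m`-th root of `u`, divided by the expansion of the approximate root prescribed at the
centre (`u / H P ^ m` is near `1` at `P`), has an `m`-th power near `1` and norm `1`. -/
private theorem gauss_div_centre_root (C' : CuspEmb L S) {m : ℕ} (hm0 : m ≠ 0) {u : Ωˣ}
    {H : Ideal (L.modelRing U) → Ωˣ}
    (hcong : ∀ (P : Ideal (L.modelRing U)) [P.IsPrime], (L.frame.q : L.modelRing U) ∈ P →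
      InMax (localRing P) (((u / H P ^ m : Ωˣ) : Ω) - 1))
    {r : S.SerF} (hr : r ^ m = C'.σ (u : Ω)) :
    S.gauss ((r / C'.σ (H C'.centre : Ω)) ^ m - 1) < 1 ∧
      S.gauss (r / C'.σ (H C'.centre : Ω)) = 1 := by
  have h := C'.gauss_lt_of_inMax (hcong C'.centre C'.natCast_mem_centre)
  rw [map_sub, map_one, Units.val_div_eq_div_val, map_div₀, Units.val_pow_eq_pow_val,
    map_pow, ← hr, ← div_pow] at h
  have h1 := (Valuation.map_eq_of_sub_lt S.gauss (x := 1)
    (y := (r / C'.σ (H C'.centre : Ω)) ^ m) (by rw [map_one]; exact h)).trans (map_one _)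
  rw [map_pow] at h1
  exact ⟨h, (pow_eq_one_iff.1 h1).resolve_right hm0⟩

omit C in
/-- An `m`-th root of unity preserving the label of an element is `1`. -/
private theorem eq_one_of_label_eq {m : ℕ} (hm0 : m ≠ 0) {ζ : U.W} (hζ : IsPrimitiveRoot ζ m)
    (hζres : IsPrimitiveRoot (residue U.W ζ) m) {x y : S.SerF} (hx : x ^ m = 1) {l : ℕ}
    (hl : l < m) (hy : S.gauss (y - S.cst (ζ ^ l)) < 1)
    (hxy : S.gauss (x * y - S.cst (ζ ^ l)) < 1) : x = 1 := by
  have : NeZero m := ⟨hm0⟩
  obtain ⟨i, hi, rfl⟩ := (hζ.map_of_injective S.cst_injective).eq_pow_of_pow_eq_one hx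
  have hmul : S.gauss (S.cst ζ ^ i * y - S.cst (ζ ^ i) * S.cst (ζ ^ l)) < 1 := by
    rw [← map_pow, ← mul_sub, map_mul]
    exact mul_lt_one_of_nonneg_of_lt_one_right
      (SerBase.gauss_le_one_of_bd (SerBase.bd_cst _)) zero_le hy
  rw [← map_mul, ← pow_add, ← Nat.mod_add_div (i + l) m, pow_add (ζ) ((i + l) % m), pow_mul,
    hζ.pow_eq_one, one_pow, mul_one] at hmul
  have h1 := label_unique hζres hl (Nat.mod_lt _ (Nat.pos_of_ne_zero hm0)) hxy hmul
  have hi0 : i = 0 := by
    have h2 : (i + l) % m = (0 + l) % m := by rw [h1, zero_add, Nat.mod_eq_of_lt hl]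
    have := Nat.ModEq.add_right_cancel' l (show i + l ≡ 0 + l [MOD m] from h2)
    rwa [Nat.ModEq, Nat.mod_eq_of_lt hi, Nat.zero_mod] at this
  rw [hi0, pow_zero]

omit C in
/-- The elements whose image under an embedding has norm less than `1`. -/
private def gaussIdeal {E : Type*} [Field E] {R : Type*} [CommRing R] [Algebra R E]
    (B : Subalgebra R E) (φ : E →+* S.SerF) (hle : ∀ b : B, S.gauss (φ b) ≤ 1) : Ideal B where
  carrier := {b | S.gauss (φ (b : E)) < 1}
  zero_mem' := by simp
  add_mem' := fun {a b} ha hb => by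
    show S.gauss (φ ((a + b : B) : E)) < 1
    rw [Subalgebra.coe_add, map_add]
    exact Valuation.map_add_lt _ ha hb
  smul_mem' := fun c a ha => by
    show S.gauss (φ ((c • a : B) : E)) < 1
    rw [smul_eq_mul, Subalgebra.coe_mul, map_mul, map_mul]
    exact mul_lt_one_of_nonneg_of_lt_one_right (hle c) zero_le ha

omit C S in
/-- Near a point of the special fibre, the root times a denominator over the prescribed root is
integral over the functions on the line. -/
private theorem exists_integral_twisted_root {E : Type*} [Field E] [Algebra L.lineField E]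
    [Algebra (L.lineRing U) E] [IsScalarTower (L.lineRing U) L.lineField E]
    (jE : Ω →ₐ[L.lineField] E) {m : ℕ} (hm0 : m ≠ 0) {u : Ωˣ} {ρ : E}
    (hρ : ρ ^ m = jE (u : Ω)) {P : Ideal (L.modelRing U)} [P.IsPrime] {h : Ωˣ}
    (hcong : InMax (localRing P) (((u / h ^ m : Ωˣ) : Ω) - 1)) :
    ∃ d : L.modelRing U, d ∉ P ∧
      IsIntegral (L.lineRing U) (jE (d : Ω) * (ρ / jE (h : Ω))) := by
  set z : Ωˣ := u / h ^ m with hz
  have hzmem : (z : Ω) ∈ localRing P := by
    simpa [hz] using add_mem hcong.1 (one_mem (localRing P))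
  obtain ⟨a, d, hd, e⟩ := (mem_localRing P).1 hzmem
  refine ⟨d, hd, IsIntegral.of_pow (Nat.pos_of_ne_zero hm0) ?_⟩
  rw [show (jE (d : Ω) * (ρ / jE (h : Ω))) ^ m = jE ((a * d ^ (m - 1) : L.modelRing U) : Ω) from
    twisted_root_pow jE hm0 hρ (by
      rw [← e, hz, Units.val_div_eq_div_val, Units.val_pow_eq_pow_val])]
  exact ((a * d ^ (m - 1) : L.modelRing U).2 :
    IsIntegral (L.lineRing U) ((a * d ^ (m - 1) : L.modelRing U) : Ω)).map
      (jE.restrictScalars (L.lineRing U))

/-- Partial traces over a set separated by an integral element are rational. -/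
private theorem partial_trace_fixed {E : Type*} [Field E] [Algebra L.lineField E]
    [FiniteDimensional L.lineField E] [IsGalois L.lineField E] [Algebra (L.lineRing U) E]
    [IsScalarTower (L.lineRing U) L.lineField E] (jE : Ω →ₐ[L.lineField] E)
    (halg : ∀ r : L.lineRing U, algebraMap (L.lineRing U) E r = jE (r : Ω))
    (ι : E →+* S.SerF) (hι : ∀ z, ι (jE z) = C.σ z) (q : (E ≃ₐ[L.lineField] E) → Prop)
    [DecidablePred q] (e a : integralClosure (L.lineRing U) E)
    (hbd : ∀ γ : E ≃ₐ[L.lineField] E, S.Bd (ι (γ (a : E))))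
    (he0 : ∀ γ, ¬ q γ → S.gauss (ι (γ (e : E))) < 1)
    (he1 : ∀ γ, q γ → S.gauss (ι (γ (e : E)) - 1) < 1) (δ : E ≃ₐ[L.lineField] E) :
    δ (∑ γ, (if q γ then 1 else 0) * γ (a : E)) = ∑ γ, (if q γ then 1 else 0) * γ (a : E) := by
  set s : E := ∑ γ, (if q γ then 1 else 0) * γ (a : E)
  have hbd_s : S.Bd (ι s) := by
    rw [map_sum]
    refine (S.bdRing).sum_mem fun γ _ => ?_
    show S.Bd _
    rw [map_mul]
    refine SerBase.Bd.mul ?_ (hbd γ)
    split_ifs
    · rw [map_one]; exact SerBase.bd_one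
    · rw [map_zero]; exact SerBase.bd_zero
  obtain ⟨p, hp⟩ := SerBase.exists_eq_evalSer C.σ_j C.one_le C.unit hbd_s
    (C.exists_poly_near_partial_trace jE halg ι hι q e a
      (fun γ => SerBase.gauss_le_one_of_bd (hbd γ)) he0 he1)
  have : s = algebraMap L.lineField E (algebraMap (L.lineRing U) L.lineField (L.polyEquiv U p)) :=
    ι.injective (by
      rw [← hp, ← IsScalarTower.algebraMap_apply, halg, hι, L.coe_polyEquiv, C.σ_evalJ])
  rw [this]
  exact δ.commutes _

omit C in
/-- A twisted root is near its label times the denominator. -/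
private theorem gauss_twisted_sub_lt {E : Type*} [Field E] (C' : CuspEmb L S) (φ : E →+* S.SerF)
    {j : Ω →+* E} (hφ : ∀ z, φ (j z) = C'.σ z) {ρ : E} {hP hN : Ωˣ} {d : L.modelRing U} {c : U.W}
    (hlab : S.gauss (φ ρ / C'.σ (hP : Ω) - S.cst c) < 1)
    (hg : S.gauss (C'.σ (hN : Ω) / C'.σ (hP : Ω) - 1) < 1) :
    S.gauss (φ (j (d : Ω) * (ρ / j (hN : Ω)) -
      j ((d * L.baseHom U c : L.modelRing U) : Ω))) < 1 := by
  set g := C'.σ (hN : Ω) / C'.σ (hP : Ω) with hg_def
  have hg1 : S.gauss g = 1 :=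
    (Valuation.map_eq_of_sub_lt _ (by rwa [map_one])).trans (map_one _)
  have hx : C'.σ ((L.baseHom U c : L.modelRing U) : Ω) = S.cst c := (C'.σ_cst c :)
  set y := φ ρ / C'.σ (hP : Ω) with hy
  have : φ (j (d : Ω) * (ρ / j (hN : Ω)) - j ((d * L.baseHom U c : L.modelRing U) : Ω))
      = C'.σ (d : Ω) * ((y - S.cst c * g) / g) := by
    rw [map_sub, hφ, Subring.coe_mul, map_mul C'.σ, hx]
    simp only [map_mul, map_div₀, hφ, hg_def, hy]
    have h1 : C'.σ (hN : Ω) ≠ 0 := (_root_.map_ne_zero _).2 (Units.ne_zero _)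
    have h2 : C'.σ (hP : Ω) ≠ 0 := (_root_.map_ne_zero _).2 (Units.ne_zero _)
    field_simp
  rw [this, map_mul, map_div₀, hg1, div_one]
  refine mul_lt_one_of_nonneg_of_lt_one_right (C'.gauss_σ_le d.2) zero_le ?_
  rw [show y - S.cst c * g = (y - S.cst c) - S.cst c * (g - 1) by ring]
  refine (Valuation.map_sub _ _ _).trans_lt (max_lt hlab ?_)
  rw [map_mul]
  exact mul_lt_one_of_nonneg_of_lt_one_right
    (SerBase.gauss_le_one_of_bd (SerBase.bd_cst _)) zero_le hg

/-- An automorphism fixing `Ω` and preserving the label of a root fixes the root. -/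
private theorem eq_self_of_label_eq {E : Type*} [Field E] [Algebra L.lineField E]
    (jE : Ω →ₐ[L.lineField] E) (C : CuspEmb L S) (ι : E →+* S.SerF) (hι : ∀ z, ι (jE z) = C.σ z)
    {m : ℕ} (hm0 : m ≠ 0) {ζ : U.W} (hζ : IsPrimitiveRoot ζ m)
    (hζres : IsPrimitiveRoot (residue U.W ζ) m) {u : Ωˣ} {ρ : E} (hρ : ρ ^ m = jE (u : Ω))
    (δ : E ≃ₐ[L.lineField] E) (hδj : ∀ z, δ (jE z) = jE z) {l : ℕ} (hl : l < m) {x : S.SerF}
    (h1 : S.gauss (ι ((1 : E ≃ₐ[L.lineField] E) ρ) / x - S.cst (ζ ^ l)) < 1)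
    (hδ : S.gauss (ι (δ ρ) / x - S.cst (ζ ^ l)) < 1) : δ ρ = ρ := by
  have hρ0 : ρ ≠ 0 := fun h => by
    rw [h, zero_pow hm0] at hρ
    exact u.ne_zero ((map_eq_zero jE.toRingHom).1 hρ.symm)
  have hroot1 : (ι (δ ρ) / ι ρ) ^ m = 1 := by
    rw [div_pow, ← map_pow, ← map_pow, ← map_pow, hρ, hδj, div_self]
    rw [hι]
    exact (_root_.map_ne_zero C.σ).2 u.ne_zero
  rw [AlgEquiv.one_apply] at h1
  refine ι.injective (eq_of_div_eq_one ?_)
  refine eq_one_of_label_eq hm0 hζ hζres hroot1 hl h1 ?_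
  rwa [div_mul_div_cancel₀ ((_root_.map_ne_zero ι).2 hρ0)]

omit C S in
/-- A prime missing `d` does not contain the difference of `x - d a` and `x - d b`, `b - a` a
unit. -/
private theorem false_of_mem_sub {B : Type*} [CommRing B] (M : Ideal B) [M.IsPrime]
    (jR : L.modelRing U →+* B) {d : L.modelRing U} (hd : d ∉ M.comap jR) {a b : U.W} {x : B}
    (hu : IsUnit (b - a))
    (h : x - jR (d * L.baseHom U a) - (x - jR (d * L.baseHom U b)) ∈ M) : False := by
  rw [sub_sub_sub_cancel_left, ← map_sub, ← mul_sub, ← map_sub] at h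
  refine hd ((Ideal.IsPrime.mem_or_mem (I := M.comap jR) (Ideal.IsPrime.comap _) h).resolve_right
    fun h => (Ideal.IsPrime.comap (f := jR) (K := M)).ne_top ?_)
  exact (M.comap jR).eq_top_of_isUnit_mem h (hu.map _)

/-- The conjugates of the embedding agree with it on the line field. -/
private theorem conj_apply_lineField {E : Type*} [Field E] [Algebra L.lineField E]
    (jE : Ω →ₐ[L.lineField] E) (ι : E →+* S.SerF) (hι : ∀ z, ι (jE z) = C.σ z)
    (γ : E ≃ₐ[L.lineField] E) (z : Ω) (hz : z ∈ L.lineField) : ι (γ (jE z)) = C.σ z := by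
  show ι (γ (jE (algebraMap L.lineField Ω ⟨z, hz⟩))) = C.σ (algebraMap L.lineField Ω ⟨z, hz⟩)
  rw [AlgHom.commutes, AlgEquiv.commutes, ← jE.commutes, hι]

/-! ### Rigidity -/

/-- The core of the rigidity, inside a Galois extension containing a root. -/
theorem rigid_core {E : Type*} [Field E] [Algebra L.lineField E]
    [FiniteDimensional L.lineField E] [IsGalois L.lineField E] (jE : Ω →ₐ[L.lineField] E)
    (ι : E →+* S.SerF) (hι : ∀ z, ι (jE z) = C.σ z)
    {m : ℕ} (hm : IsUnit (m : U.W)) {u : Ωˣ} {ρ : E} (hρ : ρ ^ m = jE (u : Ω))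
    (H : Ideal (L.modelRing U) → Ωˣ)
    (hcong : ∀ (P : Ideal (L.modelRing U)) [P.IsPrime], (L.frame.q : L.modelRing U) ∈ P →
      InMax (localRing P) (((u / H P ^ m : Ωˣ) : Ω) - 1))
    (hcoh : ∀ (P P' : Ideal (L.modelRing U)) [P.IsPrime] [P'.IsPrime],
      (L.frame.q : L.modelRing U) ∈ P → P ≤ P' →
        InMax (localRing P) (((H P' / H P : Ωˣ) : Ω) - 1)) :
    ∃ r : Ω, r ^ m = u := by
  classical
  have hm0 : m ≠ 0 := fun e => by simp [e] at hm
  obtain ⟨ζ, hζ, hζres⟩ := SerBase.exists_root_of_unity U hm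
  have hζF : IsPrimitiveRoot (S.cst ζ) m := hζ.map_of_injective S.cst_injective
  -- the embeddings
  let τ : (E ≃ₐ[L.lineField] E) → (Ω →+* S.SerF) := fun γ =>
    (ι.comp γ.toRingEquiv.toRingHom).comp jE.toRingHom
  have hτline : ∀ γ, ∀ z ∈ L.lineField, τ γ z = C.σ z := C.conj_apply_lineField jE ι hι
  let Cγ : (E ≃ₐ[L.lineField] E) → CuspEmb L S := fun γ =>
    C.ofHom (τ γ) (fun c => hτline γ _ (L.lineField.algebraMap_mem c))
      (hτline γ _ (IntermediateField.subset_adjoin K _ rfl))
  have hσγ : ∀ γ z, (Cγ γ).σ z = ι (γ (jE z)) := fun γ z => rfl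
  let P : (E ≃ₐ[L.lineField] E) → Ideal (L.modelRing U) := fun γ => (Cγ γ).centre
  let y : (E ≃ₐ[L.lineField] E) → S.SerF := fun γ =>
    ι (γ ρ) / (Cγ γ).σ (H (P γ) : Ω)
  have hy : ∀ γ, S.gauss (y γ ^ m - 1) < 1 ∧ S.gauss (y γ) = 1 := fun γ =>
    gauss_div_centre_root (Cγ γ) hm0 hcong (by rw [hσγ, ← hρ, map_pow, map_pow])
  -- the label of `γ`: the root of unity near `γ ρ` over the root prescribed at its centre
  choose lab hlab_lt hlab using fun γ => exists_near_root_of_unity hm0 hζF (hy γ).1 (hy γ).2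
  -- the ring
  let : Algebra (L.lineRing U) E :=
    ((algebraMap L.lineField E).comp (algebraMap (L.lineRing U) L.lineField)).toAlgebra
  have : IsScalarTower (L.lineRing U) L.lineField E := IsScalarTower.of_algebraMap_eq fun _ => rfl
  have halg : ∀ r : L.lineRing U, algebraMap (L.lineRing U) E r = jE (r : Ω) := fun r =>
    (jE.commutes (algebraMap (L.lineRing U) L.lineField r)).symm
  set B := integralClosure (L.lineRing U) E
  have hbd : ∀ γ (b : B), S.Bd (ι ((γ : E ≃ₐ[L.lineField] E) (b : E))) := fun γ b =>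
    bd_of_isIntegral (Cγ γ) (ι.comp γ.toRingEquiv.toRingHom) (fun r => by rw [halg]; rfl) b.2
  have hle1 : ∀ γ (b : B), S.gauss (ι ((γ : E ≃ₐ[L.lineField] E) (b : E))) ≤ 1 := fun γ b =>
    SerBase.gauss_le_one_of_bd (hbd γ b)
  let jR : L.modelRing U →+* B :=
    (jE.toRingHom.comp (L.modelRing U).subtype).codRestrict B.toSubring fun a => by
      show IsIntegral (L.lineRing U) (jE (a : Ω))
      exact (a.2 : IsIntegral (L.lineRing U) (a : Ω)).map (jE.restrictScalars (L.lineRing U))
  let Q : (E ≃ₐ[L.lineField] E) → Ideal B := fun γ =>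
    gaussIdeal B (ι.comp γ.toRingEquiv.toRingHom) (hle1 γ)
  -- coherence: ideals of embeddings with different labels have no maximal ideal above both
  have hcop : ∀ γ γ', lab γ ≠ lab γ' → Q γ ⊔ Q γ' = ⊤ := by
    intro γ γ' hne
    by_contra htop
    obtain ⟨M, hM, hle⟩ := Ideal.exists_le_maximal _ htop
    have := hM.isPrime
    set PN := M.comap jR
    have : PN.IsPrime := Ideal.IsPrime.comap _
    have hPle : ∀ δ, Q δ ≤ M → P δ ≤ PN := fun δ h a ha => h (show jR a ∈ Q δ from ha)
    have hqN : (L.frame.q : L.modelRing U) ∈ PN :=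
      hPle γ (le_sup_left.trans hle) (Cγ γ).natCast_mem_centre
    obtain ⟨d, hd, heint⟩ := exists_integral_twisted_root jE hm0 hρ (hcong PN hqN)
    have key : ∀ δ, Q δ ≤ M →
        (⟨_, heint⟩ : B) - jR (d * L.baseHom U (ζ ^ lab δ)) ∈ M := by
      intro δ hQ
      refine hQ ?_
      show S.gauss (ι (δ (jE (d : Ω) * (ρ / jE (H PN : Ω)) -
        jE ((d * L.baseHom U (ζ ^ lab δ) : L.modelRing U) : Ω)))) < 1
      have hg := (Cγ δ).gauss_lt_of_inMax
        (hcoh (P δ) PN (Cγ δ).natCast_mem_centre (hPle δ hQ))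
      rw [map_sub, map_one, Units.val_div_eq_div_val, map_div₀] at hg
      exact gauss_twisted_sub_lt (Cγ δ) (ι.comp δ.toRingEquiv.toRingHom) (j := jE.toRingHom)
        (fun z => rfl) (hlab δ) hg
    have hdiff := M.sub_mem (key γ (le_sup_left.trans hle)) (key γ' (le_sup_right.trans hle))
    exact false_of_mem_sub M jR hd
      (isUnit_pow_sub_pow hζres (hlab_lt γ') (hlab_lt γ) hne.symm) hdiff
  -- the sums over the fibres of the labels are rational
  have hall : ∀ δ, lab δ = lab 1 :=
    label_eq_of_fibre_sums_fixed (R := L.lineRing U) fun k δ a ha => by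
      obtain ⟨e, he0, he1⟩ := exists_separating Q hcop k
      exact C.partial_trace_fixed jE halg ι hι (fun γ => lab γ = k) e ⟨a, ha⟩
        (fun γ => hbd γ ⟨a, ha⟩) he0 (fun γ h => by
          have := he1 γ h
          change S.gauss (ι (γ ((e - 1 : B) : E))) < 1 at this
          rwa [Subalgebra.coe_sub, Subalgebra.coe_one, map_sub, map_one, map_sub, map_one]
            at this) δ
  -- so there is one label; hence elements fixing `Ω` fix the root
  obtain ⟨r, hr⟩ : ρ ∈ jE.fieldRange := by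
    rw [← IsGalois.fixedField_fixingSubgroup jE.fieldRange, IntermediateField.mem_fixedField_iff]
    intro δ hδ
    rw [IntermediateField.mem_fixingSubgroup_iff] at hδ
    have hδj : ∀ z, δ (jE z) = jE z := fun z => hδ _ ⟨z, rfl⟩
    have hσ : ∀ z, (Cγ δ).σ z = (Cγ 1).σ z := fun z => by
      rw [hσγ, hσγ, hδj, AlgEquiv.one_apply]
    have hP : P δ = P 1 := by
      ext a
      simp only [P, mem_centre, hσ]
    refine eq_self_of_label_eq jE C ι hι hm0 hζ hζres hρ δ hδj (hlab_lt 1)
      (x := (Cγ 1).σ (H (P 1) : Ω)) (hlab 1) ?_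
    rw [← hall δ, ← hσ, ← hP]
    exact hlab δ
  exact ⟨r, jE.toRingHom.injective (by rw [map_pow]; exact (congrArg (· ^ m) hr).trans hρ)⟩

include C in
/-- **Rigidity.** A coherent root near the special fibre is a root. -/
theorem exists_pow_eq {m : ℕ} (hm : IsUnit (m : U.W)) {u : Ωˣ} (hpl : Places K m u)
    (H : Ideal (L.modelRing U) → Ωˣ)
    (hcong : ∀ (P : Ideal (L.modelRing U)) [P.IsPrime], (L.frame.q : L.modelRing U) ∈ P →
      InMax (localRing P) (((u / H P ^ m : Ωˣ) : Ω) - 1))
    (hcoh : ∀ (P P' : Ideal (L.modelRing U)) [P.IsPrime] [P'.IsPrime],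
      (L.frame.q : L.modelRing U) ∈ P → P ≤ P' →
        InMax (localRing P) (((H P' / H P : Ωˣ) : Ω) - 1)) :
    ∃ r : Ω, r ^ m = u := by
  classical
  have := L.finite
  have := L.normal
  have hm0 : m ≠ 0 := fun e => by simp [e] at hm
  let : Algebra L.lineField S.SerF :=
    (C.σ.comp (algebraMap L.lineField Ω)).toAlgebra
  let σA : Ω →ₐ[L.lineField] S.SerF := { C.σ with commutes' := fun _ => rfl }
  obtain ⟨ζ, hζ, -⟩ := SerBase.exists_root_of_unity U hm
  have hζF : IsPrimitiveRoot (S.cst ζ) m :=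
    hζ.map_of_injective (S.cst_injective)
  have hint : IsIntegral L.lineField (u : Ω) := Algebra.IsIntegral.isIntegral _
  set p0 := minpoly L.lineField (u : Ω) with hp0
  set p := p0.comp (X ^ m) with hp
  -- at every embedding the prescribed root has an expansion, so the splitting field of
  -- `X ^ m - u` and its conjugates embeds in the series
  have hroots : ∀ z : Ω, aeval z p0 = 0 → ∃ y, y ^ m = C.σ z := by
    intro z hz
    obtain ⟨δ, hδ⟩ := minpoly.exists_algEquiv_of_root' hint.isAlgebraic hz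
    have hδ' : δ (u : Ω) = z := hδ
    let Cδ : CuspEmb L S := C.ofHom (C.σ.comp δ.toRingEquiv.toRingHom)
      (fun c => congrArg C.σ (δ.commutes ⟨_, L.lineField.algebraMap_mem c⟩))
      (congrArg C.σ (δ.commutes ⟨_, IntermediateField.subset_adjoin K _ rfl⟩))
    obtain ⟨y, hy⟩ := Cδ.exists_root hm hpl (hcong Cδ.centre Cδ.natCast_mem_centre)
    exact ⟨y, hy.trans (congrArg C.σ hδ')⟩
  have hsplit : (p.map (algebraMap L.lineField S.SerF)).Splits := by
    rw [hp, Polynomial.map_comp, Polynomial.map_pow, map_X,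
      ← show (p0.map (algebraMap L.lineField Ω)).map C.σ
        = p0.map (algebraMap L.lineField S.SerF) from Polynomial.map_map _ _ _,
      (Normal.splits inferInstance (u : Ω) : (p0.map (algebraMap L.lineField Ω)).Splits)
        |>.eq_prod_roots_of_monic ((minpoly.monic hint).map _),
      Polynomial.map_multiset_prod, multiset_prod_comp, Multiset.map_map, Multiset.map_map]
    refine Splits.multisetProd fun g hg => ?_
    obtain ⟨z, hz, rfl⟩ := Multiset.mem_map.1 hg
    obtain ⟨y, hy⟩ := hroots z (by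
      rw [mem_roots', IsRoot, eval_map] at hz
      exact hz.2)
    simp only [Function.comp_apply, Polynomial.map_sub, map_X, map_C, sub_comp, X_comp, C_comp]
    exact X_pow_sub_C_splits_of_isPrimitiveRoot hζF hy
  have hp_ne : p ≠ 0 := by
    refine Monic.ne_zero ((minpoly.monic hint).comp (monic_X_pow m) ?_)
    rw [natDegree_X_pow]; exact hm0
  have := U.charZero
  have : CharZero L.lineField :=
    charZero_of_injective_algebraMap (algebraMap K L.lineField).injective
  obtain ⟨E, hfin, hgal, hjE, hroot⟩ := exists_galois_composite σA p hsplit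
  obtain ⟨y, hy⟩ := hroots (u : Ω) (minpoly.aeval _ _)
  have hyE : y ∈ E := hroot (by
    rw [mem_rootSet_of_ne hp_ne, hp, aeval_comp, map_pow, aeval_X, hy,
      show C.σ (u : Ω) = σA (u : Ω) from rfl, aeval_algHom_apply, minpoly.aeval, map_zero])
  exact C.rigid_core (σA.codRestrict E.toSubalgebra hjE) E.val.toRingHom (fun z => rfl) hm
    (ρ := (⟨y, hyE⟩ : E)) (Subtype.ext hy) H hcong hcoh

end CuspEmb

/-- **Main theorem of the integral study.** A function fixed by the subgroup of a combination,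
with divisor divisible by `m` and combination of translates a constant times an `m`-th power, has
a fixed power which is a constant times an `m`-th power. -/
theorem exists_const_mul_pow {Ω : Type} [Field Ω] [Algebra K Ω] [DecidableEq Ω]
    {L : TateLevel K Ω} {U : UnramBase K L.frame.q} {S : SerBase U} (C : CuspEmb L S)
    (D : CombId L.frame.q)
    {m : ℕ} (hm : IsUnit (m : U.W)) {f γ : Ωˣ} {κ : Kˣ} (hf : L.FixedBy D f)
    (hpl : Places K m f)
    (hlam : L.lam D (L.transl f) = Units.map (algebraMap K Ω).toMonoidHom κ * γ ^ m) :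
    ∃ (κ' : Kˣ) (h : Ωˣ),
      f ^ glueExp D = Units.map (algebraMap K Ω).toMonoidHom κ' * h ^ m := by
  have hm0 : m ≠ 0 := fun e => by simp [e] at hm
  obtain ⟨u, H, ⟨κ', γ', e⟩, hplu, hcong, hcoh⟩ :=
    TateLevel.exists_glue (U := U) D hm0 hf hpl hlam
  obtain ⟨r, hr⟩ := C.exists_pow_eq hm hplu H hcong hcoh
  have hr0 : r ≠ 0 := fun h => by
    rw [h, zero_pow hm0] at hr
    exact u.ne_zero hr.symm
  refine ⟨κ', γ' * Units.mk0 r hr0, ?_⟩
  rw [e, mul_pow, ← mul_assoc]
  congr 1
  exact Units.ext (by simp [hr])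

end Fermat.Agent.Carayol
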