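import Fermat.Agent.Carayol.Bound
import Fermat.Agent.Carayol.Consumer
import Fermat.Agent.ConductorLevel.Inputs

/-!
# Newform representations at primes whose square exactly divides the level

`newformCarayolInput`: for an odd prime `λ` a newform has a
`λ`-adic representation which is not unipotent on inertia at any prime `q ≠ λ` whose square exactly
divides the level. This is the input `ConductorLevel.NewformCarayolInput`, and `S36` is deduced
from it. The hypothesis on the residual representations is not needed. The proof, with the files of
`Carayol` used at each step:

1. Reduction to a bound (`Consumer`, with `Degree`, `Degeneracy`, `GoodOps`, `FixedVectors`). A
   Hecke operator killing level `M / q` but not the newform sends torsion to new classes, so a bound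
   on the new torsion classes fixed by inertia (`FixedNewTorsionBound` of `Statement`) leaves no
   fixed vector, whereas unipotent inertia fixes one.
2. Divisors (`Bound`, with `Inertial`, `Rational`, `NormRoot`): such a class is that of a fixed
   divisor `D` with `m D = div f`, rational over the base fixed by inertia, and both partial norms
   of `f` are constants times `m`-th powers.
3. The field of level `q n`, `n = L M`, of a Tate normal form with a marked point of order
   `L = 7` or `9` (`TateLevel` of `Datum`, constructed by analytic functions in `Carayol/Omega`),
   with its torsion points over a local ring, the kernel of reduction and the units at level `L`
   (`LocalPoints`, `Translate`, `Tate`, `Points`, `Kernel`, `Param`).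
4. Its integral model over an unramified base (`Base`, `Primes`, `Special`): the local ring at a
   closed point of the special fibre is factorial, as its maximal ideal has two generators, and is
   fixed by the automorphisms congruent to one on the kernel (`LocRing`, `Setting`, `Local`, `Cst`,
   `Regular`, `TwoDim`, `Constancy`, `MaxIdeal`, `Fixing`).
5. Rigidity at a cusp (`Comb`, `CombId`, `Inertia`, `Residue`, `PrimeVal`, `Divide`, `Glue`,
   `CuspRing`, `CuspEmb`, `Rigid`): a power of `f`, with exponent depending only on `q` and `M`,
   is a constant times an `m`-th power, so that multiple of `D` is principal. This is the bound.

## References

* H. Carayol, *Sur les représentations ℓ-adiques associées aux formes modulaires de Hilbert*,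
  Ann. Sci. Éc. Norm. Sup. (1986).

Carayol compares with the local Langlands correspondence through vanishing cycles. Here only
non-unipotence is proved, by the bound on torsion of `J₀(q ^ 2 M)` above, without either.
-/

set_option autoImplicit false

noncomputable section

namespace Fermat.Agent.Carayol

/-- S36: newform representations are not unipotent on inertia at primes whose square exactly divides
the level. Residual irreducibility and oddness are not used. -/
theorem newformCarayolInput : ConductorLevel.NewformCarayolInput := by
  intro M _ g hg lam _ S O' _ _ _ _ _ _ hlamO' hlam2 chig hchig iota hlamS hMS _
  -- Step 1, with the bound of steps 2 to 5.
  exact exists_rep_not_unipotent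
    (fun q M _ _ hq hqM => fixedNewTorsionBound q M hq hqM)
    hg lam S O' hlamO' hlam2 chig hchig iota hlamS hMS

end Fermat.Agent.Carayol

end
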